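import Mathlib
import Fermat.Prelude.Def_GaloisRep_Adic
import Fermat.Prelude.Def_GaloisRep_DeformationCondition

/-!
# S53: shared definitions for the framed / normal-form ("slice") construction

* `Gal` : the absolute Galois group of `ℚ`.
* `M2 A` : `2 × 2` matrices.
* `MatCont r` : adic continuity of a matrix valued map.
* `ofMatrix r hr : GaloisRepAdic A` : the representation on `Fin 2 → A`.
* `IsStrictLift 𝒪 rbar r` : `r` reduces entrywise to `rbar`.
* `Slice 𝒪`, `IsNormal sl r` : the three normalising entries.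
-/

set_option autoImplicit false

namespace Fermat.Agent.S53

open IsLocalRing

/-- The absolute Galois group of `ℚ`. -/
abbrev Gal : Type := AlgebraicClosure ℚ ≃ₐ[ℚ] AlgebraicClosure ℚ

/-- `2 × 2` matrices. -/
abbrev M2 (A : Type) : Type := Matrix (Fin 2) (Fin 2) A

section Cont

variable {A : Type} [CommRing A] [IsLocalRing A]

/-- Adic continuity of a matrix valued map on the Galois group. -/
def MatCont (r : Gal → M2 A) : Prop :=
  ∀ n : ℕ, ∃ L : IntermediateField ℚ (AlgebraicClosure ℚ), FiniteDimensional ℚ L ∧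
    ∀ σ : Gal, (∀ x ∈ L, σ x = x) → ∀ i j, (r σ - 1) i j ∈ maximalIdeal A ^ n

omit [IsLocalRing A] in
theorem mem_smul_top_of_forall_mem (I : Ideal A) (v : Fin 2 → A) (hv : ∀ i, v i ∈ I) :
    v ∈ I • (⊤ : Submodule A (Fin 2 → A)) := by
  have : v = ∑ i, v i • (Pi.single i (1 : A) : Fin 2 → A) := by
    ext j
    simp [Finset.sum_apply, Pi.single_apply]
  rw [this]
  exact Submodule.sum_mem _ fun i _ => Submodule.smul_mem_smul (hv i) Submodule.mem_top

/-- The adic Galois representation on `Fin 2 → A` attached to a continuous matrix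
representation. -/
noncomputable def ofMatrix (r : Gal →* M2 A) (hr : MatCont r) : GaloisRepAdic A where
  V := Fin 2 → A
  finrank_eq := by simp
  ρ := (Matrix.toLinAlgEquiv' (R := A) (n := Fin 2) : M2 A →* Module.End A (Fin 2 → A)).comp r
  isAdicContinuous := by
    intro n
    obtain ⟨L, hL, h⟩ := hr n
    refine ⟨L, hL, fun σ hσ v => ?_⟩
    apply mem_smul_top_of_forall_mem
    intro i
    have h1 : ((Matrix.toLinAlgEquiv' (R := A) (n := Fin 2) : M2 A →* Module.End A (Fin 2 → A)).comp
        r σ v - v) = (r σ - 1).mulVec v := by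
      show (r σ).mulVec v - v = _
      rw [Matrix.sub_mulVec, Matrix.one_mulVec]
    rw [h1]
    show ∑ j, (r σ - 1) i j * v j ∈ _
    exact Ideal.sum_mem _ fun j _ => Ideal.mul_mem_right _ _ (h σ hσ i j)

@[simp] theorem ofMatrix_V (r : Gal →* M2 A) (hr : MatCont r) : (ofMatrix r hr).V = (Fin 2 → A) :=
  rfl

theorem ofMatrix_ρ_apply (r : Gal →* M2 A) (hr : MatCont r) (σ : Gal) (v : Fin 2 → A) :
    (ofMatrix r hr).ρ σ v = (r σ).mulVec v := rfl

end Cont

section Lifts

variable (𝒪 : Type) [CommRing 𝒪] [IsLocalRing 𝒪]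
variable {A : Type} [CommRing A] [IsLocalRing A] [Algebra 𝒪 A]

/-- `r` reduces entrywise to `rbar` (formulated without `ResidueField.map`). -/
def IsStrictLift (rbar : Gal → M2 (ResidueField 𝒪)) (r : Gal → M2 A) : Prop :=
  ∀ (σ : Gal) (i j : Fin 2) (a : 𝒪), residue 𝒪 a = rbar σ i j →
    r σ i j - algebraMap 𝒪 A a ∈ maximalIdeal A

/-- Three normalising matrix entries, with chosen lifts of their residual values. -/
structure Slice where
  g : Fin 3 → Gal
  i : Fin 3 → Fin 2
  j : Fin 3 → Fin 2
  a : Fin 3 → 𝒪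

variable {𝒪}

/-- `r` is normal with respect to the slice: the three distinguished entries take the
prescribed values. -/
def IsNormal (sl : Slice 𝒪) (r : Gal → M2 A) : Prop :=
  ∀ m : Fin 3, r (sl.g m) (sl.i m) (sl.j m) = algebraMap 𝒪 A (sl.a m)

end Lifts

end Fermat.Agent.S53
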