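/-
S53 Layer 0 (helper3): matrix form of `GaloisRepAdic` / `ResidualGaloisRep`.
Built on the shared definitions of `Fermat.Agent.S53.Defs` (helper8).
-/
import Mathlib
import Fermat.Prelude.Def_GaloisRep_Adic
import Fermat.Prelude.Def_GaloisRep_DeformationCondition
import Fermat.Agent.S53.Defs

set_option autoImplicit false
set_option linter.style.haveILetI false

open scoped TensorProduct

namespace Fermat.Agent.S53

section General

variable {A : Type} [CommRing A] {V : Type} [AddCommGroup V] [Module A V]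

/-- Membership in `I • ⊤` can be tested on coordinates with respect to a finite basis. -/
lemma mem_smul_top_iff_repr {ι : Type} [Fintype ι] (b : Module.Basis ι A V) (I : Ideal A) (x : V) :
    x ∈ I • (⊤ : Submodule A V) ↔ ∀ i, b.repr x i ∈ I := by
  constructor
  · intro hx
    refine Submodule.smul_induction_on (p := fun x => ∀ i, b.repr x i ∈ I) hx ?_ ?_
    · intro a ha w _ i
      rw [map_smul, Finsupp.smul_apply, smul_eq_mul]
      exact I.mul_mem_right _ ha
    · intro x y hx hy i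
      rw [map_add, Finsupp.add_apply]
      exact I.add_mem (hx i) (hy i)
  · intro h
    rw [← b.sum_repr x]
    exact Submodule.sum_mem _ fun i _ => Submodule.smul_mem_smul (h i) Submodule.mem_top

end General

section Intertwine

variable {G : Type*} {A : Type*} [CommRing A]
  {V₁ V₂ : Type*} [AddCommGroup V₁] [Module A V₁] [AddCommGroup V₂] [Module A V₂]
  {ι : Type*} [Fintype ι] [DecidableEq ι]

/-- Two families of endomorphisms (on free modules with bases indexed by the same finite type)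
are intertwined by a linear equivalence iff their matrices are conjugate by an invertible matrix. -/
lemma exists_intertwining_iff (b₁ : Module.Basis ι A V₁) (b₂ : Module.Basis ι A V₂)
    (ρ₁ : G → Module.End A V₁) (ρ₂ : G → Module.End A V₂) :
    (∃ e : V₁ ≃ₗ[A] V₂, ∀ g x, e (ρ₁ g x) = ρ₂ g (e x)) ↔
      ∃ U : (Matrix ι ι A)ˣ, ∀ g, (U : Matrix ι ι A) * LinearMap.toMatrix b₁ b₁ (ρ₁ g) =
        LinearMap.toMatrix b₂ b₂ (ρ₂ g) * U := by
  constructor
  · rintro ⟨e, he⟩
    refine ⟨⟨LinearMap.toMatrix b₁ b₂ e.toLinearMap, LinearMap.toMatrix b₂ b₁ e.symm.toLinearMap,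
      ?_, ?_⟩, fun g => ?_⟩
    · rw [← LinearMap.toMatrix_comp b₂ b₁ b₂]
      simp
    · rw [← LinearMap.toMatrix_comp b₁ b₂ b₁]
      simp
    · show LinearMap.toMatrix b₁ b₂ e.toLinearMap * LinearMap.toMatrix b₁ b₁ (ρ₁ g) =
        LinearMap.toMatrix b₂ b₂ (ρ₂ g) * LinearMap.toMatrix b₁ b₂ e.toLinearMap
      rw [← LinearMap.toMatrix_comp b₁ b₁ b₂, ← LinearMap.toMatrix_comp b₁ b₂ b₂]
      congr 1
      ext x
      exact he g x
  · rintro ⟨U, hU⟩
    refine ⟨Matrix.toLinOfInv b₁ b₂ (M := (U : Matrix ι ι A)) (M' := ((U⁻¹ : (Matrix ι ι A)ˣ) :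
      Matrix ι ι A)) (by simp) (by simp), fun g x => ?_⟩
    have h1 : (Matrix.toLin b₁ b₂ (U : Matrix ι ι A)).comp (ρ₁ g) =
        (ρ₂ g).comp (Matrix.toLin b₁ b₂ (U : Matrix ι ι A)) := by
      apply (LinearMap.toMatrix b₁ b₂).injective
      rw [LinearMap.toMatrix_comp b₁ b₁ b₂, LinearMap.toMatrix_comp b₁ b₂ b₂,
        LinearMap.toMatrix_toLin, hU g]
    exact LinearMap.congr_fun h1 x

end Intertwine

section Adic

variable {A : Type} [CommRing A] [IsLocalRing A]

/-- The matrix-valued homomorphism of a `GaloisRepAdic` in a basis. -/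
noncomputable def matrixOf (ρ : GaloisRepAdic A) (b : Module.Basis (Fin 2) A ρ.V) : Gal →* M2 A :=
  (LinearMap.toMatrixAlgEquiv b : Module.End A ρ.V ≃ₐ[A] M2 A).toAlgHom.toMonoidHom.comp ρ.ρ

lemma matrixOf_apply (ρ : GaloisRepAdic A) (b : Module.Basis (Fin 2) A ρ.V) (σ : Gal) (i j : Fin 2) :
    matrixOf ρ b σ i j = b.repr (ρ.ρ σ (b j)) i := by
  simp [matrixOf, LinearMap.toMatrixAlgEquiv_apply]

lemma matCont_matrixOf (ρ : GaloisRepAdic A) (b : Module.Basis (Fin 2) A ρ.V) :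
    MatCont (matrixOf ρ b) := by
  intro n
  obtain ⟨L, hL, h⟩ := ρ.isAdicContinuous n
  refine ⟨L, hL, fun σ hσ i j => ?_⟩
  have h1 := (mem_smul_top_iff_repr b _ _).1 (h σ hσ (b j)) i
  rw [Matrix.sub_apply, matrixOf_apply, Matrix.one_apply]
  rw [map_sub, Finsupp.sub_apply, b.repr_self, Finsupp.single_apply] at h1
  convert h1 using 3
  exact eq_comm


lemma matrixOf_eq_toMatrix (ρ : GaloisRepAdic A) (b : Module.Basis (Fin 2) A ρ.V) (σ : Gal) :
    matrixOf ρ b σ = LinearMap.toMatrix b b (ρ.ρ σ) := rfl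

lemma isEquiv_refl (ρ : GaloisRepAdic A) : ρ.IsEquiv ρ := ⟨GaloisRepAdic.Equiv.refl ρ⟩

lemma isEquiv_symm {ρ₁ ρ₂ : GaloisRepAdic A} (h : ρ₁.IsEquiv ρ₂) : ρ₂.IsEquiv ρ₁ :=
  h.elim fun e => ⟨e.symm⟩

lemma isEquiv_trans {ρ₁ ρ₂ ρ₃ : GaloisRepAdic A} (h : ρ₁.IsEquiv ρ₂) (h' : ρ₂.IsEquiv ρ₃) :
    ρ₁.IsEquiv ρ₃ :=
  h.elim fun e => h'.elim fun e' => ⟨e.trans e'⟩

lemma isEquiv_baseChangeAlong {B : Type} [CommRing B] [IsLocalRing B] (φ : A →+* B)
    (hφ : IsLocalHom φ) {ρ₁ ρ₂ : GaloisRepAdic A} (h : ρ₁.IsEquiv ρ₂) :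
    (ρ₁.baseChangeAlong φ hφ).IsEquiv (ρ₂.baseChangeAlong φ hφ) :=
  h.elim fun e => ⟨e.baseChangeAlong φ hφ⟩

lemma isEquiv_iff_exists (ρ₁ ρ₂ : GaloisRepAdic A) :
    ρ₁.IsEquiv ρ₂ ↔ ∃ e : ρ₁.V ≃ₗ[A] ρ₂.V, ∀ σ x, e (ρ₁.ρ σ x) = ρ₂.ρ σ (e x) :=
  ⟨fun ⟨e⟩ => ⟨e.toLinearEquiv, e.map_apply⟩, fun ⟨e, he⟩ => ⟨⟨e, he⟩⟩⟩

/-- Two adic representations are equivalent iff their matrix forms (in any bases) are
`GL₂(A)`-conjugate. -/
theorem isEquiv_iff_matrixOf (ρ₁ ρ₂ : GaloisRepAdic A) (b₁ : Module.Basis (Fin 2) A ρ₁.V)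
    (b₂ : Module.Basis (Fin 2) A ρ₂.V) :
    ρ₁.IsEquiv ρ₂ ↔
      ∃ U : (M2 A)ˣ, ∀ σ, (U : M2 A) * matrixOf ρ₁ b₁ σ = matrixOf ρ₂ b₂ σ * U := by
  rw [isEquiv_iff_exists]
  exact exists_intertwining_iff b₁ b₂ (fun σ => ρ₁.ρ σ) (fun σ => ρ₂.ρ σ)

/-- The standard basis of the underlying module of `ofMatrix r hr`. -/
noncomputable def stdBasis (r : Gal →* M2 A) (hr : MatCont r) :
    Module.Basis (Fin 2) A (ofMatrix r hr).V :=
  Pi.basisFun A (Fin 2)

@[simp] lemma matrixOf_ofMatrix (r : Gal →* M2 A) (hr : MatCont r) :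
    matrixOf (ofMatrix r hr) (stdBasis r hr) = r := by
  ext σ : 1
  rw [matrixOf_eq_toMatrix]
  show LinearMap.toMatrix (Pi.basisFun A (Fin 2)) (Pi.basisFun A (Fin 2))
    (Matrix.toLin' (r σ)) = r σ
  rw [LinearMap.toMatrix_eq_toMatrix', LinearMap.toMatrix'_toLin']

/-- Every adic representation is equivalent to the one attached to its matrix form. -/
theorem isEquiv_ofMatrix_matrixOf (ρ : GaloisRepAdic A) (b : Module.Basis (Fin 2) A ρ.V) :
    ρ.IsEquiv (ofMatrix (matrixOf ρ b) (matCont_matrixOf ρ b)) := by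
  rw [isEquiv_iff_matrixOf ρ _ b (stdBasis _ _)]
  exact ⟨1, fun σ => by simp⟩

/-- A basis of the underlying module of an adic representation. -/
noncomputable def someBasis (ρ : GaloisRepAdic A) : Module.Basis (Fin 2) A ρ.V :=
  Module.finBasisOfFinrankEq A ρ.V ρ.finrank_eq

theorem exists_isEquiv_ofMatrix (ρ : GaloisRepAdic A) :
    ∃ (r : Gal →* M2 A) (hr : MatCont r), ρ.IsEquiv (ofMatrix r hr) :=
  ⟨_, _, isEquiv_ofMatrix_matrixOf ρ (someBasis ρ)⟩

/-- `ofMatrix r` and `ofMatrix r'` are equivalent iff `r` and `r'` are `GL₂(A)`-conjugate. -/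
theorem isEquiv_ofMatrix_iff (r r' : Gal →* M2 A) (hr : MatCont r) (hr' : MatCont r') :
    (ofMatrix r hr).IsEquiv (ofMatrix r' hr') ↔
      ∃ U : (M2 A)ˣ, ∀ σ, (U : M2 A) * r σ = r' σ * U := by
  rw [isEquiv_iff_matrixOf _ _ (stdBasis r hr) (stdBasis r' hr')]
  simp


section BaseChange

variable {B : Type} [CommRing B] [IsLocalRing B]

/-- Push a matrix-valued homomorphism forward along a ring homomorphism (entrywise). -/
noncomputable def mapMat {A B : Type} [CommRing A] [CommRing B] (φ : A →+* B) (r : Gal →* M2 A) : Gal →* M2 B :=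
  (φ.mapMatrix : M2 A →+* M2 B).toMonoidHom.comp r

omit [IsLocalRing A] [IsLocalRing B] in
@[simp] lemma mapMat_apply (φ : A →+* B) (r : Gal →* M2 A) (σ : Gal) :
    mapMat φ r σ = (r σ).map φ := rfl

omit [IsLocalRing A] [IsLocalRing B] in
lemma mapMat_apply_apply (φ : A →+* B) (r : Gal →* M2 A) (σ : Gal) (i j : Fin 2) :
    mapMat φ r σ i j = φ (r σ i j) := rfl

omit [IsLocalRing A] in
@[simp] lemma mapMat_id (r : Gal →* M2 A) : mapMat (RingHom.id A) r = r := by
  ext σ i j; rfl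

omit [IsLocalRing A] [IsLocalRing B] in
lemma mapMat_comp {C : Type} [CommRing C] (ψ : B →+* C) (φ : A →+* B) (r : Gal →* M2 A) :
    mapMat (ψ.comp φ) r = mapMat ψ (mapMat φ r) := by
  ext σ i j; rfl

lemma map_maximalIdeal_pow_le_of_isLocalHom (φ : A →+* B) (hφ : IsLocalHom φ) (n : ℕ) :
    (IsLocalRing.maximalIdeal A ^ n).map φ ≤ IsLocalRing.maximalIdeal B ^ n := by
  rw [Ideal.map_pow]
  exact Ideal.pow_right_mono (Ideal.map_le_iff_le_comap.mpr fun a ha =>
    Ideal.mem_comap.mpr (haveI := hφ; map_nonunit φ a ha)) n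

lemma MatCont.mapMat {r : Gal →* M2 A} (hr : MatCont r) (φ : A →+* B) (hφ : IsLocalHom φ) :
    MatCont (mapMat φ r) := by
  intro n
  obtain ⟨L, hL, h⟩ := hr n
  refine ⟨L, hL, fun σ hσ i j => ?_⟩
  have : (Fermat.Agent.S53.mapMat φ r σ - 1) i j = φ ((r σ - 1) i j) := by
    rw [Matrix.sub_apply, Matrix.sub_apply, mapMat_apply_apply, map_sub, Matrix.one_apply,
      Matrix.one_apply]
    split_ifs <;> simp
  rw [this]
  exact map_maximalIdeal_pow_le_of_isLocalHom φ hφ n (Ideal.mem_map_of_mem φ (h σ hσ i j))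

/-- The base-changed basis of `(ρ.baseChangeAlong φ hφ).V = B ⊗[A] ρ.V`. -/
noncomputable def baseChangeBasis (φ : A →+* B) (hφ : IsLocalHom φ) (ρ : GaloisRepAdic A)
    (b : Module.Basis (Fin 2) A ρ.V) : Module.Basis (Fin 2) B (ρ.baseChangeAlong φ hφ).V :=
  letI : Algebra A B := φ.toAlgebra
  b.baseChange B

theorem matrixOf_baseChangeAlong (φ : A →+* B) (hφ : IsLocalHom φ) (ρ : GaloisRepAdic A)
    (b : Module.Basis (Fin 2) A ρ.V) :
    matrixOf (ρ.baseChangeAlong φ hφ) (baseChangeBasis φ hφ ρ b) = mapMat φ (matrixOf ρ b) := by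
  letI : Algebra A B := φ.toAlgebra
  ext σ i j
  rw [matrixOf_apply, mapMat_apply_apply, matrixOf_apply]
  show (b.baseChange B).repr ((ρ.ρ σ).baseChange B (b.baseChange B j)) i = _
  rw [Module.Basis.baseChange_apply, LinearMap.baseChange_tmul, Module.Basis.baseChange_repr_tmul,
    Algebra.smul_def, mul_one]
  rfl

/-- Base change of a representation, in matrix form. -/
theorem baseChangeAlong_isEquiv_ofMatrix (φ : A →+* B) (hφ : IsLocalHom φ) (ρ : GaloisRepAdic A)
    (b : Module.Basis (Fin 2) A ρ.V) :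
    (ρ.baseChangeAlong φ hφ).IsEquiv
      (ofMatrix (mapMat φ (matrixOf ρ b)) ((matCont_matrixOf ρ b).mapMat φ hφ)) := by
  rw [isEquiv_iff_matrixOf _ _ (baseChangeBasis φ hφ ρ b) (stdBasis _ _)]
  exact ⟨1, fun σ => by rw [matrixOf_baseChangeAlong, matrixOf_ofMatrix]; simp⟩

/-- Base change of `ofMatrix r` is `ofMatrix (φ ∘ r)`. -/
theorem baseChangeAlong_ofMatrix_isEquiv (φ : A →+* B) (hφ : IsLocalHom φ) (r : Gal →* M2 A)
    (hr : MatCont r) :
    ((ofMatrix r hr).baseChangeAlong φ hφ).IsEquiv (ofMatrix (mapMat φ r) (hr.mapMat φ hφ)) := by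
  rw [isEquiv_iff_matrixOf _ _ (baseChangeBasis φ hφ _ (stdBasis r hr)) (stdBasis _ _)]
  exact ⟨1, fun σ => by rw [matrixOf_baseChangeAlong, matrixOf_ofMatrix, matrixOf_ofMatrix]; simp⟩

/-- Base change is compatible with composition. -/
theorem baseChangeAlong_comp_isEquiv {C : Type} [CommRing C] [IsLocalRing C] (φ : A →+* B)
    (hφ : IsLocalHom φ) (ψ : B →+* C) (hψ : IsLocalHom ψ) (hψφ : IsLocalHom (ψ.comp φ))
    (ρ : GaloisRepAdic A) :
    ((ρ.baseChangeAlong φ hφ).baseChangeAlong ψ hψ).IsEquiv (ρ.baseChangeAlong (ψ.comp φ) hψφ) := by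
  rw [isEquiv_iff_matrixOf _ _
    (baseChangeBasis ψ hψ _ (baseChangeBasis φ hφ ρ (someBasis ρ)))
    (baseChangeBasis (ψ.comp φ) hψφ ρ (someBasis ρ))]
  refine ⟨1, fun σ => ?_⟩
  rw [matrixOf_baseChangeAlong, matrixOf_baseChangeAlong, matrixOf_baseChangeAlong, mapMat_comp]
  simp

/-- Base change along the identity does nothing. -/
theorem baseChangeAlong_id_isEquiv (h : IsLocalHom (RingHom.id A)) (ρ : GaloisRepAdic A) :
    (ρ.baseChangeAlong (RingHom.id A) h).IsEquiv ρ := by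
  rw [isEquiv_iff_matrixOf _ _ (baseChangeBasis (RingHom.id A) h ρ (someBasis ρ)) (someBasis ρ)]
  refine ⟨1, fun σ => ?_⟩
  rw [matrixOf_baseChangeAlong, mapMat_id]
  simp

/-- Base change along equal ring homs gives equivalent representations. -/
theorem baseChangeAlong_congr_isEquiv {φ φ' : A →+* B} (h : φ = φ') (hφ : IsLocalHom φ)
    (hφ' : IsLocalHom φ') (ρ : GaloisRepAdic A) :
    (ρ.baseChangeAlong φ hφ).IsEquiv (ρ.baseChangeAlong φ' hφ') := by
  subst h
  exact isEquiv_refl _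

end BaseChange

end Adic

section Residual

variable {k : Type} [Field k]

/-- The matrix-valued homomorphism of a residual representation in a basis. -/
noncomputable def resMatrixOf (ρbar : ResidualGaloisRep k) (β : Module.Basis (Fin 2) k ρbar.V) :
    Gal →* M2 k :=
  (LinearMap.toMatrixAlgEquiv β : Module.End k ρbar.V ≃ₐ[k] M2 k).toAlgHom.toMonoidHom.comp ρbar.ρ

lemma resMatrixOf_eq_toMatrix (ρbar : ResidualGaloisRep k) (β : Module.Basis (Fin 2) k ρbar.V)
    (σ : Gal) : resMatrixOf ρbar β σ = LinearMap.toMatrix β β (ρbar.ρ σ) := rfl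

lemma resMatrixOf_apply (ρbar : ResidualGaloisRep k) (β : Module.Basis (Fin 2) k ρbar.V)
    (σ : Gal) (i j : Fin 2) : resMatrixOf ρbar β σ i j = β.repr (ρbar.ρ σ (β j)) i := by
  simp [resMatrixOf, LinearMap.toMatrixAlgEquiv_apply]

lemma resMatrixOf_factors (ρbar : ResidualGaloisRep k) (β : Module.Basis (Fin 2) k ρbar.V) :
    GaloisFactorsThroughFiniteLevel (resMatrixOf ρbar β) := by
  obtain ⟨L, hL, h⟩ := ρbar.factorsThroughFiniteLevel
  exact ⟨L, hL, fun σ hσ => by rw [resMatrixOf, MonoidHom.comp_apply, h σ hσ, map_one]⟩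

/-- A basis of the underlying space of a residual representation. -/
noncomputable def resSomeBasis (ρbar : ResidualGaloisRep k) : Module.Basis (Fin 2) k ρbar.V :=
  Module.finBasisOfFinrankEq k ρbar.V ρbar.finrank_eq

/-- The residual representation attached to a matrix-valued homomorphism of finite level. -/
noncomputable def resOfMatrix (rbar : Gal →* M2 k) (h : GaloisFactorsThroughFiniteLevel rbar) :
    ResidualGaloisRep k where
  V := Fin 2 → k
  finrank_eq := by simp
  ρ := (Matrix.toLinAlgEquiv' (R := k) (n := Fin 2) : M2 k →* Module.End k (Fin 2 → k)).comp rbar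
  factorsThroughFiniteLevel := by
    obtain ⟨L, hL, h1⟩ := h
    exact ⟨L, hL, fun σ hσ => by rw [MonoidHom.comp_apply, h1 σ hσ, map_one]⟩

/-- The standard basis of the underlying space of `resOfMatrix rbar h`. -/
noncomputable def resStdBasis (rbar : Gal →* M2 k) (h : GaloisFactorsThroughFiniteLevel rbar) :
    Module.Basis (Fin 2) k (resOfMatrix rbar h).V :=
  Pi.basisFun k (Fin 2)

@[simp] lemma resMatrixOf_resOfMatrix (rbar : Gal →* M2 k)
    (h : GaloisFactorsThroughFiniteLevel rbar) :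
    resMatrixOf (resOfMatrix rbar h) (resStdBasis rbar h) = rbar := by
  ext σ : 1
  rw [resMatrixOf_eq_toMatrix]
  show LinearMap.toMatrix (Pi.basisFun k (Fin 2)) (Pi.basisFun k (Fin 2))
    (Matrix.toLin' (rbar σ)) = rbar σ
  rw [LinearMap.toMatrix_eq_toMatrix', LinearMap.toMatrix'_toLin']

lemma resIsEquiv_iff_exists (ρ₁ ρ₂ : ResidualGaloisRep k) :
    ρ₁.IsEquiv ρ₂ ↔ ∃ e : ρ₁.V ≃ₗ[k] ρ₂.V, ∀ σ x, e (ρ₁.ρ σ x) = ρ₂.ρ σ (e x) :=
  ⟨fun ⟨e⟩ => ⟨e.toLinearEquiv, e.map_apply⟩, fun ⟨e, he⟩ => ⟨⟨e, he⟩⟩⟩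

lemma resIsEquiv_refl (ρ : ResidualGaloisRep k) : ρ.IsEquiv ρ := ⟨ResidualGaloisRep.Equiv.refl ρ⟩

lemma resIsEquiv_symm {ρ₁ ρ₂ : ResidualGaloisRep k} (h : ρ₁.IsEquiv ρ₂) : ρ₂.IsEquiv ρ₁ :=
  h.elim fun e => ⟨e.symm⟩

lemma resIsEquiv_trans {ρ₁ ρ₂ ρ₃ : ResidualGaloisRep k} (h : ρ₁.IsEquiv ρ₂)
    (h' : ρ₂.IsEquiv ρ₃) : ρ₁.IsEquiv ρ₃ :=
  h.elim fun e => h'.elim fun e' => ⟨e.trans e'⟩

/-- Two residual representations are equivalent iff their matrix forms are `GL₂(k)`-conjugate. -/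
theorem resIsEquiv_iff_matrixOf (ρ₁ ρ₂ : ResidualGaloisRep k)
    (β₁ : Module.Basis (Fin 2) k ρ₁.V) (β₂ : Module.Basis (Fin 2) k ρ₂.V) :
    ρ₁.IsEquiv ρ₂ ↔
      ∃ U : (M2 k)ˣ, ∀ σ, (U : M2 k) * resMatrixOf ρ₁ β₁ σ = resMatrixOf ρ₂ β₂ σ * U := by
  rw [resIsEquiv_iff_exists]
  exact exists_intertwining_iff β₁ β₂ (fun σ => ρ₁.ρ σ) (fun σ => ρ₂.ρ σ)

/-- (L0a) Every residual representation is equivalent to the one attached to its matrix form. -/
theorem resIsEquiv_resOfMatrix (ρbar : ResidualGaloisRep k) (β : Module.Basis (Fin 2) k ρbar.V) :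
    ρbar.IsEquiv (resOfMatrix (resMatrixOf ρbar β) (resMatrixOf_factors ρbar β)) := by
  rw [resIsEquiv_iff_matrixOf ρbar _ β (resStdBasis _ _)]
  exact ⟨1, fun σ => by simp⟩

/-- Transport of the matrix form along an equivalence. -/
lemma resMatrixOf_map_equiv {ρ₁ ρ₂ : ResidualGaloisRep k} (e : ResidualGaloisRep.Equiv ρ₁ ρ₂)
    (β : Module.Basis (Fin 2) k ρ₂.V) :
    resMatrixOf ρ₁ (β.map e.toLinearEquiv.symm) = resMatrixOf ρ₂ β := by
  ext σ i j
  rw [resMatrixOf_apply, resMatrixOf_apply, Module.Basis.map_repr, LinearEquiv.trans_apply,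
    LinearEquiv.symm_symm, Module.Basis.map_apply, e.map_apply, LinearEquiv.apply_symm_apply]

/-- The base-changed basis of `(ρbar.baseChangeAlong ψ).V = k' ⊗[k] ρbar.V`. -/
noncomputable def resBaseChangeBasis {k' : Type} [Field k'] (ψ : k →+* k')
    (ρbar : ResidualGaloisRep k) (β : Module.Basis (Fin 2) k ρbar.V) :
    Module.Basis (Fin 2) k' (ρbar.baseChangeAlong ψ).V :=
  letI : Algebra k k' := ψ.toAlgebra
  β.baseChange k'

theorem resMatrixOf_baseChangeAlong {k' : Type} [Field k'] (ψ : k →+* k')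
    (ρbar : ResidualGaloisRep k) (β : Module.Basis (Fin 2) k ρbar.V) :
    resMatrixOf (ρbar.baseChangeAlong ψ) (resBaseChangeBasis ψ ρbar β) =
      mapMat ψ (resMatrixOf ρbar β) := by
  letI : Algebra k k' := ψ.toAlgebra
  ext σ i j
  rw [resMatrixOf_apply, mapMat_apply_apply, resMatrixOf_apply]
  show (β.baseChange k').repr ((ρbar.ρ σ).baseChange k' (β.baseChange k' j)) i = _
  rw [Module.Basis.baseChange_apply, LinearMap.baseChange_tmul, Module.Basis.baseChange_repr_tmul,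
    Algebra.smul_def, mul_one]
  rfl

variable {A : Type} [CommRing A] [IsLocalRing A]

/-- The basis of `ρ.residual.V = ResidueField A ⊗[A] ρ.V` induced by a basis of `ρ.V`. -/
noncomputable def residualBasis (ρ : GaloisRepAdic A) (b : Module.Basis (Fin 2) A ρ.V) :
    Module.Basis (Fin 2) (IsLocalRing.ResidueField A) ρ.residual.V :=
  b.baseChange (IsLocalRing.ResidueField A)

lemma residualBasis_apply (ρ : GaloisRepAdic A) (b : Module.Basis (Fin 2) A ρ.V) (i : Fin 2) :
    residualBasis ρ b i = (1 : IsLocalRing.ResidueField A) ⊗ₜ[A] b i :=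
  Module.Basis.baseChange_apply _ b i

/-- The matrix form of the residual representation is the reduction of the matrix form. -/
theorem resMatrixOf_residual (ρ : GaloisRepAdic A) (b : Module.Basis (Fin 2) A ρ.V) :
    resMatrixOf ρ.residual (residualBasis ρ b) =
      mapMat (IsLocalRing.residue A) (matrixOf ρ b) := by
  ext σ i j
  rw [resMatrixOf_apply, mapMat_apply_apply, matrixOf_apply]
  show (b.baseChange (IsLocalRing.ResidueField A)).repr
    ((ρ.ρ σ).baseChange (IsLocalRing.ResidueField A)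
      (b.baseChange (IsLocalRing.ResidueField A) j)) i = _
  rw [Module.Basis.baseChange_apply, LinearMap.baseChange_tmul, Module.Basis.baseChange_repr_tmul,
    Algebra.smul_def, mul_one]
  rfl

/-- Residual equivalence in matrix terms. -/
theorem residual_isEquiv_iff (ρ : GaloisRepAdic A) (b : Module.Basis (Fin 2) A ρ.V)
    (ψ : k →+* IsLocalRing.ResidueField A) (ρbar : ResidualGaloisRep k)
    (β : Module.Basis (Fin 2) k ρbar.V) :
    ρ.residual.IsEquiv (ρbar.baseChangeAlong ψ) ↔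
      ∃ U : (M2 (IsLocalRing.ResidueField A))ˣ, ∀ σ,
        (U : M2 (IsLocalRing.ResidueField A)) * (matrixOf ρ b σ).map (IsLocalRing.residue A) =
          (resMatrixOf ρbar β σ).map ψ * U := by
  rw [resIsEquiv_iff_matrixOf _ _ (residualBasis ρ b) (resBaseChangeBasis ψ ρbar β),
    resMatrixOf_residual, resMatrixOf_baseChangeAlong]
  rfl

/-- (L0d, general `ψ`) If the matrix form reduces to `ψ ∘ rbar`, the residual representation
is `ρbar ⊗ ψ`. -/
theorem residual_isEquiv_of_map_eq (ρ : GaloisRepAdic A) (b : Module.Basis (Fin 2) A ρ.V)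
    (ψ : k →+* IsLocalRing.ResidueField A) (ρbar : ResidualGaloisRep k)
    (β : Module.Basis (Fin 2) k ρbar.V)
    (h : ∀ σ, (matrixOf ρ b σ).map (IsLocalRing.residue A) = (resMatrixOf ρbar β σ).map ψ) :
    ρ.residual.IsEquiv (ρbar.baseChangeAlong ψ) := by
  rw [residual_isEquiv_iff ρ b ψ ρbar β]
  exact ⟨1, fun σ => by rw [h σ]; simp⟩

/-- (L0e, general `ψ`) If the residual representation is `ρbar ⊗ ψ`, there is a basis in which the
matrix form reduces to `ψ ∘ rbar` on the nose (lift a basis via Nakayama). -/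
theorem exists_basis_map_eq (ρ : GaloisRepAdic A)
    (ψ : k →+* IsLocalRing.ResidueField A) (ρbar : ResidualGaloisRep k)
    (β : Module.Basis (Fin 2) k ρbar.V)
    (h : ρ.residual.IsEquiv (ρbar.baseChangeAlong ψ)) :
    ∃ b : Module.Basis (Fin 2) A ρ.V,
      ∀ σ, (matrixOf ρ b σ).map (IsLocalRing.residue A) = (resMatrixOf ρbar β σ).map ψ := by
  obtain ⟨e⟩ := h
  let β' := resBaseChangeBasis ψ ρbar β
  let w : Module.Basis (Fin 2) (IsLocalRing.ResidueField A) ρ.residual.V :=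
    β'.map e.toLinearEquiv.symm
  have hsurj : Function.Surjective (TensorProduct.mk A (IsLocalRing.ResidueField A) ρ.V 1) :=
    TensorProduct.mk_surjective A ρ.V (IsLocalRing.ResidueField A) Ideal.Quotient.mk_surjective
  choose v hv using fun i => hsurj (w i)
  have hv' : TensorProduct.mk A (IsLocalRing.ResidueField A) ρ.V 1 ∘ v = w := funext hv
  have hli : LinearIndependent A v :=
    Module.IsLocalRing.linearIndependent_of_flat v (hv' ▸ w.linearIndependent)
  have hsp : Submodule.span A (Set.range v) = ⊤ :=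
    IsLocalRing.span_eq_top_of_tmul_eq_basis v w hv
  let b : Module.Basis (Fin 2) A ρ.V := Module.Basis.mk hli hsp.ge
  have hbw : residualBasis ρ b = w := by
    apply Module.Basis.eq_of_apply_eq
    intro i
    rw [residualBasis_apply, Module.Basis.mk_apply]
    exact hv i
  refine ⟨b, fun σ => ?_⟩
  have h1 := resMatrixOf_residual ρ b
  rw [hbw, resMatrixOf_map_equiv e β', resMatrixOf_baseChangeAlong] at h1
  have h2 := DFunLike.congr_fun h1 σ
  rw [mapMat_apply, mapMat_apply] at h2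
  exact h2.symm

end Residual

section FiniteLevel

variable {A : Type} [CommRing A] [IsLocalRing A]

/-- A matrix-valued homomorphism of finite level is adically continuous. -/
lemma matCont_of_factors (r : Gal →* M2 A) (h : GaloisFactorsThroughFiniteLevel r) :
    MatCont r := by
  intro n
  obtain ⟨L, hL, h1⟩ := h
  refine ⟨L, hL, fun σ hσ i j => ?_⟩
  rw [h1 σ hσ, sub_self]
  exact Ideal.zero_mem _

/-- If some power of the maximal ideal vanishes, adic continuity means finite level. -/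
lemma factors_of_matCont {n : ℕ} (hn : IsLocalRing.maximalIdeal A ^ n = ⊥) (r : Gal →* M2 A)
    (hr : MatCont r) : GaloisFactorsThroughFiniteLevel r := by
  obtain ⟨L, hL, h⟩ := hr n
  refine ⟨L, hL, fun σ hσ => ?_⟩
  ext i j
  have := h σ hσ i j
  rw [hn, Ideal.mem_bot, Matrix.sub_apply, sub_eq_zero] at this
  exact this

omit [IsLocalRing A] in
lemma factors_of_mapMat_injective {B : Type} [CommRing B] (φ : A →+* B)
    (hφ : Function.Injective φ) (r : Gal →* M2 A)
    (h : GaloisFactorsThroughFiniteLevel (mapMat φ r)) : GaloisFactorsThroughFiniteLevel r := by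
  obtain ⟨L, hL, h1⟩ := h
  refine ⟨L, hL, fun σ hσ => ?_⟩
  ext i j
  apply hφ
  have := congrFun (congrFun (h1 σ hσ) i) j
  rw [mapMat_apply_apply] at this
  rw [this, Matrix.one_apply, Matrix.one_apply]
  split_ifs <;> simp

omit [IsLocalRing A] in
lemma factors_mapMat {B : Type} [CommRing B] (φ : A →+* B) (r : Gal →* M2 A)
    (h : GaloisFactorsThroughFiniteLevel r) : GaloisFactorsThroughFiniteLevel (mapMat φ r) := by
  obtain ⟨L, hL, h1⟩ := h
  exact ⟨L, hL, fun σ hσ => by rw [mapMat, MonoidHom.comp_apply, h1 σ hσ, map_one]⟩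

/-- Adic continuity can be tested on the quotients `A / m ^ n`. -/
lemma matCont_iff_forall_quotient (r : Gal →* M2 A) :
    MatCont r ↔ ∀ n : ℕ, GaloisFactorsThroughFiniteLevel
      (mapMat (Ideal.Quotient.mk (IsLocalRing.maximalIdeal A ^ n)) r) := by
  constructor
  · intro hr n
    obtain ⟨L, hL, h⟩ := hr n
    refine ⟨L, hL, fun σ hσ => ?_⟩
    ext i j
    rw [mapMat_apply_apply]
    have := h σ hσ i j
    rw [Matrix.sub_apply, ← Ideal.Quotient.eq, Matrix.one_apply] at this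
    rw [this, Matrix.one_apply]
    split_ifs <;> simp
  · intro h n
    obtain ⟨L, hL, h1⟩ := h n
    refine ⟨L, hL, fun σ hσ i j => ?_⟩
    have := congrFun (congrFun (h1 σ hσ) i) j
    rw [mapMat_apply_apply] at this
    rw [Matrix.sub_apply, ← Ideal.Quotient.eq, this, Matrix.one_apply, Matrix.one_apply]
    split_ifs <;> simp

end FiniteLevel

section Strict

open IsLocalRing

variable {𝒪 : Type} [CommRing 𝒪] [IsLocalRing 𝒪]
variable {A : Type} [CommRing A] [IsLocalRing A] [Algebra 𝒪 A]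

/-- Strictness is preserved by local `𝒪`-algebra homomorphisms. -/
lemma IsStrictLift.mapMat {B : Type} [CommRing B] [IsLocalRing B] [Algebra 𝒪 B]
    {rbar : Gal → M2 (ResidueField 𝒪)} {r : Gal →* M2 A} (h : IsStrictLift 𝒪 rbar r)
    (f : A →ₐ[𝒪] B) (hf : IsLocalHom (f : A →+* B)) :
    IsStrictLift 𝒪 rbar (Fermat.Agent.S53.mapMat (f : A →+* B) r) := by
  intro σ i j a ha
  have h1 := h σ i j a ha
  have : Fermat.Agent.S53.mapMat (f : A →+* B) r σ i j - algebraMap 𝒪 B a =
      f (r σ i j - algebraMap 𝒪 A a) := by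
    rw [map_sub, AlgHom.commutes]; rfl
  rw [this]
  haveI := hf
  exact map_nonunit (f : A →+* B) _ h1

variable [IsLocalHom (algebraMap 𝒪 A)]

lemma isStrictLift_iff (rbar : Gal → M2 (ResidueField 𝒪)) (r : Gal → M2 A) :
    IsStrictLift 𝒪 rbar r ↔
      ∀ σ i j, residue A (r σ i j) = ResidueField.map (algebraMap 𝒪 A) (rbar σ i j) := by
  constructor
  · intro h σ i j
    obtain ⟨a, ha⟩ := residue_surjective (rbar σ i j)
    have h1 := h σ i j a ha
    rw [← ha, ResidueField.map_residue, ← sub_eq_zero, ← map_sub]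
    exact (residue_eq_zero_iff _).mpr h1
  · intro h σ i j a ha
    rw [← residue_eq_zero_iff, map_sub, h σ i j, ← ha, ResidueField.map_residue, sub_self]

lemma isStrictLift_iff_map (rbar : Gal → M2 (ResidueField 𝒪)) (r : Gal → M2 A) :
    IsStrictLift 𝒪 rbar r ↔
      ∀ σ, (r σ).map (residue A) = (rbar σ).map (ResidueField.map (algebraMap 𝒪 A)) := by
  rw [isStrictLift_iff]
  constructor
  · intro h σ
    ext i j
    exact h σ i j
  · intro h σ i j
    exact congrFun (congrFun (h σ) i) j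

/-- (L0d) A strict lift has the right residual representation. -/
theorem residual_isEquiv_of_isStrictLift (ρbar : ResidualGaloisRep (ResidueField 𝒪))
    (β : Module.Basis (Fin 2) (ResidueField 𝒪) ρbar.V) (r : Gal →* M2 A) (hr : MatCont r)
    (h : IsStrictLift 𝒪 (resMatrixOf ρbar β) r) :
    (ofMatrix r hr).residual.IsEquiv
      (ρbar.baseChangeAlong (ResidueField.map (algebraMap 𝒪 A))) := by
  apply residual_isEquiv_of_map_eq (ofMatrix r hr) (stdBasis r hr) _ ρbar β
  rw [matrixOf_ofMatrix]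
  exact (isStrictLift_iff_map _ _).1 h

/-- (L0d') Same for a general representation with a basis in which it is strict. -/
theorem residual_isEquiv_of_isStrictLift_matrixOf (ρbar : ResidualGaloisRep (ResidueField 𝒪))
    (β : Module.Basis (Fin 2) (ResidueField 𝒪) ρbar.V) (ρ : GaloisRepAdic A)
    (b : Module.Basis (Fin 2) A ρ.V) (h : IsStrictLift 𝒪 (resMatrixOf ρbar β) (matrixOf ρ b)) :
    ρ.residual.IsEquiv (ρbar.baseChangeAlong (ResidueField.map (algebraMap 𝒪 A))) :=
  residual_isEquiv_of_map_eq ρ b _ ρbar β ((isStrictLift_iff_map _ _).1 h)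

/-- (L0e) A deformation of `ρbar` has a basis in which it is a strict lift of `rbar`. -/
theorem exists_basis_isStrictLift (ρbar : ResidualGaloisRep (ResidueField 𝒪))
    (β : Module.Basis (Fin 2) (ResidueField 𝒪) ρbar.V) (ρ : GaloisRepAdic A)
    (h : ρ.residual.IsEquiv (ρbar.baseChangeAlong (ResidueField.map (algebraMap 𝒪 A)))) :
    ∃ b : Module.Basis (Fin 2) A ρ.V, IsStrictLift 𝒪 (resMatrixOf ρbar β) (matrixOf ρ b) := by
  obtain ⟨b, hb⟩ := exists_basis_map_eq ρ _ ρbar β h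
  exact ⟨b, (isStrictLift_iff_map _ _).2 hb⟩

/-- (L0e') A deformation of `ρbar` is equivalent to `ofMatrix r` for a strict lift `r`. -/
theorem exists_isEquiv_ofMatrix_isStrictLift (ρbar : ResidualGaloisRep (ResidueField 𝒪))
    (β : Module.Basis (Fin 2) (ResidueField 𝒪) ρbar.V) (ρ : GaloisRepAdic A)
    (h : ρ.residual.IsEquiv (ρbar.baseChangeAlong (ResidueField.map (algebraMap 𝒪 A)))) :
    ∃ (r : Gal →* M2 A) (hr : MatCont r), IsStrictLift 𝒪 (resMatrixOf ρbar β) r ∧
      ρ.IsEquiv (ofMatrix r hr) := by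
  obtain ⟨b, hb⟩ := exists_basis_isStrictLift ρbar β ρ h
  exact ⟨matrixOf ρ b, matCont_matrixOf ρ b, hb, isEquiv_ofMatrix_matrixOf ρ b⟩

/-- (R1+R2 combined) Being a deformation of `ρbar` is preserved by base change along local
`𝒪`-algebra homomorphisms. -/
theorem residual_baseChangeAlong_isEquiv {B : Type} [CommRing B] [IsLocalRing B] [Algebra 𝒪 B]
    [IsLocalHom (algebraMap 𝒪 B)] (ρbar : ResidualGaloisRep (ResidueField 𝒪))
    (f : A →ₐ[𝒪] B) (hf : IsLocalHom (f : A →+* B)) (ρ : GaloisRepAdic A)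
    (h : ρ.residual.IsEquiv (ρbar.baseChangeAlong (ResidueField.map (algebraMap 𝒪 A)))) :
    (ρ.baseChangeAlong (f : A →+* B) hf).residual.IsEquiv
      (ρbar.baseChangeAlong (ResidueField.map (algebraMap 𝒪 B))) := by
  obtain ⟨b, hb⟩ := exists_basis_isStrictLift ρbar (resSomeBasis ρbar) ρ h
  apply residual_isEquiv_of_isStrictLift_matrixOf ρbar (resSomeBasis ρbar) _
    (baseChangeBasis (f : A →+* B) hf ρ b)
  rw [matrixOf_baseChangeAlong]
  exact hb.mapMat f hf

end Strict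

section OfResidual

variable {k : Type} [Field k]

/-- The trivial deformation `ofResidualGaloisRep ρbar` in matrix form. -/
theorem ofResidualGaloisRep_isEquiv_ofMatrix (ρbar : ResidualGaloisRep k)
    (β : Module.Basis (Fin 2) k ρbar.V) :
    (GaloisRepAdic.ofResidualGaloisRep ρbar).IsEquiv
      (ofMatrix (resMatrixOf ρbar β) (matCont_of_factors _ (resMatrixOf_factors ρbar β))) :=
  isEquiv_ofMatrix_matrixOf (GaloisRepAdic.ofResidualGaloisRep ρbar) β

end OfResidual

end Fermat.Agent.S53
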