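import Mathlib

/-!
# S53, layer 1: matrix algebra over local rings (Burnside, Nakayama, Schur, Carayol)

Everything here is pure algebra: `G` is an arbitrary monoid and representations are monoid
homomorphisms into `2 × 2` matrices.
-/

set_option autoImplicit false

open Module

namespace Fermat.Agent.S53.L1

/-- `2 × 2` matrices. -/
abbrev Mat2 (A : Type*) := Matrix (Fin 2) (Fin 2) A

section Burnside

variable {K : Type*} [Field K] [IsAlgClosed K] {V : Type*} [AddCommGroup V] [Module K V]
  [FiniteDimensional K V] [Nontrivial V] {G : Type*} [Monoid G]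

/-- Burnside's theorem: an irreducible finite-dimensional representation of a monoid over an
algebraically closed field spans the whole endomorphism algebra. -/
theorem burnside (ρ : G →* Module.End K V)
    (hirr : ∀ W : Submodule K V, (∀ g, ∀ x ∈ W, ρ g x ∈ W) → W = ⊥ ∨ W = ⊤) :
    Submodule.span K (Set.range ρ) = ⊤ := by
  set B : Subalgebra K (Module.End K V) := Algebra.adjoin K (Set.range ρ) with hB
  have hBspan : Subalgebra.toSubmodule B = Submodule.span K (Set.range ρ) := by
    rw [hB, Algebra.adjoin_eq_span]
    congr 1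
    have : (Submonoid.closure (Set.range ρ) : Set (Module.End K V)) = Set.range ρ := by
      rw [← MonoidHom.coe_mrange, Submonoid.closure_eq]
    exact this
  have : IsSimpleModule B V := by
    rw [isSimpleModule_iff]
    refine { exists_pair_ne := ⟨⊥, ⊤, bot_ne_top⟩, eq_bot_or_eq_top := ?_ }
    intro W
    have h := hirr (W.restrictScalars K) (fun g x hx => by
      have hg : ρ g ∈ B := Algebra.subset_adjoin ⟨g, rfl⟩
      have := W.smul_mem (⟨ρ g, hg⟩ : B) hx
      exact this)
    rcases h with h | h
    · left
      apply Submodule.restrictScalars_injective K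
      rw [h]; rfl
    · right
      apply Submodule.restrictScalars_injective K
      rw [h]; rfl
  have hschur := IsSimpleModule.algebraMap_end_bijective_of_isAlgClosed (A := B) (V := V) K
  have : Module.Finite (End B V) V := Module.Finite.of_restrictScalars_finite K (End B V) V
  have hdens := Module.Finite.toModuleEnd_moduleEnd_surjective (R := B) (M := V)
  rw [← hBspan, eq_top_iff]
  intro f _
  let f' : End (End B V) V :=
    { toFun := f
      map_add' := f.map_add
      map_smul' := by
        intro c x
        obtain ⟨a, rfl⟩ := hschur.2 c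
        simp only [RingHom.id_apply]
        show f ((algebraMap K (End B V) a) x) = (algebraMap K (End B V) a) (f x)
        rw [Module.algebraMap_end_apply, Module.algebraMap_end_apply, f.map_smul] }
  obtain ⟨b, hb⟩ := hdens f'
  have : (b : Module.End K V) = f := by
    ext x
    have := congrArg (fun g => g x) hb
    exact this
  rw [← this]
  exact b.2

end Burnside

section FullSpan

variable {G : Type*} [Monoid G]

/-- A matrix representation has *full span* if the matrices `r g` span all `2 × 2` matrices. -/
def FullSpan {A : Type*} [CommRing A] (r : G →* Mat2 A) : Prop :=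
  Submodule.span A (Set.range r) = ⊤

/-- Push a matrix representation forward along a ring homomorphism. -/
def mapRep {A B : Type*} [CommRing A] [CommRing B] (φ : A →+* B) (r : G →* Mat2 A) : G →* Mat2 B :=
  ((φ.mapMatrix : Mat2 A →+* Mat2 B) : Mat2 A →* Mat2 B).comp r

@[simp] theorem mapRep_apply {A B : Type*} [CommRing A] [CommRing B] (φ : A →+* B)
    (r : G →* Mat2 A) (g : G) : mapRep φ r g = (r g).map φ := rfl

theorem mapRep_mapRep {A B C : Type*} [CommRing A] [CommRing B] [CommRing C] (φ : A →+* B)
    (ψ : B →+* C) (r : G →* Mat2 A) : mapRep ψ (mapRep φ r) = mapRep (ψ.comp φ) r := by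
  ext g i j
  simp [mapRep_apply]

theorem mapRep_id {A : Type*} [CommRing A] (r : G →* Mat2 A) : mapRep (RingHom.id A) r = r := by
  ext g i j
  simp [mapRep_apply]

/-- Burnside for matrices over an algebraically closed field. -/
theorem fullSpan_of_irreducible {K : Type*} [Field K] [IsAlgClosed K] (r : G →* Mat2 K)
    (hirr : ∀ W : Submodule K (Fin 2 → K), (∀ g, ∀ x ∈ W, (r g).mulVec x ∈ W) → W = ⊥ ∨ W = ⊤) :
    FullSpan r := by
  let e : Mat2 K ≃ₐ[K] Module.End K (Fin 2 → K) := Matrix.toLinAlgEquiv'
  let ρ : G →* Module.End K (Fin 2 → K) := (e : Mat2 K →* Module.End K (Fin 2 → K)).comp r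
  have hρ : Submodule.span K (Set.range ρ) = ⊤ := by
    apply burnside ρ
    intro W hW
    apply hirr W
    intro g x hx
    have := hW g x hx
    simpa [ρ, e, Matrix.toLinAlgEquiv'_apply] using this
  unfold FullSpan
  have hmap : Submodule.map e.toLinearMap (Submodule.span K (Set.range r)) = ⊤ := by
    rw [Submodule.map_span, ← hρ]
    congr 1
    ext f
    constructor
    · rintro ⟨_, ⟨g, rfl⟩, rfl⟩; exact ⟨g, rfl⟩
    · rintro ⟨g, rfl⟩; exact ⟨r g, ⟨g, rfl⟩, rfl⟩
  rw [eq_top_iff]
  intro X _
  have hX : e.toLinearMap X ∈ Submodule.map e.toLinearMap (Submodule.span K (Set.range r)) := by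
    rw [hmap]; trivial
  obtain ⟨Y, hY, hYX⟩ := hX
  have : Y = X := e.injective hYX
  rw [← this]; exact hY

/-- Descent of full span along a field extension. -/
theorem fullSpan_of_fullSpan_map {k K : Type*} [Field k] [Field K] (φ : k →+* K)
    (r : G →* Mat2 k) (h : FullSpan (mapRep φ r)) : FullSpan r := by
  unfold FullSpan at h ⊢
  by_contra hne
  obtain ⟨lam, hlam0, hle⟩ := Submodule.exists_le_ker_of_lt_top _ (lt_top_iff_ne_top.2 hne)
  -- the extended functional
  let lamK : Mat2 K →ₗ[K] K :=
    { toFun := fun Y => ∑ i, ∑ j, φ (lam (Matrix.single i j 1)) * Y i j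
      map_add' := by
        intro Y Z
        simp only [Matrix.add_apply, mul_add, Finset.sum_add_distrib]
      map_smul' := by
        intro c Y
        simp only [Matrix.smul_apply, smul_eq_mul, RingHom.id_apply, Finset.mul_sum]
        refine Finset.sum_congr rfl fun i _ => Finset.sum_congr rfl fun j _ => ?_
        ring }
  have hlam_eq : ∀ X : Mat2 k, lam X = ∑ i, ∑ j, lam (Matrix.single i j 1) * X i j := by
    intro X
    conv_lhs => rw [Matrix.matrix_eq_sum_single X]
    simp only [map_sum]
    refine Finset.sum_congr rfl fun i _ => Finset.sum_congr rfl fun j _ => ?_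
    have : Matrix.single i j (X i j) = X i j • (Matrix.single i j (1 : k) : Mat2 k) := by
      rw [Matrix.smul_single, smul_eq_mul, mul_one]
    rw [this, map_smul, smul_eq_mul, mul_comm]
  have hcomp : ∀ X : Mat2 k, lamK (X.map φ) = φ (lam X) := by
    intro X
    rw [hlam_eq X]
    simp only [lamK, LinearMap.coe_mk, AddHom.coe_mk, Matrix.map_apply, map_sum, map_mul]
  have hzero : lamK = 0 := by
    have : Submodule.span K (Set.range (mapRep φ r)) ≤ LinearMap.ker lamK := by
      rw [Submodule.span_le]
      rintro _ ⟨g, rfl⟩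
      rw [SetLike.mem_coe, LinearMap.mem_ker, mapRep_apply, hcomp]
      have : r g ∈ LinearMap.ker lam := hle (Submodule.subset_span ⟨g, rfl⟩)
      rw [LinearMap.mem_ker] at this
      rw [this, map_zero]
    rw [h, top_le_iff, LinearMap.ker_eq_top] at this
    exact this
  apply hlam0
  apply LinearMap.ext
  intro X
  rw [hlam_eq X]
  have hcoef : ∀ i j, lam (Matrix.single i j (1 : k)) = 0 := by
    intro i j
    have h1 := hcomp (Matrix.single i j (1 : k))
    rw [hzero, LinearMap.zero_apply] at h1
    exact (map_eq_zero φ).1 h1.symm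
  simp [hcoef]


end FullSpan


section Local

variable {G : Type*} [Monoid G]

open Matrix IsLocalRing
open scoped MonoidAlgebra

/-- matrices with entries in an ideal lie in `I • ⊤`. -/
theorem mem_smul_top_of_entries {A : Type*} [CommRing A] (I : Ideal A) (X : Mat2 A)
    (hX : ∀ i j, X i j ∈ I) : X ∈ I • (⊤ : Submodule A (Mat2 A)) := by
  rw [Matrix.matrix_eq_sum_single X]
  refine Submodule.sum_mem _ fun i _ => Submodule.sum_mem _ fun j _ => ?_
  have : Matrix.single i j (X i j) = X i j • (Matrix.single i j (1 : A) : Mat2 A) := by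
    rw [Matrix.smul_single, smul_eq_mul, mul_one]
  rw [this]
  exact Submodule.smul_mem_smul (hX i j) Submodule.mem_top

/-- T1 (Nakayama): full span of the residual representation implies full span. -/
theorem fullSpan_of_residue {A : Type*} [CommRing A] [IsLocalRing A] (r : G →* Mat2 A)
    (h : FullSpan (mapRep (residue A) r)) : FullSpan r := by
  unfold FullSpan at h ⊢
  have : RingHomSurjective (residue A) := ⟨residue_surjective⟩
  let π : Mat2 A →ₛₗ[residue A] Mat2 (ResidueField A) :=
    LinearMap.mapMatrix (residue A).toSemilinearMap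
  have hπ : ∀ X : Mat2 A, π X = X.map (residue A) := fun X => rfl
  have hπrange : LinearMap.range π = ⊤ := by
    rw [LinearMap.range_eq_top]
    intro Y
    refine ⟨Matrix.of fun i j => (residue_surjective (Y i j)).choose, ?_⟩
    ext i j
    rw [hπ]
    exact (residue_surjective (Y i j)).choose_spec
  have hmap : Submodule.map π (Submodule.span A (Set.range r)) = ⊤ := by
    rw [Submodule.map_span, ← h]
    congr 1
    ext Y
    constructor
    · rintro ⟨_, ⟨g, rfl⟩, rfl⟩; exact ⟨g, rfl⟩
    · rintro ⟨g, rfl⟩; exact ⟨r g, ⟨g, rfl⟩, rfl⟩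
  have hsup := (LinearMap.map_eq_top_iff hπrange).1 hmap
  have hker : LinearMap.ker π ≤ maximalIdeal A • (⊤ : Submodule A (Mat2 A)) := by
    intro X hX
    rw [LinearMap.mem_ker, hπ] at hX
    apply mem_smul_top_of_entries
    intro i j
    have := congrFun (congrFun hX i) j
    rw [Matrix.map_apply, Matrix.zero_apply, residue_eq_zero_iff] at this
    exact this
  rw [eq_top_iff]
  apply Submodule.le_of_le_smul_of_le_jacobson_bot (I := maximalIdeal A)
  · exact Module.Finite.fg_top
  · rw [jacobson_eq_maximalIdeal ⊥ bot_ne_top]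
  · exact hsup.symm.le.trans (sup_le_sup le_rfl hker)

/-- an element commuting with a full-span representation commutes with everything. -/
theorem commute_of_fullSpan {A : Type*} [CommRing A] (r : G →* Mat2 A) (hr : FullSpan r)
    (X : Mat2 A) (hX : ∀ g, X * r g = r g * X) (Y : Mat2 A) : X * Y = Y * X := by
  have hY : Y ∈ Submodule.span A (Set.range r) := by rw [hr]; trivial
  induction hY using Submodule.span_induction with
  | mem Z hZ => obtain ⟨g, rfl⟩ := hZ; exact hX g
  | zero => simp
  | add Y Z _ _ hY hZ => rw [mul_add, add_mul, hY, hZ]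
  | smul a Y _ hY => rw [Matrix.mul_smul, Matrix.smul_mul, hY]

/-- Schur: the centraliser of a full-span representation consists of scalars. -/
theorem schur_of_fullSpan {A : Type*} [CommRing A] (r : G →* Mat2 A) (hr : FullSpan r)
    (X : Mat2 A) (hX : ∀ g, X * r g = r g * X) : ∃ a : A, X = a • (1 : Mat2 A) := by
  have h : X ∈ Set.range (Matrix.scalar (Fin 2)) := by
    rw [Matrix.mem_range_scalar_iff_commute_single]
    intro i j _
    exact (commute_of_fullSpan r hr X hX _).symm
  obtain ⟨a, rfl⟩ := h
  exact ⟨a, by rw [Matrix.scalar_apply, Matrix.smul_one_eq_diagonal]⟩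

/-- A system of `2 × 2` matrix units inside `Mat2 A`. -/
structure IsMatrixUnits {A : Type*} [CommRing A] (E : Fin 2 → Fin 2 → Mat2 A) : Prop where
  mul : ∀ a b c d, E a b * E c d = if b = c then E a d else 0
  sum : E 0 0 + E 1 1 = 1

/-- MU: matrix units with a unit entry in `E 0 0` are conjugate to the standard ones. -/
theorem exists_conj_of_isMatrixUnits {A : Type*} [CommRing A] (E : Fin 2 → Fin 2 → Mat2 A)
    (hE : IsMatrixUnits E) (i j : Fin 2) (hu : IsUnit (E 0 0 i j)) :
    ∃ P Q : Mat2 A, P * Q = 1 ∧ Q * P = 1 ∧ ∀ a b, E a b * P = P * Matrix.single a b 1 := by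
  obtain ⟨u, hu⟩ := hu
  -- columns of P: v = E00 e_j, v2 = E10 e_j
  let P : Mat2 A := Matrix.of fun a b => E b 0 a j
  -- rows of Q: w = e_i^T E00, w2 = e_i^T E01
  let Q0 : Mat2 A := Matrix.of fun a b => E 0 a i b
  have hPdef : ∀ a b, P a b = E b 0 a j := fun a b => rfl
  have hQdef : ∀ a b, Q0 a b = E 0 a i b := fun a b => rfl
  have hEP : ∀ a b, E a b * P = P * Matrix.single a b 1 := by
    intro a b
    ext x y
    rw [Matrix.mul_apply, Matrix.mul_apply]
    simp only [hPdef]
    -- LHS = ∑ z, E a b x z * E y 0 z j = (E a b * E y 0) x j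
    have hL : ∑ z, E a b x z * E y 0 z j = (E a b * E y 0) x j := by
      rw [Matrix.mul_apply]
    rw [hL, hE.mul]
    simp only [Matrix.single_apply, Fin.sum_univ_two]
    fin_cases a <;> fin_cases b <;> fin_cases y <;> simp
  have hQP : Q0 * P = (u : A) • (1 : Mat2 A) := by
    ext x y
    rw [Matrix.mul_apply]
    simp only [hPdef, hQdef]
    have hL : ∑ z, E 0 x i z * E y 0 z j = (E 0 x * E y 0) i j := by
      rw [Matrix.mul_apply]
    rw [hL, hE.mul]
    fin_cases x <;> fin_cases y <;> simp [hu]
  let Q : Mat2 A := ((u⁻¹ : Aˣ) : A) • Q0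
  have hQP1 : Q * P = 1 := by
    simp only [Q]
    rw [Matrix.smul_mul, hQP, smul_smul, Units.inv_mul, one_smul]
  refine ⟨P, Q, ?_, hQP1, hEP⟩
  exact mul_eq_one_comm.mp hQP1

/-- over a local ring, `E 0 0` has a unit entry. -/
theorem exists_isUnit_entry_of_isMatrixUnits {A : Type*} [CommRing A] [IsLocalRing A]
    (E : Fin 2 → Fin 2 → Mat2 A) (hE : IsMatrixUnits E) : ∃ i j, IsUnit (E 0 0 i j) := by
  by_contra hcon
  push Not at hcon
  have h00 : ∀ i j, E 0 0 i j ∈ maximalIdeal A := fun i j => (mem_maximalIdeal _).2 (hcon i j)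
  have h11 : ∀ i j, E 1 1 i j ∈ maximalIdeal A := by
    intro i j
    have h1 : E 1 1 = E 1 0 * E 0 0 * E 0 1 := by
      rw [hE.mul, if_pos rfl, hE.mul, if_pos rfl]
    rw [h1, Matrix.mul_apply]
    refine Ideal.sum_mem _ fun x _ => ?_
    rw [Matrix.mul_apply, Finset.sum_mul]
    refine Ideal.sum_mem _ fun y _ => ?_
    rw [mul_assoc]
    apply Ideal.mul_mem_left
    apply Ideal.mul_mem_right
    exact h00 y x
  have h1 : (1 : A) ∈ maximalIdeal A := by
    have := congrFun (congrFun hE.sum 0) 0
    rw [Matrix.add_apply, Matrix.one_apply_eq] at this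
    rw [← this]
    exact Ideal.add_mem _ (h00 0 0) (h11 0 0)
  exact (maximalIdeal.isMaximal A).ne_top ((Ideal.eq_top_iff_one _).2 h1)

/-- the trace pairing on `Mat2 A` is nondegenerate. -/
theorem eq_zero_of_trace_mul_eq_zero {A : Type*} [CommRing A] (X : Mat2 A)
    (h : ∀ Z : Mat2 A, Matrix.trace (X * Z) = 0) : X = 0 := by
  ext i j
  have := h (Matrix.single j i 1)
  rw [Matrix.trace_fin_two] at this
  simp only [Fin.sum_univ_two, Matrix.mul_apply, Matrix.single_apply] at this
  fin_cases i <;> fin_cases j <;> simpa using this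

/-- the linear extension of a matrix representation to the monoid algebra. -/
noncomputable def linExt {A : Type*} [CommRing A] (r : G →* Mat2 A) : A[G] →ₐ[A] Mat2 A :=
  MonoidAlgebra.lift A (Mat2 A) G r

theorem linExt_of {A : Type*} [CommRing A] (r : G →* Mat2 A) (g : G) :
    linExt r (MonoidAlgebra.of A G g) = r g := MonoidAlgebra.lift_of r g

theorem range_linExt {A : Type*} [CommRing A] (r : G →* Mat2 A) :
    LinearMap.range (linExt r).toLinearMap = Submodule.span A (Set.range r) := by
  apply le_antisymm
  · rintro _ ⟨x, rfl⟩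
    induction x using MonoidAlgebra.induction_on with
    | of g =>
      rw [AlgHom.toLinearMap_apply, linExt_of]; exact Submodule.subset_span ⟨g, rfl⟩
    | add x y hx hy => rw [map_add]; exact Submodule.add_mem _ hx hy
    | smul a x hx => rw [map_smul]; exact Submodule.smul_mem _ a hx
  · rw [Submodule.span_le]
    rintro _ ⟨g, rfl⟩
    exact ⟨MonoidAlgebra.of A G g, linExt_of r g⟩

theorem linExt_surjective {A : Type*} [CommRing A] (r : G →* Mat2 A) (hr : FullSpan r) :
    Function.Surjective (linExt r) := by
  intro X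
  have : X ∈ LinearMap.range (linExt r).toLinearMap := by
    rw [range_linExt, hr]; trivial
  exact this

theorem trace_linExt_eq {A : Type*} [CommRing A] (r r' : G →* Mat2 A)
    (htr : ∀ g, Matrix.trace (r g) = Matrix.trace (r' g)) (x : A[G]) :
    Matrix.trace (linExt r x) = Matrix.trace (linExt r' x) := by
  induction x using MonoidAlgebra.induction_on with
  | of g => rw [linExt_of, linExt_of, htr]
  | add x y hx hy => rw [map_add, map_add, Matrix.trace_add, Matrix.trace_add, hx, hy]
  | smul a x hx => rw [map_smul, map_smul, Matrix.trace_smul, Matrix.trace_smul, hx]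

theorem ker_linExt_le {A : Type*} [CommRing A] (r r' : G →* Mat2 A) (hr' : FullSpan r')
    (htr : ∀ g, Matrix.trace (r g) = Matrix.trace (r' g)) (x : A[G]) (hx : linExt r x = 0) :
    linExt r' x = 0 := by
  apply eq_zero_of_trace_mul_eq_zero
  intro Z
  obtain ⟨y, rfl⟩ := linExt_surjective r' hr' Z
  rw [← map_mul, ← trace_linExt_eq r r' htr, map_mul, hx, zero_mul, Matrix.trace_zero]

/-- T2 (Carayol, Mazur): two full-span representations over a local ring with the same traces
are conjugate. -/
theorem exists_conj_of_trace_eq {A : Type*} [CommRing A] [IsLocalRing A] (r r' : G →* Mat2 A)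
    (hr : FullSpan r) (hr' : FullSpan r')
    (htr : ∀ g, Matrix.trace (r g) = Matrix.trace (r' g)) :
    ∃ P Q : Mat2 A, P * Q = 1 ∧ Q * P = 1 ∧ ∀ g, r' g * P = P * r g := by
  -- preimages of the standard matrix units
  choose x hx using fun a b : Fin 2 => linExt_surjective r hr (Matrix.single a b 1)
  have hker : ∀ y : A[G], linExt r y = 0 → linExt r' y = 0 := ker_linExt_le r r' hr' htr
  have hker' : ∀ y z : A[G], linExt r y = linExt r z → linExt r' y = linExt r' z := by
    intro y z h
    have := hker (y - z) (by rw [map_sub, h, sub_self])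
    rwa [map_sub, sub_eq_zero] at this
  let E : Fin 2 → Fin 2 → Mat2 A := fun a b => linExt r' (x a b)
  have hE : IsMatrixUnits E := by
    constructor
    · intro a b c d
      show linExt r' (x a b) * linExt r' (x c d) = _
      rw [← map_mul]
      by_cases hbc : b = c
      · rw [if_pos hbc]
        apply hker'
        rw [map_mul, hx, hx, hx, hbc, Matrix.single_mul_single_same, mul_one]
      · rw [if_neg hbc, ← map_zero (linExt r')]
        apply hker'
        rw [map_mul, hx, hx, map_zero, Matrix.single_mul_single_of_ne _ _ _ _ hbc]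
    · show linExt r' (x 0 0) + linExt r' (x 1 1) = 1
      rw [← map_add, ← map_one (linExt r')]
      apply hker'
      rw [map_add, hx, hx, map_one]
      ext i j
      fin_cases i <;> fin_cases j <;> simp
  obtain ⟨i, j, hu⟩ := exists_isUnit_entry_of_isMatrixUnits E hE
  obtain ⟨P, Q, hPQ, hQP, hEP⟩ := exists_conj_of_isMatrixUnits E hE i j hu
  refine ⟨P, Q, hPQ, hQP, fun g => ?_⟩
  -- r' g = ∑ r g a b • E a b
  have hg : r' g = ∑ a, ∑ b, r g a b • E a b := by
    rw [← linExt_of r' g]
    have : ∑ a, ∑ b, r g a b • E a b = linExt r' (∑ a, ∑ b, r g a b • x a b) := by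
      simp only [map_sum, map_smul, E]
    rw [this]
    apply hker'
    rw [linExt_of]
    simp only [map_sum, map_smul, hx]
    conv_lhs => rw [Matrix.matrix_eq_sum_single (r g)]
    refine Finset.sum_congr rfl fun a _ => Finset.sum_congr rfl fun b _ => ?_
    rw [Matrix.smul_single, smul_eq_mul, mul_one]
  rw [hg, Finset.sum_mul]
  conv_rhs => rw [Matrix.matrix_eq_sum_single (r g), Finset.mul_sum]
  refine Finset.sum_congr rfl fun a _ => ?_
  rw [Finset.sum_mul, Finset.mul_sum]
  refine Finset.sum_congr rfl fun b _ => ?_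
  rw [Matrix.smul_mul, hEP]
  have : Matrix.single a b (r g a b) = r g a b • (Matrix.single a b (1 : A) : Mat2 A) := by
    rw [Matrix.smul_single, smul_eq_mul, mul_one]
  rw [this, Matrix.mul_smul]


end Local

end Fermat.Agent.S53.L1
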