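import Mathlib
import Fermat.Agent.S53.Defs
import Fermat.Agent.S53.L1_helper1_MatrixAlg

/-!
# S53, layer 1 (slice form): good slices, uniqueness and existence of normal forms

* `Slice.IsGood sl rbar` : the slice cuts out exactly the scalar matrices residually.
* `exists_good_slice` : good slices exist when the centraliser of `rbar` is the scalars (S2).
* `eq_of_conj_of_isNormal` : conjugate strict normal lifts are equal (S3u), any local `A`.
* `exists_normal_conj` : every strict lift is conjugate to a strict normal lift (S3e),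
  for `A` adically complete.
-/

set_option autoImplicit false

namespace Fermat.Agent.S53

open IsLocalRing Matrix Module

namespace L1

section Generic

variable {A : Type} [CommRing A] [IsLocalRing A]

/-- A square matrix over a local ring whose reduction is injective is invertible. -/
theorem isUnit_of_residue_injective {ι : Type} [Fintype ι] [DecidableEq ι] (P : Matrix ι ι A)
    (h : ∀ v : ι → A, (∀ i, P.mulVec v i ∈ maximalIdeal A) → ∀ i, v i ∈ maximalIdeal A) :
    IsUnit P := by
  have hinj : Function.Injective (P.map (residue A)).mulVec := by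
    rw [← Matrix.coe_mulVecLin, ← LinearMap.ker_eq_bot, LinearMap.ker_eq_bot']
    intro w hw
    obtain ⟨v, rfl⟩ := (residue_surjective (R := A)).comp_left (α := ι) w
    have h1 : ∀ i, P.mulVec v i ∈ maximalIdeal A := by
      intro i
      rw [← residue_eq_zero_iff, RingHom.map_mulVec]
      have := congrFun hw i
      simpa using this
    have h2 := h v h1
    funext i
    simpa [residue_eq_zero_iff] using h2 i
  have hu : IsUnit (P.map (residue A)) := Matrix.mulVec_injective_iff_isUnit.1 hinj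
  rw [Matrix.isUnit_iff_isUnit_det] at hu ⊢
  have : (P.map (residue A)).det = residue A P.det := by
    rw [RingHom.map_det]; rfl
  rw [this] at hu
  exact isUnit_of_map_unit (residue A) _ hu

/-- An endomorphism of a finite free module `ι → A` over a local ring which is injective modulo
the maximal ideal is bijective. -/
theorem bijective_of_residue_injective_pi {ι : Type} [Fintype ι] [DecidableEq ι]
    (g : (ι → A) →ₗ[A] (ι → A))
    (h : ∀ v : ι → A, (∀ i, g v i ∈ maximalIdeal A) → ∀ i, v i ∈ maximalIdeal A) :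
    Function.Bijective g := by
  have hu : IsUnit (LinearMap.toMatrixAlgEquiv' g) := by
    apply isUnit_of_residue_injective
    intro v hv
    apply h v
    intro i
    have := hv i
    have h2 : (LinearMap.toMatrixAlgEquiv' g).mulVec v = g v := LinearMap.toMatrix'_mulVec g v
    rwa [h2] at this
  have hg : IsUnit g := by
    have := hu.map (LinearMap.toMatrixAlgEquiv' (R := A) (n := ι)).symm
    simpa using this
  exact (Module.End.isUnit_iff g).1 hg

/-- The same for endomorphisms of `M2 A`. -/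
theorem bijective_of_residue_injective (f : M2 A →ₗ[A] M2 A)
    (h : ∀ M : M2 A, (∀ p q, f M p q ∈ maximalIdeal A) → ∀ p q, M p q ∈ maximalIdeal A) :
    Function.Bijective f := by
  let e : M2 A ≃ₗ[A] (Fin 2 × Fin 2 → A) := (LinearEquiv.curry A A (Fin 2) (Fin 2)).symm
  have hg := bijective_of_residue_injective_pi (e.toLinearMap ∘ₗ f ∘ₗ e.symm.toLinearMap) (by
    intro v hv p
    have := h (e.symm v) (fun p q => hv (p, q)) p.1 p.2
    exact this)
  have : (f : M2 A → M2 A) = e.symm ∘ (e.toLinearMap ∘ₗ f ∘ₗ e.symm.toLinearMap) ∘ e := by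
    funext M
    simp
  rw [this]
  exact e.symm.bijective.comp (hg.comp e.bijective)

end Generic

section EntriesIn

variable {A : Type} [CommRing A]

/-- All entries of the matrix lie in the ideal `I`. -/
def EntriesIn (I : Ideal A) (M : M2 A) : Prop := ∀ p q, M p q ∈ I

namespace EntriesIn

variable {I J : Ideal A} {M N : M2 A}

theorem zero : EntriesIn I (0 : M2 A) := fun _ _ => I.zero_mem

theorem add (hM : EntriesIn I M) (hN : EntriesIn I N) : EntriesIn I (M + N) :=
  fun p q => I.add_mem (hM p q) (hN p q)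

theorem sub (hM : EntriesIn I M) (hN : EntriesIn I N) : EntriesIn I (M - N) :=
  fun p q => I.sub_mem (hM p q) (hN p q)

theorem neg (hM : EntriesIn I M) : EntriesIn I (-M) :=
  fun p q => I.neg_mem (hM p q)

theorem smul (c : A) (hM : EntriesIn I M) : EntriesIn I (c • M) :=
  fun p q => I.mul_mem_left c (hM p q)

theorem smul_of_mem {c : A} (hc : c ∈ I) (M : M2 A) : EntriesIn I (c • M) :=
  fun p q => I.mul_mem_right (M p q) hc

theorem mul_left (N : M2 A) (hM : EntriesIn I M) : EntriesIn I (N * M) := by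
  intro p q
  rw [Matrix.mul_apply]
  exact I.sum_mem fun l _ => I.mul_mem_left _ (hM l q)

theorem mul_right (N : M2 A) (hM : EntriesIn I M) : EntriesIn I (M * N) := by
  intro p q
  rw [Matrix.mul_apply]
  exact I.sum_mem fun l _ => I.mul_mem_right _ (hM p l)

theorem mul (hM : EntriesIn I M) (hN : EntriesIn J N) : EntriesIn (I * J) (M * N) := by
  intro p q
  rw [Matrix.mul_apply]
  exact (I * J).sum_mem fun l _ => Ideal.mul_mem_mul (hM p l) (hN l q)

theorem mono (h : I ≤ J) (hM : EntriesIn I M) : EntriesIn J M := fun p q => h (hM p q)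

theorem map_residue_eq_zero [IsLocalRing A] :
    EntriesIn (maximalIdeal A) M ↔ M.map (residue A) = 0 := by
  constructor
  · intro h
    ext p q
    simpa [residue_eq_zero_iff] using h p q
  · intro h p q
    have := congrFun (congrFun h p) q
    simpa [residue_eq_zero_iff] using this

/-- Linear endomorphisms of `M2 A` preserve `EntriesIn I`. -/
theorem map_linear (L : M2 A →ₗ[A] M2 A)
    (hM : EntriesIn I M) : EntriesIn I (L M) := by
  have : M = ∑ p, ∑ q, M p q • Matrix.single p q (1 : A) := by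
    ext a b
    simp [Matrix.sum_apply, Matrix.single_apply, Fin.sum_univ_two]
    fin_cases a <;> fin_cases b <;> simp
  rw [this, map_sum]
  intro a b
  rw [Matrix.sum_apply]
  refine I.sum_mem fun p _ => ?_
  rw [map_sum, Matrix.sum_apply]
  refine I.sum_mem fun q _ => ?_
  rw [map_smul]
  exact smul_of_mem (hM p q) _ a b

end EntriesIn

/-- `1 + M` is invertible if the entries of `M` lie in the maximal ideal. -/
theorem isUnit_one_add [IsLocalRing A] {M : M2 A} (hM : EntriesIn (maximalIdeal A) M) :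
    IsUnit (1 + M) := by
  rw [Matrix.isUnit_iff_isUnit_det, Matrix.det_fin_two]
  have h : (1 + M) 0 0 * (1 + M) 1 1 - (1 + M) 0 1 * (1 + M) 1 0 =
      1 + (M 0 0 + M 1 1 + M 0 0 * M 1 1 - M 0 1 * M 1 0) := by
    simp [Matrix.add_apply]
    ring
  rw [h]
  have hm : M 0 0 + M 1 1 + M 0 0 * M 1 1 - M 0 1 * M 1 0 ∈ maximalIdeal A :=
    Ideal.sub_mem _ (Ideal.add_mem _ (Ideal.add_mem _ (hM 0 0) (hM 1 1))
      (Ideal.mul_mem_left _ _ (hM 1 1))) (Ideal.mul_mem_left _ _ (hM 1 0))
  by_contra hu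
  have h1 : (1 : A) ∈ maximalIdeal A := by
    have h2 : 1 + (M 0 0 + M 1 1 + M 0 0 * M 1 1 - M 0 1 * M 1 0) ∈ maximalIdeal A := hu
    have := Ideal.sub_mem _ h2 hm
    simp at this
  exact (maximalIdeal.isMaximal A).ne_top ((Ideal.eq_top_iff_one _).2 h1)

/-- A matrix congruent to `1` modulo the maximal ideal is invertible. -/
theorem isUnit_of_sub_one [IsLocalRing A] {V : M2 A} (hV : EntriesIn (maximalIdeal A) (V - 1)) :
    IsUnit V := by
  have := isUnit_one_add hV
  simpa using this

end EntriesIn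

section Key

variable {A : Type} [CommRing A]

/-- The `m`-th slice functional `M ↦ (M * X m - X' m * M) (i m) (j m)`. -/
def slicePhi (X X' : Fin 3 → M2 A) (i j : Fin 3 → Fin 2) (m : Fin 3) : M2 A →ₗ[A] A where
  toFun M := (M * X m - X' m * M) (i m) (j m)
  map_add' M N := by
    simp only [add_mul, mul_add, Matrix.sub_apply, Matrix.add_apply]; ring
  map_smul' c M := by
    simp only [Matrix.smul_mul, Matrix.mul_smul, Matrix.sub_apply, Matrix.smul_apply,
      RingHom.id_apply, smul_eq_mul]; ring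

@[simp] theorem slicePhi_apply (X X' : Fin 3 → M2 A) (i j : Fin 3 → Fin 2) (m : Fin 3) (M : M2 A) :
    slicePhi X X' i j m M = (M * X m - X' m * M) (i m) (j m) := rfl

/-- Package three scalars into a matrix with vanishing `(0,0)` entry. -/
def packLin : (Fin 3 → A) →ₗ[A] M2 A where
  toFun d := !![0, d 0; d 1, d 2]
  map_add' d d' := by
    ext p q; fin_cases p <;> fin_cases q <;> simp
  map_smul' c d := by
    ext p q; fin_cases p <;> fin_cases q <;> simp

theorem packLin_apply (d : Fin 3 → A) : packLin d = !![0, d 0; d 1, d 2] := rfl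

theorem entriesIn_packLin {I : Ideal A} {d : Fin 3 → A} (hd : ∀ m, d m ∈ I) :
    EntriesIn I (packLin d) := by
  intro p q
  fin_cases p <;> fin_cases q <;> simp [packLin_apply, hd]

/-- The square system: the `(0,0)` entry together with the three slice functionals. -/
def slicePsi (X X' : Fin 3 → M2 A) (i j : Fin 3 → Fin 2) : M2 A →ₗ[A] M2 A where
  toFun M := !![M 0 0, slicePhi X X' i j 0 M; slicePhi X X' i j 1 M, slicePhi X X' i j 2 M]
  map_add' M N := by
    ext p q; fin_cases p <;> fin_cases q <;> simp only [map_add] <;> simp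
  map_smul' c M := by
    ext p q; fin_cases p <;> fin_cases q <;> simp only [map_smul] <;> simp

theorem slicePsi_apply (X X' : Fin 3 → M2 A) (i j : Fin 3 → Fin 2) (M : M2 A) :
    slicePsi X X' i j M =
      !![M 0 0, slicePhi X X' i j 0 M; slicePhi X X' i j 1 M, slicePhi X X' i j 2 M] := rfl

/-- The "residual kernel is scalar" hypothesis, stated inside `A`. -/
def SliceHyp [IsLocalRing A] (X : Fin 3 → M2 A) (i j : Fin 3 → Fin 2) : Prop :=
  ∀ M : M2 A, (∀ m, (M * X m - X m * M) (i m) (j m) ∈ maximalIdeal A) →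
    ∃ c : A, EntriesIn (maximalIdeal A) (M - c • (1 : M2 A))

variable [IsLocalRing A]

theorem slicePsi_bijective (X X' : Fin 3 → M2 A) (i j : Fin 3 → Fin 2)
    (hXX' : ∀ m, EntriesIn (maximalIdeal A) (X m - X' m)) (H : SliceHyp X i j) :
    Function.Bijective (slicePsi X X' i j) := by
  apply bijective_of_residue_injective
  intro M hM
  have h00 : M 0 0 ∈ maximalIdeal A := by simpa [slicePsi_apply] using hM 0 0
  have hphi : ∀ m, slicePhi X X' i j m M ∈ maximalIdeal A := by
    intro m
    fin_cases m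
    · simpa [slicePsi_apply] using hM 0 1
    · simpa [slicePsi_apply] using hM 1 0
    · simpa [slicePsi_apply] using hM 1 1
  obtain ⟨c, hc⟩ := H M (by
    intro m
    have h1 : M * X m - X m * M = (M * X m - X' m * M) - (X m - X' m) * M := by
      rw [sub_mul]; abel
    rw [h1, Matrix.sub_apply]
    exact Ideal.sub_mem _ (hphi m) ((hXX' m).mul_right M _ _))
  have hcm : c ∈ maximalIdeal A := by
    have := hc 0 0
    simp only [Matrix.sub_apply, Matrix.smul_apply, Matrix.one_apply_eq, smul_eq_mul, mul_one]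
      at this
    have h2 := Ideal.sub_mem _ h00 this
    simpa using h2
  intro p q
  have := hc p q
  simp only [Matrix.sub_apply, Matrix.smul_apply, smul_eq_mul] at this
  have h3 := Ideal.add_mem _ this (Ideal.mul_mem_right ((1 : M2 A) p q) _ hcm)
  simpa using h3

/-- Uniqueness part of the key lemma. -/
theorem eq_zero_of_slicePhi_eq_zero (X X' : Fin 3 → M2 A) (i j : Fin 3 → Fin 2)
    (hXX' : ∀ m, EntriesIn (maximalIdeal A) (X m - X' m)) (H : SliceHyp X i j) (M : M2 A)
    (h00 : M 0 0 = 0) (hM : ∀ m, (M * X m - X' m * M) (i m) (j m) = 0) : M = 0 := by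
  apply (slicePsi_bijective X X' i j hXX' H).1
  rw [map_zero, slicePsi_apply]
  ext p q
  fin_cases p <;> fin_cases q <;> simp [h00, hM]

/-- A matrix intertwining two triples with equal distinguished entries is scalar. -/
theorem scalar_of_slicePhi_eq_zero (X X' : Fin 3 → M2 A) (i j : Fin 3 → Fin 2)
    (hXX' : ∀ m, EntriesIn (maximalIdeal A) (X m - X' m)) (H : SliceHyp X i j) (U : M2 A)
    (hU : ∀ m, (U * X m - X' m * U) (i m) (j m) = 0)
    (h1 : ∀ m, X m (i m) (j m) = X' m (i m) (j m)) : U = U 0 0 • (1 : M2 A) := by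
  have := eq_zero_of_slicePhi_eq_zero X X' i j hXX' H (U - U 0 0 • (1 : M2 A)) (by simp) (by
    intro m
    have h2 : (U - U 0 0 • (1 : M2 A)) * X m - X' m * (U - U 0 0 • (1 : M2 A)) =
        (U * X m - X' m * U) - U 0 0 • (X m - X' m) := by
      simp only [sub_mul, mul_sub, Matrix.smul_mul, Matrix.mul_smul, one_mul, mul_one, smul_sub]
      abel
    rw [h2, Matrix.sub_apply, hU m, Matrix.smul_apply, Matrix.sub_apply, h1 m]
    simp)
  exact sub_eq_zero.1 this

/-- Existence part of the key lemma: a linear section of the slice functionals. -/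
theorem exists_section (X X' : Fin 3 → M2 A) (i j : Fin 3 → Fin 2)
    (hXX' : ∀ m, EntriesIn (maximalIdeal A) (X m - X' m)) (H : SliceHyp X i j) :
    ∃ s : (Fin 3 → A) →ₗ[A] M2 A, (∀ d m, (s d * X m - X' m * s d) (i m) (j m) = d m) ∧
      (∀ d, s d 0 0 = 0) ∧
      ∀ (I : Ideal A) (d : Fin 3 → A), (∀ m, d m ∈ I) → EntriesIn I (s d) := by
  let e : M2 A ≃ₗ[A] M2 A := LinearEquiv.ofBijective _ (slicePsi_bijective X X' i j hXX' H)
  have he : ∀ d, slicePsi X X' i j (e.symm (packLin d)) = packLin d := fun d =>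
    e.apply_symm_apply (packLin d)
  refine ⟨e.symm.toLinearMap ∘ₗ packLin, ?_, ?_, ?_⟩
  · intro d m
    have h := he d
    show slicePhi X X' i j m (e.symm (packLin d)) = d m
    generalize e.symm (packLin d) = N at h ⊢
    rw [slicePsi_apply, packLin_apply] at h
    fin_cases m
    · simpa using congrFun (congrFun h 0) 1
    · simpa using congrFun (congrFun h 1) 0
    · simpa using congrFun (congrFun h 1) 1
  · intro d
    have h := he d
    show (e.symm (packLin d)) 0 0 = 0
    generalize e.symm (packLin d) = N at h ⊢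
    rw [slicePsi_apply, packLin_apply] at h
    simpa using congrFun (congrFun h 0) 0
  · intro I d hd
    exact (entriesIn_packLin hd).map_linear e.symm.toLinearMap

end Key

section Good

variable {𝒪 : Type} [CommRing 𝒪] [IsLocalRing 𝒪]

/-- A slice is *good* for `rbar` if its scalars lift the distinguished residual entries and the
three commutator functionals cut out exactly the scalar matrices. -/
structure _root_.Fermat.Agent.S53.Slice.IsGood (sl : Slice 𝒪) (rbar : Gal → M2 (ResidueField 𝒪)) : Prop where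
  residue_a : ∀ m, residue 𝒪 (sl.a m) = rbar (sl.g m) (sl.i m) (sl.j m)
  ker : ∀ M : M2 (ResidueField 𝒪),
    (∀ m, (M * rbar (sl.g m) - rbar (sl.g m) * M) (sl.i m) (sl.j m) = 0) →
      ∃ c : ResidueField 𝒪, M = c • (1 : M2 (ResidueField 𝒪))

variable {A : Type} [CommRing A] [IsLocalRing A] [Algebra 𝒪 A]

theorem residue_algebraMap_eq_zero_iff (hloc : IsLocalHom (algebraMap 𝒪 A)) (x : 𝒪) :
    residue A (algebraMap 𝒪 A x) = 0 ↔ residue 𝒪 x = 0 := by
  rw [residue_eq_zero_iff, residue_eq_zero_iff, mem_maximalIdeal, mem_maximalIdeal, mem_nonunits_iff,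
    mem_nonunits_iff, not_iff_not]
  exact ⟨fun h => hloc.map_nonunit x h, fun h => h.map _⟩

theorem _root_.Fermat.Agent.S53.IsStrictLift.residue_eq {rbar : Gal → M2 (ResidueField 𝒪)} {r : Gal → M2 A}
    (hr : IsStrictLift 𝒪 rbar r) (σ : Gal) (p q : Fin 2) (c : 𝒪)
    (hc : residue 𝒪 c = rbar σ p q) : residue A (r σ p q) = residue A (algebraMap 𝒪 A c) := by
  have := hr σ p q c hc
  rw [← residue_eq_zero_iff, map_sub, sub_eq_zero] at this
  exact this

theorem sliceHyp_of_isGood (hloc : IsLocalHom (algebraMap 𝒪 A))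
    (hsurj : Function.Surjective (residue A ∘ algebraMap 𝒪 A)) {sl : Slice 𝒪}
    {rbar : Gal → M2 (ResidueField 𝒪)} (hsl : sl.IsGood rbar) {r : Gal → M2 A}
    (hr : IsStrictLift 𝒪 rbar r) : SliceHyp (fun m => r (sl.g m)) sl.i sl.j := by
  intro M hM
  set ψ : 𝒪 →+* ResidueField A := (residue A).comp (algebraMap 𝒪 A) with hψ
  -- lift `M` and the `r (g m)` to `𝒪`
  obtain ⟨B, hB⟩ : ∃ B : M2 𝒪, ∀ p q, ψ (B p q) = residue A (M p q) := by
    have hB : ∀ p q, ∃ b : 𝒪, ψ b = residue A (M p q) := fun p q => hsurj _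
    choose B hB using hB
    exact ⟨Matrix.of B, hB⟩
  obtain ⟨C, hC⟩ : ∃ C : Fin 3 → M2 𝒪, ∀ m p q, residue 𝒪 (C m p q) = rbar (sl.g m) p q := by
    have hC : ∀ m p q, ∃ c : 𝒪, residue 𝒪 c = rbar (sl.g m) p q := fun m p q =>
      residue_surjective _
    choose C hC using hC
    exact ⟨fun m => Matrix.of (C m), hC⟩
  have hMB : (residue A).mapMatrix M = ψ.mapMatrix B := by
    ext p q; simp [hB]
  have hXC : ∀ m, (residue A).mapMatrix (r (sl.g m)) = ψ.mapMatrix (C m) := by
    intro m
    ext p q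
    simp only [RingHom.mapMatrix_apply, Matrix.map_apply]
    exact hr.residue_eq _ _ _ _ (hC m p q)
  have hCbar : ∀ m, (residue 𝒪).mapMatrix (C m) = rbar (sl.g m) := by
    intro m; ext p q; simp [hC]
  have hker : ∀ m, ((residue 𝒪).mapMatrix B * rbar (sl.g m) -
      rbar (sl.g m) * (residue 𝒪).mapMatrix B) (sl.i m) (sl.j m) = 0 := by
    intro m
    rw [← hCbar m, ← map_mul, ← map_mul, ← map_sub, RingHom.mapMatrix_apply, Matrix.map_apply,
      ← residue_algebraMap_eq_zero_iff (A := A) hloc]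
    have h1 := hM m
    rw [← residue_eq_zero_iff] at h1
    have h2 : residue A ((M * r (sl.g m) - r (sl.g m) * M) (sl.i m) (sl.j m)) =
        ((residue A).mapMatrix (M * r (sl.g m) - r (sl.g m) * M)) (sl.i m) (sl.j m) := by
      simp
    rw [h2, map_sub, map_mul, map_mul, hMB, hXC m, ← map_mul, ← map_mul, ← map_sub] at h1
    simpa [hψ] using h1
  obtain ⟨cbar, hcbar⟩ := hsl.ker _ hker
  obtain ⟨c, rfl⟩ := residue_surjective cbar
  refine ⟨algebraMap 𝒪 A c, fun p q => ?_⟩
  rw [← residue_eq_zero_iff]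
  have h3 : residue 𝒪 (B p q - c * (1 : M2 𝒪) p q) = 0 := by
    have := congrFun (congrFun hcbar p) q
    simp only [RingHom.mapMatrix_apply, Matrix.map_apply, Matrix.smul_apply,
      smul_eq_mul] at this
    rw [map_sub, map_mul, this]
    by_cases hpq : p = q
    · subst hpq; simp
    · simp [hpq]
  rw [← residue_algebraMap_eq_zero_iff (A := A) hloc] at h3
  have h4 : residue A (algebraMap 𝒪 A (B p q)) = residue A (M p q) := hB p q
  simp only [Matrix.sub_apply, Matrix.smul_apply, smul_eq_mul, map_sub, map_mul] at h3 ⊢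
  rw [h4] at h3
  by_cases hpq : p = q
  · subst hpq; simpa using h3
  · simpa [hpq] using h3

/-- Two strict lifts of the same residual representation agree modulo the maximal ideal. -/
theorem _root_.Fermat.Agent.S53.IsStrictLift.entriesIn_sub {rbar : Gal → M2 (ResidueField 𝒪)} {r r' : Gal → M2 A}
    (hr : IsStrictLift 𝒪 rbar r) (hr' : IsStrictLift 𝒪 rbar r') (σ : Gal) :
    EntriesIn (maximalIdeal A) (r σ - r' σ) := by
  intro p q
  obtain ⟨c, hc⟩ := residue_surjective (rbar σ p q)
  have := Ideal.sub_mem _ (hr σ p q c hc) (hr' σ p q c hc)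
  simpa using this

/-- A map congruent to a strict lift is a strict lift. -/
theorem _root_.Fermat.Agent.S53.IsStrictLift.of_entriesIn_sub {rbar : Gal → M2 (ResidueField 𝒪)} {r r' : Gal → M2 A}
    (hr : IsStrictLift 𝒪 rbar r) (h : ∀ σ, EntriesIn (maximalIdeal A) (r' σ - r σ)) :
    IsStrictLift 𝒪 rbar r' := by
  intro σ p q c hc
  have := Ideal.add_mem _ (h σ p q) (hr σ p q c hc)
  simpa using this

/-- **Uniqueness of normal forms (S3u)**: a conjugator between two strict normal lifts is a scalar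
matrix. Valid over every local `𝒪`-algebra with residue field `k`. -/
theorem scalar_of_conj_of_isNormal (hloc : IsLocalHom (algebraMap 𝒪 A))
    (hsurj : Function.Surjective (residue A ∘ algebraMap 𝒪 A)) {sl : Slice 𝒪}
    {rbar : Gal → M2 (ResidueField 𝒪)} (hsl : sl.IsGood rbar) {r r' : Gal → M2 A}
    (hr : IsStrictLift 𝒪 rbar r) (hr' : IsStrictLift 𝒪 rbar r') (hn : IsNormal sl r)
    (hn' : IsNormal sl r') (U : M2 A) (hU : ∀ σ, U * r σ = r' σ * U) :
    U = U 0 0 • (1 : M2 A) := by
  apply scalar_of_slicePhi_eq_zero (fun m => r (sl.g m)) (fun m => r' (sl.g m)) sl.i sl.j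
    (fun m => hr.entriesIn_sub hr' _) (sliceHyp_of_isGood hloc hsurj hsl hr)
  · intro m
    simp only [hU, sub_self, Matrix.zero_apply]
  · intro m
    simp only [hn m, hn' m]

/-- **Uniqueness of normal forms (S3u)**: two strict normal lifts which are conjugate are equal. -/
theorem eq_of_conj_of_isNormal (hloc : IsLocalHom (algebraMap 𝒪 A))
    (hsurj : Function.Surjective (residue A ∘ algebraMap 𝒪 A)) {sl : Slice 𝒪}
    {rbar : Gal → M2 (ResidueField 𝒪)} (hsl : sl.IsGood rbar) {r r' : Gal → M2 A}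
    (hr : IsStrictLift 𝒪 rbar r) (hr' : IsStrictLift 𝒪 rbar r') (hn : IsNormal sl r)
    (hn' : IsNormal sl r') (U : (M2 A)ˣ) (hU : ∀ σ, (U : M2 A) * r σ = r' σ * U) : r = r' := by
  have hs := scalar_of_conj_of_isNormal hloc hsurj hsl hr hr' hn hn' (U : M2 A) hU
  have hu : IsUnit ((U : M2 A) 0 0) := by
    have h1 : (U : M2 A) * (↑U⁻¹ : M2 A) = 1 := U.mul_inv
    rw [hs, Matrix.smul_mul, one_mul] at h1
    have h2 := congrFun (congrFun h1 0) 0
    simp only [Matrix.smul_apply, smul_eq_mul, Matrix.one_apply_eq] at h2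
    exact IsUnit.of_mul_eq_one _ h2
  funext σ
  have h3 := hU σ
  rw [hs, Matrix.smul_mul, one_mul, Matrix.mul_smul, mul_one] at h3
  exact hu.smul_left_cancel.1 h3

end Good

section Exist

variable {A : Type} [CommRing A]

/-- Conjugation by a unit congruent to `1` modulo `J` moves matrices by elements of `M2 J`. -/
theorem entriesIn_conj_sub {J : Ideal A} (W : (M2 A)ˣ) (hW : EntriesIn J ((W : M2 A) - 1))
    (Y : M2 A) : EntriesIn J ((W : M2 A) * Y * (↑W⁻¹ : M2 A) - Y) := by
  have h1 : (W : M2 A) * Y * ↑W⁻¹ - Y =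
      (((W : M2 A) - 1) * Y - Y * ((W : M2 A) - 1)) * ↑W⁻¹ := by
    have h2 : ((W : M2 A) - 1) * Y - Y * ((W : M2 A) - 1) = (W : M2 A) * Y - Y * W := by
      noncomm_ring
    rw [h2, sub_mul, mul_assoc Y, Units.mul_inv, mul_one]
  rw [h1]
  exact ((hW.mul_right Y).sub (hW.mul_left Y)).mul_right _

/-- The inverse of a unit congruent to `1` modulo `J` is congruent to `1` modulo `J`. -/
theorem entriesIn_inv_sub_one {J : Ideal A} (W : (M2 A)ˣ) (hW : EntriesIn J ((W : M2 A) - 1)) :
    EntriesIn J ((↑W⁻¹ : M2 A) - 1) := by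
  have h1 : (↑W⁻¹ : M2 A) - 1 = -(((W : M2 A) - 1) * ↑W⁻¹) := by
    rw [sub_mul, Units.mul_inv, one_mul]; abel
  rw [h1]
  exact (hW.mul_right _).neg

variable [IsLocalRing A]

theorem SliceHyp.congr {X X' : Fin 3 → M2 A} {i j : Fin 3 → Fin 2} (H : SliceHyp X i j)
    (h : ∀ m, EntriesIn (maximalIdeal A) (X' m - X m)) : SliceHyp X' i j := by
  intro M hM
  apply H M
  intro m
  have h1 : M * X m - X m * M = (M * X' m - X' m * M) - (M * (X' m - X m) - (X' m - X m) * M) := by
    noncomm_ring
  rw [h1, Matrix.sub_apply]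
  exact Ideal.sub_mem _ (hM m) ((((h m).mul_left M).sub ((h m).mul_right M)) _ _)

/-- One Newton step. -/
theorem exists_step (X : Fin 3 → M2 A) (i j : Fin 3 → Fin 2) (H : SliceHyp X i j) (t : Fin 3 → A)
    (I : Ideal A) (hI : I ≤ maximalIdeal A) (hδ : ∀ m, X m (i m) (j m) - t m ∈ I) :
    ∃ W : (M2 A)ˣ, EntriesIn I ((W : M2 A) - 1) ∧
      ∀ m, ((W : M2 A) * X m * (↑W⁻¹ : M2 A)) (i m) (j m) - t m ∈ I * I := by
  obtain ⟨s, hs, -, hsI⟩ := exists_section X X i j (fun m => by
    rw [sub_self]; exact EntriesIn.zero) H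
  set M : M2 A := s (fun m => -(X m (i m) (j m) - t m)) with hMdef
  have hM : EntriesIn I M := hsI I _ (fun m => I.neg_mem (hδ m))
  obtain ⟨W, hW⟩ := isUnit_one_add (hM.mono hI)
  have hW1 : (W : M2 A) - 1 = M := by rw [hW]; abel
  have hWI : EntriesIn I ((W : M2 A) - 1) := by rw [hW1]; exact hM
  refine ⟨W, hWI, fun m => ?_⟩
  have hinv := entriesIn_inv_sub_one W hWI
  have h1 : (W : M2 A) * X m * ↑W⁻¹ =
      X m + (M * X m - X m * M) + (M * X m - X m * M) * ((↑W⁻¹ : M2 A) - 1) := by
    have h2 : (W : M2 A) * X m * ↑W⁻¹ - X m = (M * X m - X m * M) * ↑W⁻¹ := by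
      have h3 : M * X m - X m * M = (W : M2 A) * X m - X m * W := by
        rw [← hW1]; noncomm_ring
      rw [h3, sub_mul, mul_assoc (X m), Units.mul_inv, mul_one]
    have h4 : (W : M2 A) * X m * ↑W⁻¹ = X m + (M * X m - X m * M) * ↑W⁻¹ := by
      rw [← h2]; abel
    rw [h4, mul_sub, mul_one]; abel
  have h5 : (M * X m - X m * M) (i m) (j m) = -(X m (i m) (j m) - t m) := hs _ m
  have h6 : EntriesIn (I * I) ((M * X m - X m * M) * ((↑W⁻¹ : M2 A) - 1)) :=
    ((hM.mul_right _).sub (hM.mul_left _)).mul hinv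
  rw [h1, Matrix.add_apply, Matrix.add_apply, h5]
  have := h6 (i m) (j m)
  convert this using 1
  ring

/-- The inductive step on conjugators. -/
theorem exists_next (X : Fin 3 → M2 A) (i j : Fin 3 → Fin 2) (H : SliceHyp X i j) (t : Fin 3 → A)
    (n : ℕ) (V : (M2 A)ˣ) (hV : EntriesIn (maximalIdeal A) ((V : M2 A) - 1))
    (hδ : ∀ m, ((V : M2 A) * X m * (↑V⁻¹ : M2 A)) (i m) (j m) - t m ∈ maximalIdeal A ^ (n + 1)) :
    ∃ V' : (M2 A)ˣ, (EntriesIn (maximalIdeal A) ((V' : M2 A) - 1) ∧
      ∀ m, ((V' : M2 A) * X m * (↑V'⁻¹ : M2 A)) (i m) (j m) - t m ∈ maximalIdeal A ^ (n + 2)) ∧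
      EntriesIn (maximalIdeal A ^ (n + 1)) ((V' : M2 A) - (V : M2 A)) := by
  have hI : maximalIdeal A ^ (n + 1) ≤ maximalIdeal A := Ideal.pow_le_self (by omega)
  obtain ⟨W, hW, hWδ⟩ := exists_step (fun m => (V : M2 A) * X m * (↑V⁻¹ : M2 A)) i j
    (H.congr fun m => entriesIn_conj_sub V hV (X m)) t _ hI hδ
  have hsub : ((W * V : (M2 A)ˣ) : M2 A) - (V : M2 A) = ((W : M2 A) - 1) * (V : M2 A) := by
    rw [Units.val_mul, sub_mul, one_mul]
  refine ⟨W * V, ⟨?_, fun m => ?_⟩, ?_⟩
  · have h1 : ((W * V : (M2 A)ˣ) : M2 A) - 1 = ((W : M2 A) - 1) * V + ((V : M2 A) - 1) := by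
      rw [Units.val_mul, sub_mul, one_mul]; abel
    rw [h1]
    exact ((hW.mono hI).mul_right _).add hV
  · have h2 : ((W * V : (M2 A)ˣ) : M2 A) * X m * (↑(W * V)⁻¹ : M2 A) =
        (W : M2 A) * ((V : M2 A) * X m * (↑V⁻¹ : M2 A)) * (↑W⁻¹ : M2 A) := by
      rw [_root_.mul_inv_rev, Units.val_mul, Units.val_mul]
      simp only [mul_assoc]
    rw [h2]
    have h3 : maximalIdeal A ^ (n + 1) * maximalIdeal A ^ (n + 1) ≤ maximalIdeal A ^ (n + 2) := by
      rw [← pow_add]
      exact Ideal.pow_le_pow_right (by omega)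
    exact h3 (hWδ m)
  · rw [hsub]
    exact hW.mul_right _

/-- **Existence of normal forms, intrinsic version**: over an adically complete local ring, a
triple of matrices satisfying the slice hypothesis can be conjugated (by a matrix congruent to
`1`) so that the three distinguished entries take prescribed values congruent to the original
ones. -/
theorem exists_normalizer [IsAdicComplete (maximalIdeal A) A] (X : Fin 3 → M2 A)
    (i j : Fin 3 → Fin 2) (H : SliceHyp X i j) (t : Fin 3 → A)
    (h0 : ∀ m, X m (i m) (j m) - t m ∈ maximalIdeal A) :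
    ∃ V : (M2 A)ˣ, EntriesIn (maximalIdeal A) ((V : M2 A) - 1) ∧
      ∀ m, ((V : M2 A) * X m * (↑V⁻¹ : M2 A)) (i m) (j m) = t m := by
  -- the invariant
  let P : ℕ → (M2 A)ˣ → Prop := fun n V => EntriesIn (maximalIdeal A) ((V : M2 A) - 1) ∧
    ∀ m, ((V : M2 A) * X m * (↑V⁻¹ : M2 A)) (i m) (j m) - t m ∈ maximalIdeal A ^ (n + 1)
  have hstep : ∀ n V, P n V → ∃ V' : (M2 A)ˣ, P (n + 1) V' ∧
      EntriesIn (maximalIdeal A ^ (n + 1)) ((V' : M2 A) - (V : M2 A)) := fun n V hP =>
    exists_next X i j H t n V hP.1 hP.2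
  choose! F hF using hstep
  obtain ⟨f, hf0, hfs⟩ : ∃ f : ℕ → (M2 A)ˣ, f 0 = 1 ∧ ∀ n, f (n + 1) = F n (f n) :=
    ⟨fun n => Nat.rec 1 (fun n V => F n V) n, rfl, fun n => rfl⟩
  have hP : ∀ n, P n (f n) := by
    intro n
    induction n with
    | zero =>
      refine ⟨by rw [hf0]; simp [EntriesIn.zero], fun m => ?_⟩
      rw [hf0]
      simpa using h0 m
    | succ n ih => rw [hfs]; exact (hF n _ ih).1
  have hdiff : ∀ n, EntriesIn (maximalIdeal A ^ (n + 1)) ((↑(f (n + 1)) : M2 A) - (↑(f n) : M2 A)) := by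
    intro n; rw [hfs]; exact (hF n _ (hP n)).2
  have hcauchy : ∀ m k, EntriesIn (maximalIdeal A ^ (m + 1)) ((↑(f (m + k)) : M2 A) - (↑(f m) : M2 A)) := by
    intro m k
    induction k with
    | zero => simp [EntriesIn.zero]
    | succ k ih =>
      have h1 : (f (m + (k + 1)) : M2 A) - (↑(f m) : M2 A) =
          ((↑(f (m + k + 1)) : M2 A) - f (m + k)) + ((↑(f (m + k)) : M2 A) - (↑(f m) : M2 A)) := by
        rw [← add_assoc]; abel
      rw [h1]
      exact ((hdiff (m + k)).mono (Ideal.pow_le_pow_right (by omega))).add ih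
  -- the limit, entry by entry
  have hlim : ∀ p q, ∃ L : A, ∀ n, (↑(f n) : M2 A) p q - L ∈ maximalIdeal A ^ n := by
    intro p q
    obtain ⟨L, hL⟩ := IsPrecomplete.prec (I := maximalIdeal A) (M := A) inferInstance
      (f := fun n => (↑(f n) : M2 A) p q) (by
        intro m n hmn
        obtain ⟨k, rfl⟩ := Nat.exists_eq_add_of_le hmn
        rw [SModEq.sub_mem, smul_eq_mul, Ideal.mul_top]
        have := (hcauchy m k).mono (Ideal.pow_le_pow_right (Nat.le_succ m)) p q
        have h2 := neg_mem this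
        simpa [Matrix.sub_apply] using h2)
    refine ⟨L, fun n => ?_⟩
    have := hL n
    rwa [SModEq.sub_mem, smul_eq_mul, Ideal.mul_top] at this
  choose L hL using hlim
  have hL' : ∀ n, EntriesIn (maximalIdeal A ^ n) ((↑(f n) : M2 A) - Matrix.of L) := fun n p q => by
    simpa using hL p q n
  have hV1 : EntriesIn (maximalIdeal A) ((Matrix.of L : M2 A) - 1) := by
    have h1 : (Matrix.of L : M2 A) - 1 = ((↑(f 1) : M2 A) - 1) - ((↑(f 1) : M2 A) - Matrix.of L) := by
      abel
    rw [h1]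
    refine (hP 1).1.sub ?_
    have := hL' 1
    rwa [pow_one] at this
  obtain ⟨V, hV⟩ := isUnit_of_sub_one hV1
  refine ⟨V, by rw [hV]; exact hV1, fun m => ?_⟩
  rw [← sub_eq_zero]
  apply IsHausdorff.haus (I := maximalIdeal A) (M := A) inferInstance
  intro n
  rw [SModEq.sub_mem, smul_eq_mul, Ideal.mul_top, sub_zero]
  -- compare with the `n`-th approximation
  obtain ⟨W, hWdef⟩ : ∃ W : (M2 A)ˣ, W = V * (f n)⁻¹ := ⟨_, rfl⟩
  have hW : EntriesIn (maximalIdeal A ^ n) ((W : M2 A) - 1) := by
    have h1 : (W : M2 A) - 1 = -(((↑(f n) : M2 A) - Matrix.of L) * (↑(f n)⁻¹ : M2 A)) := by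
      rw [hWdef, Units.val_mul, hV, sub_mul, Units.mul_inv]; abel
    rw [h1]
    exact ((hL' n).mul_right _).neg
  have h2 : (V : M2 A) * X m * (↑V⁻¹ : M2 A) =
      (W : M2 A) * ((↑(f n) : M2 A) * X m * (↑(f n)⁻¹ : M2 A)) * (↑W⁻¹ : M2 A) := by
    have e1 : (V : M2 A) = (W : M2 A) * (↑(f n) : M2 A) := by
      rw [← Units.val_mul, hWdef, inv_mul_cancel_right]
    have e2 : (↑V⁻¹ : M2 A) = (↑(f n)⁻¹ : M2 A) * (↑W⁻¹ : M2 A) := by
      rw [← Units.val_mul, hWdef, _root_.mul_inv_rev, inv_inv, inv_mul_cancel_left]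
    rw [e1, e2]
    simp only [mul_assoc]
  have h3 := entriesIn_conj_sub W hW ((↑(f n) : M2 A) * X m * (↑(f n)⁻¹ : M2 A)) (i m) (j m)
  have h4 := (hP n).2 m
  have h5 : maximalIdeal A ^ (n + 1) ≤ maximalIdeal A ^ n := Ideal.pow_le_pow_right (Nat.le_succ n)
  rw [h2]
  have := Ideal.add_mem _ h3 (h5 h4)
  rw [Matrix.sub_apply] at this
  convert this using 1
  ring

end Exist

section ExistGal

variable {A : Type} [CommRing A]

/-- Conjugate a matrix representation by an invertible matrix. -/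
noncomputable def conjHom (V : (M2 A)ˣ) (r : Gal →* M2 A) : Gal →* M2 A where
  toFun σ := (V : M2 A) * r σ * (↑V⁻¹ : M2 A)
  map_one' := by simp
  map_mul' σ τ := by
    rw [map_mul]
    have h : (↑V⁻¹ : M2 A) * (V : M2 A) = 1 := V.inv_mul
    calc (V : M2 A) * (r σ * r τ) * ↑V⁻¹
        = (V : M2 A) * r σ * 1 * r τ * ↑V⁻¹ := by simp only [mul_one, mul_assoc]
      _ = (V : M2 A) * r σ * ↑V⁻¹ * ((V : M2 A) * r τ * ↑V⁻¹) := by
          rw [← h]; simp only [mul_assoc]

@[simp] theorem conjHom_apply (V : (M2 A)ˣ) (r : Gal →* M2 A) (σ : Gal) :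
    conjHom V r σ = (V : M2 A) * r σ * (↑V⁻¹ : M2 A) := rfl

theorem conjHom_intertwine (V : (M2 A)ˣ) (r : Gal →* M2 A) (σ : Gal) :
    (V : M2 A) * r σ = conjHom V r σ * (V : M2 A) := by
  rw [conjHom_apply, mul_assoc, Units.inv_mul, mul_one]

variable [IsLocalRing A]

theorem matCont_conjHom (V : (M2 A)ˣ) {r : Gal →* M2 A} (hr : MatCont r) :
    MatCont (conjHom V r) := by
  intro n
  obtain ⟨L, hL, h⟩ := hr n
  refine ⟨L, hL, fun σ hσ => ?_⟩
  have h1 : conjHom V r σ - 1 = (V : M2 A) * (r σ - 1) * (↑V⁻¹ : M2 A) := by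
    rw [conjHom_apply, mul_sub, sub_mul, mul_one, Units.mul_inv]
  rw [h1]
  have h2 : EntriesIn (maximalIdeal A ^ n) (r σ - 1) := h σ hσ
  exact (h2.mul_left _).mul_right _

variable {𝒪 : Type} [CommRing 𝒪] [IsLocalRing 𝒪] [Algebra 𝒪 A]

theorem isStrictLift_conjHom {rbar : Gal → M2 (ResidueField 𝒪)} {r : Gal →* M2 A}
    (hr : IsStrictLift 𝒪 rbar r) (V : (M2 A)ˣ)
    (hV : EntriesIn (maximalIdeal A) ((V : M2 A) - 1)) : IsStrictLift 𝒪 rbar (conjHom V r) :=
  hr.of_entriesIn_sub fun σ => entriesIn_conj_sub V hV (r σ)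

/-- **Existence of normal forms (S3e)**: over an adically complete local `𝒪`-algebra every strict
lift is conjugate, by a matrix congruent to `1`, to a strict normal lift. -/
theorem exists_normal_conj [IsAdicComplete (maximalIdeal A) A]
    (hloc : IsLocalHom (algebraMap 𝒪 A))
    (hsurj : Function.Surjective (residue A ∘ algebraMap 𝒪 A)) {sl : Slice 𝒪}
    {rbar : Gal → M2 (ResidueField 𝒪)} (hsl : sl.IsGood rbar) (r : Gal →* M2 A)
    (hr : IsStrictLift 𝒪 rbar r) :
    ∃ U : (M2 A)ˣ, ∃ r' : Gal →* M2 A, (∀ σ, (U : M2 A) * r σ = r' σ * (U : M2 A)) ∧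
      IsStrictLift 𝒪 rbar r' ∧ IsNormal sl r' ∧
      (∀ p q, ((U : M2 A) - 1) p q ∈ maximalIdeal A) ∧ (MatCont r → MatCont r') := by
  obtain ⟨V, hV, hVn⟩ := exists_normalizer (fun m => r (sl.g m)) sl.i sl.j
    (sliceHyp_of_isGood hloc hsurj hsl hr) (fun m => algebraMap 𝒪 A (sl.a m))
    (fun m => hr _ _ _ _ (hsl.residue_a m))
  exact ⟨V, conjHom V r, conjHom_intertwine V r, isStrictLift_conjHom hr V hV, hVn, hV,
    matCont_conjHom V⟩

/-- A local ring with nilpotent maximal ideal is adically complete. -/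
theorem isAdicComplete_of_pow_eq_bot {n : ℕ} (hn : maximalIdeal A ^ n = ⊥) :
    IsAdicComplete (maximalIdeal A) A := by
  have hH : IsHausdorff (maximalIdeal A) A := ⟨fun x hx => by
    have := hx n
    rwa [SModEq.sub_mem, smul_eq_mul, Ideal.mul_top, hn, sub_zero, Ideal.mem_bot] at this⟩
  have hP : IsPrecomplete (maximalIdeal A) A := ⟨fun f hf => ⟨f n, fun m => by
    rcases le_total m n with hmn | hmn
    · exact hf hmn
    · have := hf hmn
      rw [SModEq.sub_mem, smul_eq_mul, Ideal.mul_top, hn, Ideal.mem_bot, sub_eq_zero] at this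
      rw [this]⟩⟩
  exact { toIsHausdorff := hH, toIsPrecomplete := hP }

end ExistGal

section GoodSlice

/-- The commutator functional `M ↦ (M * Y - Y * M) p q`. -/
def commLin {k : Type} [CommRing k] (Y : M2 k) (p q : Fin 2) : M2 k →ₗ[k] k where
  toFun M := (M * Y - Y * M) p q
  map_add' M N := by
    simp only [add_mul, mul_add, Matrix.sub_apply, Matrix.add_apply]; ring
  map_smul' c M := by
    simp only [Matrix.smul_mul, Matrix.mul_smul, Matrix.sub_apply, Matrix.smul_apply,
      RingHom.id_apply, smul_eq_mul]; ring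

@[simp] theorem commLin_apply {k : Type} [CommRing k] (Y : M2 k) (p q : Fin 2) (M : M2 k) :
    commLin Y p q M = (M * Y - Y * M) p q := rfl

/-- **Existence of good slices (S2)**: if the centraliser of `rbar` consists of scalar matrices,
then three of the commutator functionals cut out exactly the scalars. -/
theorem exists_good_slice {𝒪 : Type} [CommRing 𝒪] [IsLocalRing 𝒪]
    (rbar : Gal → M2 (ResidueField 𝒪))
    (hschur : ∀ M : M2 (ResidueField 𝒪), (∀ σ, M * rbar σ = rbar σ * M) →
      ∃ c : ResidueField 𝒪, M = c • (1 : M2 (ResidueField 𝒪))) :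
    ∃ sl : Slice 𝒪, sl.IsGood rbar := by
  classical
  let lam : Gal × Fin 2 × Fin 2 → Module.Dual (ResidueField 𝒪) (M2 (ResidueField 𝒪)) :=
    fun x => commLin (rbar x.1) x.2.1 x.2.2
  let W : Subspace (ResidueField 𝒪) (Module.Dual (ResidueField 𝒪) (M2 (ResidueField 𝒪))) :=
    Submodule.span (ResidueField 𝒪) (Set.range lam)
  have hcomm : ∀ M : M2 (ResidueField 𝒪), (∀ x, lam x M = 0) →
      ∃ c : ResidueField 𝒪, M = c • (1 : M2 (ResidueField 𝒪)) := by
    intro M hM
    apply hschur M
    intro σ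
    ext p q
    have := hM (σ, p, q)
    simp only [lam, commLin_apply, Matrix.sub_apply] at this
    exact sub_eq_zero.1 this
  have hco : W.dualCoannihilator =
      Submodule.span (ResidueField 𝒪) {(1 : M2 (ResidueField 𝒪))} := by
    ext M
    rw [Submodule.mem_dualCoannihilator, Submodule.mem_span_singleton]
    constructor
    · intro h
      obtain ⟨c, hc⟩ := hcomm M (fun x => h _ (Submodule.subset_span ⟨x, rfl⟩))
      exact ⟨c, hc.symm⟩
    · rintro ⟨c, rfl⟩ φ hφ
      induction hφ using Submodule.span_induction with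
      | mem φ hφ =>
        obtain ⟨x, rfl⟩ := hφ
        simp [lam]
      | zero => simp
      | add φ ψ _ _ h1 h2 => rw [LinearMap.add_apply, h1, h2, add_zero]
      | smul a φ _ h1 => rw [LinearMap.smul_apply, h1, smul_zero]
  have hfin : finrank (ResidueField 𝒪) W = 3 := by
    have h1 := Subspace.finrank_add_finrank_dualCoannihilator_eq W
    have h2 : finrank (ResidueField 𝒪)
        (Submodule.span (ResidueField 𝒪) {(1 : M2 (ResidueField 𝒪))}) = 1 :=
      finrank_span_singleton one_ne_zero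
    have h3 : finrank (ResidueField 𝒪) (M2 (ResidueField 𝒪)) = 4 := by
      rw [Module.finrank_matrix]; simp
    rw [hco, h2, h3] at h1
    omega
  obtain ⟨b, hbt, hbspan, hbli⟩ := exists_linearIndependent (ResidueField 𝒪) (Set.range lam)
  have hbfin : Finite b := hbli.finite
  have : Fintype b := Fintype.ofFinite b
  have hcard : Fintype.card b = 3 := by
    have h1 := finrank_span_eq_card hbli
    rw [Subtype.range_coe, hbspan] at h1
    rw [← h1]; exact hfin
  let e : Fin 3 ≃ b := (Fintype.equivFinOfCardEq hcard).symm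
  have hidx : ∀ m : Fin 3, ∃ x, lam x = ((e m : b) : Module.Dual (ResidueField 𝒪) (M2 (ResidueField 𝒪))) :=
    fun m => hbt (e m).2
  choose idx hidx using hidx
  have ha : ∀ m : Fin 3, ∃ a : 𝒪, residue 𝒪 a = rbar (idx m).1 (idx m).2.1 (idx m).2.2 :=
    fun m => residue_surjective _
  choose a ha using ha
  refine ⟨⟨fun m => (idx m).1, fun m => (idx m).2.1, fun m => (idx m).2.2, a⟩, ⟨ha, ?_⟩⟩
  intro M hM
  apply hcomm M
  have h0 : ∀ φ ∈ Submodule.span (ResidueField 𝒪) b, φ M = 0 := by
    intro φ hφ'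
    induction hφ' using Submodule.span_induction with
    | mem φ hφb =>
      obtain ⟨m, hm⟩ := e.surjective ⟨φ, hφb⟩
      have h2 : lam (idx m) = φ := by rw [hidx m, hm]
      rw [← h2]
      exact hM m
    | zero => simp
    | add φ ψ _ _ h1 h2 => rw [LinearMap.add_apply, h1, h2, add_zero]
    | smul a φ _ h1 => rw [LinearMap.smul_apply, h1, smul_zero]
  have h1 : ∀ φ ∈ W, φ M = 0 := fun φ hφ => h0 φ (by rw [hbspan]; exact hφ)
  intro x
  exact h1 _ (Submodule.subset_span ⟨x, rfl⟩)

end GoodSlice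

section Schur

open scoped TensorProduct

variable {k : Type} [Field k]

/-- **Burnside for the residual representation (S1)**: an absolutely irreducible residual
representation, written in a basis, spans the full matrix algebra. -/
theorem fullSpan_of_absIrr (ρbar : ResidualGaloisRep k) (β : Module.Basis (Fin 2) k ρbar.V)
    (habs : ρbar.IsAbsolutelyIrreducible) (rbar : Gal →* M2 k)
    (hrbar : ∀ σ, rbar σ = LinearMap.toMatrix β β (ρbar.ρ σ)) : FullSpan rbar := by
  apply fullSpan_of_fullSpan_map (algebraMap k (AlgebraicClosure k)) rbar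
  apply fullSpan_of_irreducible
  intro W hW
  let βK : Module.Basis (Fin 2) (AlgebraicClosure k) (AlgebraicClosure k ⊗[k] ρbar.V) :=
    Algebra.TensorProduct.basis (AlgebraicClosure k) β
  let e : (AlgebraicClosure k ⊗[k] ρbar.V) ≃ₗ[AlgebraicClosure k] (Fin 2 → AlgebraicClosure k) :=
    βK.equivFun
  have hmat : ∀ σ (x : AlgebraicClosure k ⊗[k] ρbar.V),
      e ((ρbar.ρ σ).baseChange (AlgebraicClosure k) x) =
        (mapRep (algebraMap k (AlgebraicClosure k)) rbar σ).mulVec (e x) := by
    intro σ x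
    rw [mapRep_apply, hrbar σ, ← LinearMap.toMatrix_baseChange (AlgebraicClosure k) (ρbar.ρ σ) β β]
    exact (LinearMap.toMatrix_mulVec_repr βK βK _ x).symm
  have h := habs (W.comap e.toLinearMap) (by
    intro σ x hx
    rw [Submodule.mem_comap] at hx ⊢
    show e ((ρbar.ρ σ).baseChange (AlgebraicClosure k) x) ∈ W
    rw [hmat σ x]
    exact hW σ _ hx)
  have hW' : W = (W.comap e.toLinearMap).map e.toLinearMap :=
    (Submodule.map_comap_eq_of_surjective e.surjective W).symm
  rcases h with h | h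
  · left; rw [hW', h, Submodule.map_bot]
  · right; rw [hW', h, Submodule.map_top]; exact LinearMap.range_eq_top.2 e.surjective

/-- **Schur (S1)**: the centraliser of an absolutely irreducible residual representation
consists of the scalar matrices. -/
theorem schur_of_absIrr (ρbar : ResidualGaloisRep k) (β : Module.Basis (Fin 2) k ρbar.V)
    (habs : ρbar.IsAbsolutelyIrreducible) (rbar : Gal →* M2 k)
    (hrbar : ∀ σ, rbar σ = LinearMap.toMatrix β β (ρbar.ρ σ)) (M : M2 k)
    (hM : ∀ σ, M * rbar σ = rbar σ * M) : ∃ c : k, M = c • (1 : M2 k) :=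
  schur_of_fullSpan rbar (fullSpan_of_absIrr ρbar β habs rbar hrbar) M hM

/-- Good slices exist for absolutely irreducible residual representations (S1 + S2). -/
theorem exists_good_slice_of_absIrr {𝒪 : Type} [CommRing 𝒪] [IsLocalRing 𝒪]
    (ρbar : ResidualGaloisRep (ResidueField 𝒪))
    (β : Module.Basis (Fin 2) (ResidueField 𝒪) ρbar.V) (habs : ρbar.IsAbsolutelyIrreducible)
    (rbar : Gal →* M2 (ResidueField 𝒪))
    (hrbar : ∀ σ, rbar σ = LinearMap.toMatrix β β (ρbar.ρ σ)) :
    ∃ sl : Slice 𝒪, sl.IsGood rbar :=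
  exists_good_slice rbar (schur_of_absIrr ρbar β habs rbar hrbar)

end Schur

end L1

end Fermat.Agent.S53
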