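import Mathlib

/-!
# Power series rings over a complete local ring (for S53)

`P = MvPowerSeries σ 𝒪` with `σ` finite and `𝒪` a Noetherian local ring, adically complete
for its maximal ideal.  We show `P` is adically complete for its maximal ideal and construct
evaluation maps into algebras in which the images of the variables are nilpotent.
-/

set_option autoImplicit false

namespace Fermat.Agent.S53.PS

open MvPowerSeries IsLocalRing Finsupp

variable {𝒪 : Type*} [CommRing 𝒪] [IsLocalRing 𝒪] {σ : Type*}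

theorem mem_maximalIdeal_iff (f : MvPowerSeries σ 𝒪) :
    f ∈ maximalIdeal (MvPowerSeries σ 𝒪) ↔ constantCoeff f ∈ maximalIdeal 𝒪 := by
  rw [mem_maximalIdeal, mem_maximalIdeal, mem_nonunits_iff, mem_nonunits_iff,
    MvPowerSeries.isUnit_iff_constantCoeff]

/-- The filtration: `coeff x g ∈ 𝔪 ^ (n - deg x)` for all monomials `x`. -/
def filt (σ : Type*) (𝒪 : Type*) [CommRing 𝒪] [IsLocalRing 𝒪] (n : ℕ) :
    Ideal (MvPowerSeries σ 𝒪) where
  carrier := {g | ∀ x : σ →₀ ℕ, coeff x g ∈ maximalIdeal 𝒪 ^ (n - degree x)}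
  zero_mem' := fun x => by simp
  add_mem' := fun {f g} hf hg x => by
    rw [map_add]; exact Ideal.add_mem _ (hf x) (hg x)
  smul_mem' := fun c g hg x => by
    classical
    rw [smul_eq_mul, coeff_mul]
    refine Ideal.sum_mem _ fun p hp => ?_
    have hp' : p.1 + p.2 = x := by simpa using hp
    refine Ideal.mul_mem_left _ _ (Ideal.pow_le_pow_right ?_ (hg p.2))
    have : degree p.2 ≤ degree x := by
      rw [← hp', map_add]; exact Nat.le_add_left _ _
    omega

theorem mem_filt {n : ℕ} {g : MvPowerSeries σ 𝒪} :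
    g ∈ filt σ 𝒪 n ↔ ∀ x : σ →₀ ℕ, coeff x g ∈ maximalIdeal 𝒪 ^ (n - degree x) := Iff.rfl

theorem filt_mul_le (a b : ℕ) : filt σ 𝒪 a * filt σ 𝒪 b ≤ filt σ 𝒪 (a + b) := by
  classical
  rw [Ideal.mul_le]
  intro f hf g hg x
  rw [coeff_mul]
  refine Ideal.sum_mem _ fun p hp => ?_
  have hp' : p.1 + p.2 = x := by simpa using hp
  have hd : degree p.1 + degree p.2 = degree x := by rw [← hp', map_add]
  have h1 := Ideal.mul_mem_mul (hf p.1) (hg p.2)
  rw [← pow_add] at h1
  exact Ideal.pow_le_pow_right (by omega) h1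

theorem maximalIdeal_le_filt_one : maximalIdeal (MvPowerSeries σ 𝒪) ≤ filt σ 𝒪 1 := by
  intro f hf x
  by_cases hx : x = 0
  · subst hx
    simpa using (mem_maximalIdeal_iff f).mp hf
  · have : 1 - degree x = 0 := by
      have : degree x ≠ 0 := by
        intro h
        exact hx ((Finsupp.degree_eq_zero_iff x).mp h)
      omega
    rw [this, pow_zero, Ideal.one_eq_top]
    exact Submodule.mem_top

theorem maximalIdeal_pow_le_filt (n : ℕ) :
    maximalIdeal (MvPowerSeries σ 𝒪) ^ n ≤ filt σ 𝒪 n := by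
  induction n with
  | zero =>
    intro f _ x
    simp
  | succ n ih =>
    rw [pow_succ]
    exact (Ideal.mul_mono ih maximalIdeal_le_filt_one).trans (filt_mul_le n 1)


theorem C_mem_maximalIdeal_pow {a : ℕ} {c : 𝒪} (hc : c ∈ maximalIdeal 𝒪 ^ a) :
    (C c : MvPowerSeries σ 𝒪) ∈ maximalIdeal (MvPowerSeries σ 𝒪) ^ a := by
  have h1 : (maximalIdeal 𝒪).map (C : 𝒪 →+* MvPowerSeries σ 𝒪) ≤
      maximalIdeal (MvPowerSeries σ 𝒪) := by
    rw [Ideal.map_le_iff_le_comap]
    intro x hx
    rw [Ideal.mem_comap, mem_maximalIdeal_iff]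
    simpa using hx
  have h2 := Ideal.pow_right_mono h1 a
  rw [← Ideal.map_pow] at h2
  exact h2 (Ideal.mem_map_of_mem _ hc)

theorem X_mem_maximalIdeal (i : σ) :
    (X i : MvPowerSeries σ 𝒪) ∈ maximalIdeal (MvPowerSeries σ 𝒪) := by
  rw [mem_maximalIdeal_iff]
  simp

theorem monomial_one_mem_maximalIdeal_pow (x : σ →₀ ℕ) :
    (monomial x (1 : 𝒪) : MvPowerSeries σ 𝒪) ∈
      maximalIdeal (MvPowerSeries σ 𝒪) ^ (degree x) := by
  classical
  induction x using Finsupp.induction with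
  | zero => simp
  | single_add i b f hi hb ih =>
    have : (monomial (Finsupp.single i b + f) (1 : 𝒪) : MvPowerSeries σ 𝒪) =
        X i ^ b * monomial f 1 := by
      rw [X_pow_eq, monomial_mul_monomial, one_mul]
    rw [this, map_add, pow_add]
    refine Ideal.mul_mem_mul ?_ ih
    rw [Finsupp.degree_single]
    exact Ideal.pow_mem_pow (X_mem_maximalIdeal i) b

theorem monomial_mem_maximalIdeal_pow {a : ℕ} {c : 𝒪} (hc : c ∈ maximalIdeal 𝒪 ^ a)
    (x : σ →₀ ℕ) :
    (monomial x c : MvPowerSeries σ 𝒪) ∈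
      maximalIdeal (MvPowerSeries σ 𝒪) ^ (a + degree x) := by
  have : (monomial x c : MvPowerSeries σ 𝒪) = C c * monomial x 1 := by
    rw [← monomial_zero_eq_C_apply, monomial_mul_monomial]; simp
  rw [this, pow_add]
  exact Ideal.mul_mem_mul (C_mem_maximalIdeal_pow hc) (monomial_one_mem_maximalIdeal_pow x)

section Finite

variable [Finite σ]

/-- A power series all of whose coefficients in degree `< n` vanish lies in `𝔐 ^ n`. -/
theorem mem_maximalIdeal_pow_of_coeff_eq_zero {n : ℕ} {t : MvPowerSeries σ 𝒪}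
    (ht : ∀ x : σ →₀ ℕ, degree x < n → coeff x t = 0) :
    t ∈ maximalIdeal (MvPowerSeries σ 𝒪) ^ n := by
  classical
  set I := MvPolynomial.idealOfVars σ 𝒪 with hI
  have hfg : I.FG := MvPolynomial.idealOfVars_fg σ 𝒪
  let e := toAdicCompletionAlgEquiv σ 𝒪
  -- `e t` lies in the kernel of `eval n`
  have h1 : e t ∈ LinearMap.ker (AdicCompletion.eval I (MvPolynomial σ 𝒪) n) := by
    rw [LinearMap.mem_ker]
    show (toAdicCompletion σ 𝒪 t).val n = 0
    rw [toAdicCompletion_apply_eq_mk_truncTotal]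
    have : truncTotal n t = 0 := by
      ext x
      by_cases hx : degree x < n
      · rw [coeff_truncTotal _ hx, ht x hx]; simp
      · rw [coeff_truncTotal_eq_zero _ (not_lt.mp hx)]; simp
    rw [this, map_zero]
  rw [← AdicCompletion.pow_smul_top_eq_ker_eval hfg] at h1
  -- transport back along `e`
  have h2 : t ∈ I ^ n • (⊤ : Submodule (MvPolynomial σ 𝒪) (MvPowerSeries σ 𝒪)) := by
    have h3 : e.symm (e t) ∈ Submodule.map (e.symm.toLinearEquiv : _ →ₗ[MvPolynomial σ 𝒪] _)
        (I ^ n • (⊤ : Submodule (MvPolynomial σ 𝒪) (AdicCompletion I (MvPolynomial σ 𝒪)))) :=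
      Submodule.mem_map_of_mem h1
    rw [Submodule.map_smul'', Submodule.map_top, LinearMap.range_eq_top.mpr
      e.symm.toLinearEquiv.surjective, AlgEquiv.symm_apply_apply] at h3
    exact h3
  -- `I ^ n • ⊤ ≤ 𝔐 ^ n`
  have h4 : I ^ n • (⊤ : Submodule (MvPolynomial σ 𝒪) (MvPowerSeries σ 𝒪)) ≤
      (maximalIdeal (MvPowerSeries σ 𝒪) ^ n).restrictScalars (MvPolynomial σ 𝒪) := by
    rw [Submodule.smul_le]
    intro r hr p _
    rw [Submodule.restrictScalars_mem, Algebra.smul_def]
    refine Ideal.mul_mem_right _ _ ?_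
    have h5 : I.map (algebraMap (MvPolynomial σ 𝒪) (MvPowerSeries σ 𝒪)) ≤
        maximalIdeal (MvPowerSeries σ 𝒪) := by
      rw [hI, MvPolynomial.idealOfVars, Ideal.map_span, Ideal.span_le]
      rintro _ ⟨_, ⟨i, rfl⟩, rfl⟩
      have : algebraMap (MvPolynomial σ 𝒪) (MvPowerSeries σ 𝒪) (MvPolynomial.X i) = X i := by
        rw [MvPowerSeries.algebraMap_apply']
        simp
      rw [this]
      exact X_mem_maximalIdeal i
    have h6 := Ideal.pow_right_mono h5 n
    rw [← Ideal.map_pow] at h6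
    exact h6 (Ideal.mem_map_of_mem _ hr)
  exact h4 h2

theorem filt_le_maximalIdeal_pow (n : ℕ) :
    filt σ 𝒪 n ≤ maximalIdeal (MvPowerSeries σ 𝒪) ^ n := by
  classical
  intro g hg
  have hsplit : g = (g - ((truncTotal n g : MvPolynomial σ 𝒪) : MvPowerSeries σ 𝒪)) +
      ((truncTotal n g : MvPolynomial σ 𝒪) : MvPowerSeries σ 𝒪) := by ring
  rw [hsplit]
  refine Ideal.add_mem _ ?_ ?_
  · refine mem_maximalIdeal_pow_of_coeff_eq_zero fun x hx => ?_
    rw [map_sub, MvPolynomial.coeff_coe, coeff_truncTotal _ hx, sub_self]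
  · set p := truncTotal n g with hp
    have hsum : ((p : MvPolynomial σ 𝒪) : MvPowerSeries σ 𝒪) =
        ∑ v ∈ p.support, (monomial v (MvPolynomial.coeff v p) : MvPowerSeries σ 𝒪) := by
      conv_lhs => rw [← MvPolynomial.support_sum_monomial_coeff p]
      rw [← MvPolynomial.coeToMvPowerSeries.ringHom_apply, map_sum]
      simp [MvPolynomial.coe_monomial]
    rw [hsum]
    refine Ideal.sum_mem _ fun v hv => ?_
    have hvn : degree v < n := by
      by_contra hcon
      rw [MvPolynomial.mem_support_iff, hp, coeff_truncTotal_eq_zero _ (not_lt.mp hcon)] at hv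
      exact hv rfl
    have hc : MvPolynomial.coeff v p ∈ maximalIdeal 𝒪 ^ (n - degree v) := by
      rw [hp, coeff_truncTotal _ hvn]; exact hg v
    have := monomial_mem_maximalIdeal_pow hc v
    rwa [Nat.sub_add_cancel hvn.le] at this

theorem maximalIdeal_pow_eq_filt (n : ℕ) :
    maximalIdeal (MvPowerSeries σ 𝒪) ^ n = filt σ 𝒪 n :=
  le_antisymm (maximalIdeal_pow_le_filt n) (filt_le_maximalIdeal_pow n)

theorem mem_maximalIdeal_pow_iff {n : ℕ} {g : MvPowerSeries σ 𝒪} :
    g ∈ maximalIdeal (MvPowerSeries σ 𝒪) ^ n ↔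
      ∀ x : σ →₀ ℕ, coeff x g ∈ maximalIdeal 𝒪 ^ (n - degree x) := by
  rw [maximalIdeal_pow_eq_filt]; exact mem_filt

theorem isPrecomplete [IsPrecomplete (maximalIdeal 𝒪) 𝒪] :
    IsPrecomplete (maximalIdeal (MvPowerSeries σ 𝒪)) (MvPowerSeries σ 𝒪) := by
  refine ⟨fun f hf => ?_⟩
  -- coefficientwise limits
  have hcoeff : ∀ x : σ →₀ ℕ, ∃ L : 𝒪, ∀ j : ℕ,
      coeff x (f (j + degree x)) ≡ L [SMOD (maximalIdeal 𝒪 ^ j • ⊤ : Submodule 𝒪 𝒪)] := by
    intro x
    refine IsPrecomplete.prec' (I := maximalIdeal 𝒪) (fun j => coeff x (f (j + degree x))) ?_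
    intro i j hij
    have h1 := hf (show i + degree x ≤ j + degree x by omega)
    rw [SModEq.sub_mem, smul_eq_mul, Ideal.mul_top, mem_maximalIdeal_pow_iff] at h1
    have h2 := h1 x
    rw [SModEq.sub_mem, smul_eq_mul, Ideal.mul_top]
    rw [map_sub] at h2
    simpa using h2
  choose L hL using hcoeff
  let Ls : MvPowerSeries σ 𝒪 := fun x => L x
  have hLs : ∀ x, coeff x Ls = L x := fun x => rfl
  refine ⟨Ls, fun n => ?_⟩
  rw [SModEq.sub_mem, smul_eq_mul, Ideal.mul_top, mem_maximalIdeal_pow_iff]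
  intro x
  by_cases hx : degree x ≤ n
  · have h1 := hL x (n - degree x)
    rw [Nat.sub_add_cancel hx, SModEq.sub_mem, smul_eq_mul, Ideal.mul_top] at h1
    rw [map_sub, hLs]
    exact h1
  · have : n - degree x = 0 := by omega
    rw [this, pow_zero, Ideal.one_eq_top]
    exact Submodule.mem_top

instance isAdicComplete [IsNoetherianRing 𝒪] [IsAdicComplete (maximalIdeal 𝒪) 𝒪] :
    IsAdicComplete (maximalIdeal (MvPowerSeries σ 𝒪)) (MvPowerSeries σ 𝒪) :=
  { toIsHausdorff := inferInstance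
    toIsPrecomplete := isPrecomplete }

end Finite

end Fermat.Agent.S53.PS
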