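import Mathlib
import Fermat.Agent.S53.PowerSeries

/-!
# Evaluation of power series at nilpotent families (for S53)
-/

set_option autoImplicit false

namespace Fermat.Agent.S53.PS

open MvPowerSeries IsLocalRing

section Eval

variable {𝒪 : Type*} [CommRing 𝒪] {σ : Type*} [Finite σ] {A : Type*} [CommRing A] [Algebra 𝒪 A]

omit [Finite σ] in
/-- the polynomial evaluation kills `idealOfVars ^ n` when the `n`-fold products of the `a i`
vanish. -/
theorem aeval_mem_of_mem_pow (a : σ → A) (n : ℕ) (p : MvPolynomial σ 𝒪)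
    (hp : p ∈ MvPolynomial.idealOfVars σ 𝒪 ^ n) :
    MvPolynomial.aeval a p ∈ Ideal.span (Set.range a) ^ n := by
  have h1 : (MvPolynomial.idealOfVars σ 𝒪).map (MvPolynomial.aeval a : _ →ₐ[𝒪] A).toRingHom ≤
      Ideal.span (Set.range a) := by
    rw [MvPolynomial.idealOfVars, Ideal.map_span, Ideal.span_le]
    rintro _ ⟨_, ⟨i, rfl⟩, rfl⟩
    simp only [AlgHom.toRingHom_eq_coe, RingHom.coe_coe, MvPolynomial.aeval_X]
    exact Ideal.subset_span ⟨i, rfl⟩
  have h2 := Ideal.pow_right_mono h1 n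
  rw [← Ideal.map_pow] at h2
  exact h2 (Ideal.mem_map_of_mem _ hp)

/-- Evaluation of power series at a family whose `n`-fold products vanish. -/
noncomputable def evalHom (a : σ → A) (n : ℕ) (ha : Ideal.span (Set.range a) ^ n = ⊥) :
    MvPowerSeries σ 𝒪 →ₐ[𝒪] A :=
  ((Ideal.Quotient.liftₐ (MvPolynomial.idealOfVars σ 𝒪 ^ n) (MvPolynomial.aeval a)
      (fun p hp => by
        have := aeval_mem_of_mem_pow a n p hp
        rwa [ha, Ideal.mem_bot] at this)).comp
    ((truncTotalAlgHom σ 𝒪 n).restrictScalars 𝒪))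

theorem evalHom_apply (a : σ → A) (n : ℕ) (ha : Ideal.span (Set.range a) ^ n = ⊥)
    (f : MvPowerSeries σ 𝒪) :
    evalHom a n ha f = MvPolynomial.aeval a (truncTotal n f) := rfl

theorem evalHom_coe (a : σ → A) (n : ℕ) (ha : Ideal.span (Set.range a) ^ n = ⊥)
    (p : MvPolynomial σ 𝒪) :
    evalHom a n ha (p : MvPowerSeries σ 𝒪) = MvPolynomial.aeval a p := by
  rw [evalHom_apply]
  have h1 : truncTotal n (p : MvPowerSeries σ 𝒪) - p ∈ MvPolynomial.idealOfVars σ 𝒪 ^ n := by
    rw [MvPolynomial.mem_pow_idealOfVars_iff']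
    intro x hx
    rw [MvPolynomial.coeff_sub, coeff_truncTotal _ hx, MvPolynomial.coeff_coe, sub_self]
  have h2 := aeval_mem_of_mem_pow a n _ h1
  rw [ha, Ideal.mem_bot, map_sub, sub_eq_zero] at h2
  exact h2

theorem evalHom_X (a : σ → A) (n : ℕ) (ha : Ideal.span (Set.range a) ^ n = ⊥) (i : σ) :
    evalHom a n ha (X i : MvPowerSeries σ 𝒪) = a i := by
  have := evalHom_coe (𝒪 := 𝒪) a n ha (MvPolynomial.X i)
  rwa [MvPolynomial.coe_X, MvPolynomial.aeval_X] at this

/-- Two algebra homs out of the power series ring that both kill the power series of order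
`≥ n` and agree on the variables are equal. -/
theorem algHom_ext_of_X {f g : MvPowerSeries σ 𝒪 →ₐ[𝒪] A} (n : ℕ)
    (hf : ∀ t : MvPowerSeries σ 𝒪, (∀ x : σ →₀ ℕ, Finsupp.degree x < n → coeff x t = 0) → f t = 0)
    (hg : ∀ t : MvPowerSeries σ 𝒪, (∀ x : σ →₀ ℕ, Finsupp.degree x < n → coeff x t = 0) → g t = 0)
    (h : ∀ i, f (X i) = g (X i)) : f = g := by
  ext t
  have key : ∀ φ : MvPowerSeries σ 𝒪 →ₐ[𝒪] A,
      (∀ t : MvPowerSeries σ 𝒪, (∀ x : σ →₀ ℕ, Finsupp.degree x < n → coeff x t = 0) → φ t = 0) →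
      φ t = MvPolynomial.aeval (fun i => φ (X i)) (truncTotal n t) := by
    intro φ hφ
    have h1 : φ (t - ((truncTotal n t : MvPolynomial σ 𝒪) : MvPowerSeries σ 𝒪)) = 0 := by
      apply hφ
      intro x hx
      rw [map_sub, MvPolynomial.coeff_coe, coeff_truncTotal _ hx, sub_self]
    rw [map_sub, sub_eq_zero] at h1
    rw [h1]
    -- `φ ∘ coe` is an algebra hom on polynomials, determined by its values on variables
    have h2 : (φ.comp (MvPolynomial.coeToMvPowerSeries.algHom 𝒪)) =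
        MvPolynomial.aeval (fun i => φ (X i)) := by
      apply MvPolynomial.algHom_ext
      intro i
      simp [MvPolynomial.coeToMvPowerSeries.algHom_apply]
    have h3 := congrArg (fun ψ : MvPolynomial σ 𝒪 →ₐ[𝒪] A => ψ (truncTotal n t)) h2
    simpa [MvPolynomial.coeToMvPowerSeries.algHom_apply] using h3
  rw [key f hf, key g hg]
  have : (fun i => f (X i)) = fun i => g (X i) := funext h
  rw [this]

end Eval

end Fermat.Agent.S53.PS
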