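import Mathlib
import Fermat.Agent.S53.PowerSeries
import Fermat.Agent.S53.PSEval

/-!
# Local algebra homs out of power series rings (S53 package (b'), helper4)

`P = MvPowerSeries σ 𝒪` over a local ring `𝒪`, and `A` a local `𝒪`-algebra with
`IsLocalHom (algebraMap 𝒪 A)` and `residue A ∘ algebraMap 𝒪 A` surjective.

* `ideal_eq_of_sup_sq_eq`, `submodule_eq_top_of_sup_smul_top`: Nakayama for nilpotent ideals.
* `ringHom_surjective_of_nilpotent`: a ring hom `f : R → A` which is surjective modulo the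
  nilpotent ideal `J.map f` is surjective.
* `algHom_isLocalHom`: every `𝒪`-algebra hom `P → A` is local.
* `algHom_eq_zero_of_mem_maximalIdeal_pow`: local homs kill `𝔐 ^ n` if `𝔪_A ^ n = 0`.
* `algHom_ext_of_X_of_isLocalHom`: local homs agreeing on the variables are equal.
* `algHom_surjective`: Nakayama-type surjectivity criterion.
-/

set_option autoImplicit false

namespace Fermat.Agent.S53.PS

open MvPowerSeries IsLocalRing

section Nakayama

/-- Nakayama for a nilpotent ideal (no finiteness hypotheses): ideals. -/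
theorem ideal_eq_of_sup_sq_eq {A : Type*} [CommRing A] (I m : Ideal A)
    (h : I ⊔ m ^ 2 = m) {n : ℕ} (hn : m ^ n = ⊥) : I = m := by
  have hI : I ≤ m := h ▸ le_sup_left
  have key : ∀ k : ℕ, m ≤ I ⊔ m ^ (k + 1) := by
    intro k
    induction k with
    | zero => simp
    | succ k ih =>
      calc m = I ⊔ m ^ 2 := h.symm
        _ = I ⊔ m * m := by rw [pow_two]
        _ ≤ I ⊔ m * (I ⊔ m ^ (k + 1)) := sup_le_sup_left (Ideal.mul_mono_right ih) _
        _ = I ⊔ (m * I ⊔ m * m ^ (k + 1)) := by rw [Ideal.mul_sup]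
        _ ≤ I ⊔ m ^ (k + 1 + 1) := by
            refine sup_le le_sup_left (sup_le (le_sup_of_le_left Ideal.mul_le_right) ?_)
            rw [← pow_succ']
            exact le_sup_right
  refine le_antisymm hI ?_
  have h1 := key n
  have h2 : m ^ (n + 1) = ⊥ := by rw [pow_succ, hn, Ideal.bot_mul]
  rwa [h2, sup_bot_eq] at h1

/-- Nakayama for a nilpotent ideal (no finiteness hypotheses): submodules. -/
theorem submodule_eq_top_of_sup_smul_top {R M : Type*} [CommRing R] [AddCommGroup M] [Module R M]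
    (I : Ideal R) (N : Submodule R M) (h : N ⊔ I • (⊤ : Submodule R M) = ⊤) {n : ℕ}
    (hn : I ^ n • (⊤ : Submodule R M) = ⊥) : N = ⊤ := by
  have key : ∀ k : ℕ, N ⊔ I ^ k • (⊤ : Submodule R M) = ⊤ := by
    intro k
    induction k with
    | zero => simp
    | succ k ih =>
      rw [eq_top_iff]
      calc (⊤ : Submodule R M) = N ⊔ I • (⊤ : Submodule R M) := h.symm
        _ = N ⊔ I • (N ⊔ I ^ k • (⊤ : Submodule R M)) := by rw [ih]
        _ = N ⊔ (I • N ⊔ I • I ^ k • (⊤ : Submodule R M)) := by rw [Submodule.smul_sup]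
        _ ≤ N ⊔ I ^ (k + 1) • (⊤ : Submodule R M) := by
            refine sup_le le_sup_left (sup_le (le_sup_of_le_left Submodule.smul_le_right) ?_)
            rw [← Submodule.mul_smul, ← pow_succ']
            exact le_sup_right
  have := key n
  rwa [hn, sup_bot_eq] at this

/-- A ring hom which is surjective modulo the nilpotent ideal `J.map f` is surjective. -/
theorem ringHom_surjective_of_nilpotent {R A : Type*} [CommRing R] [CommRing A] (f : R →+* A)
    (J : Ideal R) {n : ℕ} (hn : J.map f ^ n = ⊥) (h : ∀ x : A, ∃ r : R, x - f r ∈ J.map f) :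
    Function.Surjective f := by
  let _ : Algebra R A := f.toAlgebra
  have halg : algebraMap R A = f := rfl
  set N : Submodule R A := LinearMap.range (Algebra.linearMap R A) with hN
  have hsmul : ∀ k : ℕ, (J ^ k) • (⊤ : Submodule R A) = (J.map f ^ k).restrictScalars R := by
    intro k
    rw [Ideal.smul_top_eq_map, halg, Ideal.map_pow]
  have htop : N ⊔ J • (⊤ : Submodule R A) = ⊤ := by
    rw [eq_top_iff]
    intro x _
    obtain ⟨r, hr⟩ := h x
    have h1 := hsmul 1
    rw [pow_one, pow_one] at h1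
    rw [h1]
    have : x = f r + (x - f r) := by ring
    rw [this]
    exact Submodule.add_mem_sup ⟨r, rfl⟩ hr
  have hbot : J ^ n • (⊤ : Submodule R A) = ⊥ := by
    rw [hsmul n, hn]
    rfl
  have := submodule_eq_top_of_sup_smul_top _ N htop hbot
  intro x
  have hx : x ∈ N := this ▸ Submodule.mem_top
  obtain ⟨g, hg⟩ := hx
  exact ⟨g, hg⟩

end Nakayama

section Nilpotent

variable {A : Type*} [CommRing A] [IsLocalRing A]

theorem isNilpotent_of_mem_maximalIdeal_of_pow_eq_bot {n : ℕ} (h : maximalIdeal A ^ n = ⊥) {x : A}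
    (hx : x ∈ maximalIdeal A) : IsNilpotent x := by
  refine ⟨n, ?_⟩
  have := Ideal.pow_mem_pow hx n
  rwa [h, Ideal.mem_bot] at this

theorem exists_maximalIdeal_pow_eq_bot [IsArtinianRing A] : ∃ n, maximalIdeal A ^ n = ⊥ := by
  have := IsArtinianRing.isNilpotent_jacobson_bot (R := A)
  rw [IsLocalRing.jacobson_eq_maximalIdeal ⊥ bot_ne_top] at this
  obtain ⟨n, hn⟩ := this
  exact ⟨n, by simpa using hn⟩

theorem isNilpotent_of_mem_maximalIdeal [IsArtinianRing A] {x : A}
    (hx : x ∈ maximalIdeal A) : IsNilpotent x := by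
  obtain ⟨n, hn⟩ := exists_maximalIdeal_pow_eq_bot (A := A)
  exact isNilpotent_of_mem_maximalIdeal_of_pow_eq_bot hn hx

/-- If `𝔪_A ^ n = 0` and all `a i ∈ 𝔪_A` then `(a i)_i ^ n = 0` (the hypothesis of `evalHom`). -/
theorem span_range_pow_eq_bot {σ : Type*} {n : ℕ} (h : maximalIdeal A ^ n = ⊥) (a : σ → A)
    (ha : ∀ i, a i ∈ maximalIdeal A) : Ideal.span (Set.range a) ^ n = ⊥ := by
  rw [eq_bot_iff, ← h]
  refine Ideal.pow_right_mono ?_ n
  rw [Ideal.span_le]
  rintro _ ⟨i, rfl⟩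
  exact ha i

end Nilpotent

section Local

variable {𝒪 : Type*} [CommRing 𝒪] [IsLocalRing 𝒪] {σ : Type*}
  {A : Type*} [CommRing A] [IsLocalRing A] [Algebra 𝒪 A]

/-- Every `𝒪`-algebra hom from a power series ring over `𝒪` to a local `𝒪`-algebra with the same
residue field is local. -/
theorem algHom_isLocalHom [IsLocalHom (algebraMap 𝒪 A)]
    (hres : Function.Surjective (residue A ∘ algebraMap 𝒪 A))
    (f : MvPowerSeries σ 𝒪 →ₐ[𝒪] A) : IsLocalHom (f : MvPowerSeries σ 𝒪 →+* A) := by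
  refine ⟨fun g hg => ?_⟩
  change IsUnit (f g) at hg
  rw [MvPowerSeries.isUnit_iff_constantCoeff]
  by_contra hc0
  set c0 := constantCoeff g with hc0def
  have hc0m : algebraMap 𝒪 A c0 ∈ maximalIdeal A := map_nonunit (algebraMap 𝒪 A) c0 hc0
  set h := g - C c0 with hh
  have hfC : ∀ c : 𝒪, f (C c) = algebraMap 𝒪 A c := fun c => by
    rw [MvPowerSeries.c_eq_algebraMap, AlgHom.commutes]
  have hfh : f h = f g - algebraMap 𝒪 A c0 := by rw [hh, map_sub, hfC]
  -- `u = f h` is a unit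
  have hu : IsUnit (f h) := by
    by_contra hcon
    have h1 : f h ∈ maximalIdeal A := hcon
    have h2 : f g ∈ maximalIdeal A := by
      have : f g = f h + algebraMap 𝒪 A c0 := by rw [hfh]; ring
      rw [this]
      exact Ideal.add_mem _ h1 hc0m
    exact h2 hg
  obtain ⟨u, hu'⟩ := hu
  -- choose `c` with `algebraMap c ≡ -u⁻¹`
  obtain ⟨c, hc⟩ := hres (residue A (-(↑u⁻¹ : A)))
  rw [Function.comp_apply] at hc
  have hcm : algebraMap 𝒪 A c + (↑u⁻¹ : A) ∈ maximalIdeal A := by
    rw [← residue_eq_zero_iff, map_add, hc, map_neg, neg_add_cancel]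
  -- `1 + C c * h` is a unit of `P`
  have hunit : IsUnit (1 + C c * h : MvPowerSeries σ 𝒪) := by
    rw [MvPowerSeries.isUnit_iff_constantCoeff]
    have : constantCoeff (1 + C c * h : MvPowerSeries σ 𝒪) = 1 := by
      rw [map_add, map_mul, hh, map_sub, map_one]
      simp [hc0def]
    rw [this]
    exact isUnit_one
  have himg : f (1 + C c * h) = (algebraMap 𝒪 A c + (↑u⁻¹ : A)) * (u : A) := by
    rw [map_add, map_one, map_mul, hfC, ← hu', add_mul, Units.inv_mul]
    ring
  have hbad : f (1 + C c * h) ∈ maximalIdeal A := by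
    rw [himg]
    exact Ideal.mul_mem_right _ _ hcm
  exact hbad (hunit.map f)

/-- A local algebra hom from the power series ring kills `𝔐 ^ n` if `𝔪_A ^ n = 0`. -/
theorem algHom_eq_zero_of_mem_maximalIdeal_pow (f : MvPowerSeries σ 𝒪 →ₐ[𝒪] A)
    (hf : IsLocalHom (f : MvPowerSeries σ 𝒪 →+* A)) {n : ℕ} (hn : maximalIdeal A ^ n = ⊥)
    {g : MvPowerSeries σ 𝒪} (hg : g ∈ maximalIdeal (MvPowerSeries σ 𝒪) ^ n) : f g = 0 := by
  have h1 : Ideal.map (f : MvPowerSeries σ 𝒪 →+* A) (maximalIdeal (MvPowerSeries σ 𝒪)) ≤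
      maximalIdeal A := by
    rw [Ideal.map_le_iff_le_comap]
    intro x hx
    exact map_nonunit (f : MvPowerSeries σ 𝒪 →+* A) x hx
  have h2 := Ideal.pow_right_mono h1 n
  rw [← Ideal.map_pow, hn] at h2
  have h3 := h2 (Ideal.mem_map_of_mem _ hg)
  simpa using h3

/-- Two local `𝒪`-algebra homs from the power series ring to a local ring with nilpotent
maximal ideal which agree on the variables are equal. -/
theorem algHom_ext_of_X_of_isLocalHom [Finite σ] {f₁ f₂ : MvPowerSeries σ 𝒪 →ₐ[𝒪] A} {n : ℕ}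
    (hn : maximalIdeal A ^ n = ⊥)
    (h₁ : IsLocalHom (f₁ : MvPowerSeries σ 𝒪 →+* A))
    (h₂ : IsLocalHom (f₂ : MvPowerSeries σ 𝒪 →+* A))
    (hX : ∀ i, f₁ (X i) = f₂ (X i)) : f₁ = f₂ :=
  algHom_ext_of_X n
    (fun _ ht => algHom_eq_zero_of_mem_maximalIdeal_pow f₁ h₁ hn
      (mem_maximalIdeal_pow_of_coeff_eq_zero ht))
    (fun _ ht => algHom_eq_zero_of_mem_maximalIdeal_pow f₂ h₂ hn
      (mem_maximalIdeal_pow_of_coeff_eq_zero ht)) hX

/-- Under the Nakayama-type generation hypothesis the image of `𝔐` generates `𝔪_A`. -/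
theorem map_algHom_maximalIdeal (f : MvPowerSeries σ 𝒪 →ₐ[𝒪] A)
    (hf : IsLocalHom (f : MvPowerSeries σ 𝒪 →+* A)) {n : ℕ} (hn : maximalIdeal A ^ n = ⊥)
    (hgen : Ideal.span (Set.range fun i => f (X i)) ⊔ (maximalIdeal 𝒪).map (algebraMap 𝒪 A) ⊔
      maximalIdeal A ^ 2 = maximalIdeal A) :
    Ideal.map (f : MvPowerSeries σ 𝒪 →+* A) (maximalIdeal (MvPowerSeries σ 𝒪)) =
      maximalIdeal A := by
  have h1 := ideal_eq_of_sup_sq_eq _ _ hgen hn
  refine le_antisymm ?_ ?_
  · rw [Ideal.map_le_iff_le_comap]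
    intro x hx
    exact map_nonunit (f : MvPowerSeries σ 𝒪 →+* A) x hx
  · rw [← h1]
    refine sup_le ?_ ?_
    · rw [Ideal.span_le]
      rintro _ ⟨i, rfl⟩
      exact Ideal.mem_map_of_mem (f : MvPowerSeries σ 𝒪 →+* A) (X_mem_maximalIdeal (𝒪 := 𝒪) i)
    · rw [Ideal.map_le_iff_le_comap]
      intro c hc
      have hC : (C c : MvPowerSeries σ 𝒪) ∈ maximalIdeal (MvPowerSeries σ 𝒪) := by
        rw [mem_maximalIdeal_iff]; simpa using hc
      have := Ideal.mem_map_of_mem (f : MvPowerSeries σ 𝒪 →+* A) hC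
      rw [Ideal.mem_comap]
      have hfC : (f : MvPowerSeries σ 𝒪 →+* A) (C c) = algebraMap 𝒪 A c := by
        rw [MvPowerSeries.c_eq_algebraMap]; exact f.commutes c
      rwa [hfC] at this

/-- Nakayama-type surjectivity criterion: an `𝒪`-algebra hom `f : P → A` into a local
`𝒪`-algebra with nilpotent maximal ideal and the same residue field is surjective as soon as
the `f (X i)` together with `𝔪_𝒪` generate `𝔪_A` modulo `𝔪_A ^ 2`. -/
theorem algHom_surjective [IsLocalHom (algebraMap 𝒪 A)]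
    (hres : Function.Surjective (residue A ∘ algebraMap 𝒪 A))
    (f : MvPowerSeries σ 𝒪 →ₐ[𝒪] A) {n : ℕ} (hn : maximalIdeal A ^ n = ⊥)
    (hgen : Ideal.span (Set.range fun i => f (X i)) ⊔ (maximalIdeal 𝒪).map (algebraMap 𝒪 A) ⊔
      maximalIdeal A ^ 2 = maximalIdeal A) :
    Function.Surjective f := by
  have hf := algHom_isLocalHom hres f
  have hmap := map_algHom_maximalIdeal f hf hn hgen
  refine ringHom_surjective_of_nilpotent (f : MvPowerSeries σ 𝒪 →+* A)
    (maximalIdeal (MvPowerSeries σ 𝒪)) (n := n) (by rw [hmap, hn]) fun x => ?_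
  obtain ⟨c, hc⟩ := hres (residue A x)
  refine ⟨C c, ?_⟩
  rw [hmap, ← residue_eq_zero_iff, map_sub, sub_eq_zero]
  have hfC : (f : MvPowerSeries σ 𝒪 →+* A) (C c) = algebraMap 𝒪 A c := by
    rw [MvPowerSeries.c_eq_algebraMap]; exact f.commutes c
  rw [hfC]
  exact hc.symm

end Local

end Fermat.Agent.S53.PS
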