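import Mathlib
import Fermat.Prelude.Def_GaloisRep_DeformationCondition
import Fermat.Agent.S53.PSLocal

/-!
# The tangent lemma (S53 package (d), helper4)

`k = ResidueField 𝒪`, `k[ε] = DualNumber k` with the `𝒪`-algebra structure `𝒪 → k → k[ε]` used in
`GaloisRep.TangentFinite` (`dualNumberAlgebra`).  For a local `𝒪`-algebra `A` with local structure
map and residue field `k`:

* `resHom : A →+* k`, and `tangentHom l : A →ₐ[𝒪] k[ε]`, `x ↦ res x + l x • ε`, for an `𝒪`-linear
  `l : A → k` killing `𝒪` and `𝔪_A ^ 2`;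
* `exists_algHom_dualNumber` : if `I ⊔ 𝔪_A ^ 2 ⊔ 𝔪_𝒪 A ≠ 𝔪_A` there is `f : A →ₐ[𝒪] k[ε]` killing
  `I`, nonzero on `𝔪_A`;
* `exists_algHom_dualNumber_ne` : for a proper subalgebra `B` of an Artinian test algebra `A`
  there are `f ≠ f' : A →ₐ[𝒪] k[ε]` agreeing on `B`;
* `dualNumber_isArtinianTestAlgebra`.
-/

set_option autoImplicit false

namespace Fermat.Agent.S53.PS

open IsLocalRing

section Tangent

variable (𝒪 : Type*) [CommRing 𝒪] [IsLocalRing 𝒪]

/-- The `𝒪`-algebra structure on the dual numbers over the residue field used in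
`GaloisRep.TangentFinite` (through `𝒪 → k → k[ε]`). -/
@[reducible] noncomputable def dualNumberAlgebra : Algebra 𝒪 (DualNumber (ResidueField 𝒪)) :=
  ((algebraMap (ResidueField 𝒪) (DualNumber (ResidueField 𝒪))).comp
    (algebraMap 𝒪 (ResidueField 𝒪))).toAlgebra

attribute [local instance] dualNumberAlgebra

theorem dualNumber_algebraMap_apply (c : 𝒪) :
    algebraMap 𝒪 (DualNumber (ResidueField 𝒪)) c = TrivSqZeroExt.inl (residue 𝒪 c) := rfl

variable {𝒪} {A : Type*} [CommRing A] [IsLocalRing A] [Algebra 𝒪 A] [IsLocalHom (algebraMap 𝒪 A)]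

theorem residueFieldMap_bijective (hres : Function.Surjective (residue A ∘ algebraMap 𝒪 A)) :
    Function.Bijective (ResidueField.map (algebraMap 𝒪 A)) := by
  refine ⟨(ResidueField.map (algebraMap 𝒪 A)).injective, fun y => ?_⟩
  obtain ⟨c, hc⟩ := hres y
  exact ⟨residue 𝒪 c, by rw [ResidueField.map_residue]; exact hc⟩

/-- The reduction map `A → k` to the residue field of `𝒪`, for a local `𝒪`-algebra with the
same residue field. -/
noncomputable def resHom (hres : Function.Surjective (residue A ∘ algebraMap 𝒪 A)) :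
    A →+* ResidueField 𝒪 :=
  ((RingEquiv.ofBijective _ (residueFieldMap_bijective hres)).symm : ResidueField A →+* _).comp
    (residue A)

theorem resHom_algebraMap (hres : Function.Surjective (residue A ∘ algebraMap 𝒪 A)) (c : 𝒪) :
    resHom hres (algebraMap 𝒪 A c) = residue 𝒪 c := by
  rw [resHom, RingHom.comp_apply, RingHom.coe_coe, RingEquiv.symm_apply_eq,
    RingEquiv.ofBijective_apply, ResidueField.map_residue]

theorem resHom_eq_zero_iff (hres : Function.Surjective (residue A ∘ algebraMap 𝒪 A)) (x : A) :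
    resHom hres x = 0 ↔ x ∈ maximalIdeal A := by
  rw [resHom, RingHom.comp_apply, RingHom.coe_coe, EmbeddingLike.map_eq_zero_iff,
    residue_eq_zero_iff]

omit [IsLocalHom (algebraMap 𝒪 A)] [IsLocalRing 𝒪] in
theorem exists_sub_algebraMap_mem (hres : Function.Surjective (residue A ∘ algebraMap 𝒪 A))
    (x : A) : ∃ c : 𝒪, x - algebraMap 𝒪 A c ∈ maximalIdeal A := by
  obtain ⟨c, hc⟩ := hres (residue A x)
  refine ⟨c, ?_⟩
  rw [← residue_eq_zero_iff, map_sub, sub_eq_zero]
  exact hc.symm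

end Tangent


section Tangent2

variable {𝒪 : Type*} [CommRing 𝒪] [IsLocalRing 𝒪]
  {A : Type*} [CommRing A] [IsLocalRing A] [Algebra 𝒪 A] [IsLocalHom (algebraMap 𝒪 A)]

attribute [local instance] dualNumberAlgebra

theorem tangent_key (hres : Function.Surjective (residue A ∘ algebraMap 𝒪 A))
    (l : A →ₗ[𝒪] ResidueField 𝒪) (h1 : ∀ c, l (algebraMap 𝒪 A c) = 0)
    (h2 : ∀ y ∈ maximalIdeal A, ∀ y' ∈ maximalIdeal A, l (y * y') = 0) (x x' : A) :
    l (x * x') = resHom hres x * l x' + resHom hres x' * l x := by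
  obtain ⟨c, hc⟩ := exists_sub_algebraMap_mem hres x
  obtain ⟨c', hc'⟩ := exists_sub_algebraMap_mem hres x'
  set y := x - algebraMap 𝒪 A c with hy
  set y' := x' - algebraMap 𝒪 A c' with hy'
  have hx : x = algebraMap 𝒪 A c + y := by rw [hy]; ring
  have hx' : x' = algebraMap 𝒪 A c' + y' := by rw [hy']; ring
  have hmul : x * x' = algebraMap 𝒪 A (c * c') + c • y' + c' • y + y * y' := by
    rw [hx, hx', Algebra.smul_def, Algebra.smul_def, map_mul]; ring
  have hl : l x = l y := by rw [hx, map_add, h1, zero_add]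
  have hl' : l x' = l y' := by rw [hx', map_add, h1, zero_add]
  have hr : resHom hres x = residue 𝒪 c := by
    rw [hx, map_add, resHom_algebraMap, (resHom_eq_zero_iff hres y).mpr hc, add_zero]
  have hr' : resHom hres x' = residue 𝒪 c' := by
    rw [hx', map_add, resHom_algebraMap, (resHom_eq_zero_iff hres y').mpr hc', add_zero]
  rw [hmul, map_add, map_add, map_add, h1, h2 y hc y' hc', map_smul, map_smul, hl, hl', hr, hr',
    Algebra.smul_def, Algebra.smul_def, ResidueField.algebraMap_eq]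
  ring

/-- The algebra hom `x ↦ res x + l x • ε` into the dual numbers attached to a "derivation"
`l : A → k`. -/
noncomputable def tangentHom (hres : Function.Surjective (residue A ∘ algebraMap 𝒪 A))
    (l : A →ₗ[𝒪] ResidueField 𝒪) (h1 : ∀ c, l (algebraMap 𝒪 A c) = 0)
    (h2 : ∀ y ∈ maximalIdeal A, ∀ y' ∈ maximalIdeal A, l (y * y') = 0) :
    A →ₐ[𝒪] DualNumber (ResidueField 𝒪) where
  toFun x := TrivSqZeroExt.inl (resHom hres x) + TrivSqZeroExt.inr (l x)
  map_one' := by
    have : l 1 = 0 := by rw [← map_one (algebraMap 𝒪 A), h1]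
    rw [map_one, this, TrivSqZeroExt.inr_zero, add_zero]
    rfl
  map_mul' x x' := by
    apply TrivSqZeroExt.ext
    · simp
    · simp [tangent_key hres l h1 h2 x x', mul_comm]
  map_zero' := by simp
  map_add' x x' := by
    apply TrivSqZeroExt.ext
    · simp
    · simp
  commutes' c := by
    rw [dualNumber_algebraMap_apply, resHom_algebraMap, h1, TrivSqZeroExt.inr_zero, add_zero]

theorem tangentHom_apply (hres : Function.Surjective (residue A ∘ algebraMap 𝒪 A))
    (l : A →ₗ[𝒪] ResidueField 𝒪) (h1 : ∀ c, l (algebraMap 𝒪 A c) = 0)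
    (h2 : ∀ y ∈ maximalIdeal A, ∀ y' ∈ maximalIdeal A, l (y * y') = 0) (x : A) :
    tangentHom hres l h1 h2 x = TrivSqZeroExt.inl (resHom hres x) + TrivSqZeroExt.inr (l x) := rfl

theorem tangentHom_snd (hres : Function.Surjective (residue A ∘ algebraMap 𝒪 A))
    (l : A →ₗ[𝒪] ResidueField 𝒪) (h1 : ∀ c, l (algebraMap 𝒪 A c) = 0)
    (h2 : ∀ y ∈ maximalIdeal A, ∀ y' ∈ maximalIdeal A, l (y * y') = 0) (x : A) :
    (tangentHom hres l h1 h2 x).snd = l x := by
  simp [tangentHom_apply]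

end Tangent2


section Tangent3

variable {𝒪 : Type*} [CommRing 𝒪] [IsLocalRing 𝒪]
  {A : Type*} [CommRing A] [IsLocalRing A] [Algebra 𝒪 A] [IsLocalHom (algebraMap 𝒪 A)]

omit [IsLocalHom (algebraMap 𝒪 A)] in
theorem exists_linearMap_tangent (K : Ideal A)
    (hK : (maximalIdeal 𝒪).map (algebraMap 𝒪 A) ≤ K) {y0 : A} (hy0 : y0 ∈ maximalIdeal A)
    (hy0K : y0 ∉ K) :
    ∃ l : A →ₗ[𝒪] ResidueField 𝒪, (∀ c, l (algebraMap 𝒪 A c) = 0) ∧ (∀ x ∈ K, l x = 0) ∧
      l y0 ≠ 0 := by
  classical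
  set W : Submodule 𝒪 A := K.restrictScalars 𝒪 ⊔ LinearMap.range (Algebra.linearMap 𝒪 A) with hWdef
  have hKW : ∀ x ∈ K, x ∈ W := fun x hx =>
    (le_sup_left : K.restrictScalars 𝒪 ≤ W) (by simpa using hx)
  have hKtop : K ≠ ⊤ := fun h => hy0K (h ▸ Submodule.mem_top)
  have hKm : K ≤ maximalIdeal A := le_maximalIdeal hKtop
  have hW : y0 ∉ W := by
    intro h
    obtain ⟨κ, hκ, z, ⟨c, rfl⟩, hsum⟩ := Submodule.mem_sup.mp h
    have hκ' : κ ∈ K := by simpa using hκ
    rw [Algebra.linearMap_apply] at hsum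
    have hc : algebraMap 𝒪 A c ∈ maximalIdeal A := by
      have : algebraMap 𝒪 A c = y0 - κ := by rw [← hsum]; ring
      rw [this]
      exact Ideal.sub_mem _ hy0 (hKm hκ')
    have hc' : c ∈ maximalIdeal 𝒪 := by
      by_contra hcon
      rw [mem_maximalIdeal, mem_nonunits_iff, not_not] at hcon
      exact hc (hcon.map (algebraMap 𝒪 A))
    have : algebraMap 𝒪 A c ∈ K := hK (Ideal.mem_map_of_mem _ hc')
    exact hy0K (hsum ▸ Ideal.add_mem _ hκ' this)
  have hM : Module.IsTorsionBySet 𝒪 (A ⧸ W) (maximalIdeal 𝒪 : Set 𝒪) := by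
    rintro q ⟨a, ha⟩
    obtain ⟨x, rfl⟩ := Submodule.Quotient.mk_surjective W q
    rw [← Submodule.Quotient.mk_smul, Submodule.Quotient.mk_eq_zero]
    refine hKW _ (hK ?_)
    rw [Algebra.smul_def]
    exact Ideal.mul_mem_right _ _ (Ideal.mem_map_of_mem _ ha)
  let _ : Module (ResidueField 𝒪) (A ⧸ W) := hM.module
  have hsmul : ∀ (c : 𝒪) (q : A ⧸ W), (residue 𝒪 c) • q = c • q := fun c q => rfl
  have hv : W.mkQ y0 ≠ 0 := by
    rw [Submodule.mkQ_apply, Ne, Submodule.Quotient.mk_eq_zero]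
    exact hW
  obtain ⟨φ, hφ⟩ : ∃ φ : Module.Dual (ResidueField 𝒪) (A ⧸ W), φ (W.mkQ y0) ≠ 0 := by
    by_contra hcon
    push Not at hcon
    exact hv ((Module.forall_dual_apply_eq_zero_iff (ResidueField 𝒪) _).mp hcon)
  refine ⟨{ toFun := fun x => φ (W.mkQ x)
            map_add' := fun x y => by rw [map_add, map_add]
            map_smul' := fun c x => by
              rw [map_smul, ← hsmul, map_smul, RingHom.id_apply, smul_eq_mul, Algebra.smul_def,
                ResidueField.algebraMap_eq] }, ?_, ?_, hφ⟩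
  · intro c
    have : W.mkQ (algebraMap 𝒪 A c) = 0 := by
      rw [Submodule.mkQ_apply, Submodule.Quotient.mk_eq_zero]
      exact (le_sup_right : LinearMap.range (Algebra.linearMap 𝒪 A) ≤ W) ⟨c, rfl⟩
    show φ (W.mkQ (algebraMap 𝒪 A c)) = 0
    rw [this, map_zero]
  · intro x hx
    have : W.mkQ x = 0 := by
      rw [Submodule.mkQ_apply, Submodule.Quotient.mk_eq_zero]
      exact hKW x hx
    show φ (W.mkQ x) = 0
    rw [this, map_zero]

end Tangent3


section Tangent4

variable {𝒪 : Type*} [CommRing 𝒪] [IsLocalRing 𝒪]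
  {A : Type*} [CommRing A] [IsLocalRing A] [Algebra 𝒪 A] [IsLocalHom (algebraMap 𝒪 A)]

attribute [local instance] dualNumberAlgebra

omit [IsLocalRing 𝒪] in
theorem map_maximalIdeal_le_maximalIdeal [IsLocalRing 𝒪] :
    (maximalIdeal 𝒪).map (algebraMap 𝒪 A) ≤ maximalIdeal A := by
  rw [Ideal.map_le_iff_le_comap]
  intro c hc
  exact map_nonunit (algebraMap 𝒪 A) c hc

/-- Tangent lemma, ideal form: if `I ⊔ 𝔪_A ^ 2 ⊔ 𝔪_𝒪 A ≠ 𝔪_A` there is an `𝒪`-algebra hom
`A → k[ε]` killing `I` which does not factor through the residue field. -/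
theorem exists_algHom_dualNumber' (hres : Function.Surjective (residue A ∘ algebraMap 𝒪 A))
    (I : Ideal A) (hI : I ≤ maximalIdeal A)
    (hne : I ⊔ maximalIdeal A ^ 2 ⊔ (maximalIdeal 𝒪).map (algebraMap 𝒪 A) ≠ maximalIdeal A) :
    ∃ f : A →ₐ[𝒪] DualNumber (ResidueField 𝒪),
      (∀ x ∈ I, f x = 0) ∧ ∃ x ∈ maximalIdeal A, f x ≠ 0 := by
  set K := I ⊔ maximalIdeal A ^ 2 ⊔ (maximalIdeal 𝒪).map (algebraMap 𝒪 A) with hK
  have hKm : K ≤ maximalIdeal A :=
    sup_le (sup_le hI (Ideal.pow_le_self two_ne_zero)) map_maximalIdeal_le_maximalIdeal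
  obtain ⟨y0, hy0, hy0K⟩ := SetLike.exists_of_lt (lt_of_le_of_ne hKm hne)
  obtain ⟨l, hl1, hl2, hl3⟩ := exists_linearMap_tangent K le_sup_right hy0 hy0K
  have hl4 : ∀ y ∈ maximalIdeal A, ∀ y' ∈ maximalIdeal A, l (y * y') = 0 := by
    intro y hy y' hy'
    apply hl2
    refine (le_sup_left : I ⊔ maximalIdeal A ^ 2 ≤ K) (le_sup_right (a := I) ?_)
    rw [pow_two]
    exact Ideal.mul_mem_mul hy hy'
  refine ⟨tangentHom hres l hl1 hl4, fun x hx => ?_, y0, hy0, fun h => hl3 ?_⟩
  · rw [tangentHom_apply, (resHom_eq_zero_iff hres x).mpr (hI hx),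
      hl2 x ((le_sup_left : I ⊔ maximalIdeal A ^ 2 ≤ K) (le_sup_left (a := I) hx))]
    simp
  · rw [← tangentHom_snd hres l hl1 hl4, h]
    rfl

/-- Tangent lemma, subalgebra form: a proper `𝒪`-subalgebra `B` of a local `𝒪`-algebra `A` with
nilpotent maximal ideal (and residue field `k`) is not dense for maps to `k[ε]`: there are two
distinct `𝒪`-algebra homs `A → k[ε]` agreeing on `B`. -/
theorem exists_algHom_dualNumber_ne' (hres : Function.Surjective (residue A ∘ algebraMap 𝒪 A))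
    {n : ℕ} (hn : maximalIdeal A ^ n = ⊥) (B : Subalgebra 𝒪 A) (hB : B ≠ ⊤) :
    ∃ f f' : A →ₐ[𝒪] DualNumber (ResidueField 𝒪), f ≠ f' ∧ ∀ b ∈ B, f b = f' b := by
  set S : Set A := (B : Set A) ∩ (maximalIdeal A : Set A) with hS
  have hSm : Ideal.span S ≤ maximalIdeal A := by
    rw [Ideal.span_le]
    exact Set.inter_subset_right
  have hmapS : (maximalIdeal 𝒪).map (algebraMap 𝒪 A) ≤ Ideal.span S := by
    rw [Ideal.map_le_iff_le_comap]
    intro c hc
    exact Ideal.subset_span ⟨B.algebraMap_mem c, map_nonunit (algebraMap 𝒪 A) c hc⟩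
  set K := Ideal.span S ⊔ maximalIdeal A ^ 2 with hK
  have hKm : K ≤ maximalIdeal A := sup_le hSm (Ideal.pow_le_self two_ne_zero)
  have hne : K ≠ maximalIdeal A := by
    intro hKeq
    have hSeq : Ideal.span S = maximalIdeal A := ideal_eq_of_sup_sq_eq _ _ hKeq hn
    apply hB
    -- the inclusion `B → A` is surjective
    set f : B →+* A := (B.val : B →+* A) with hf
    set J : Ideal B := Ideal.comap f (maximalIdeal A) with hJ
    have hJmap : J.map f = maximalIdeal A := by
      refine le_antisymm (Ideal.map_comap_le) ?_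
      rw [← hSeq, Ideal.span_le]
      rintro x ⟨hxB, hxm⟩
      exact Ideal.mem_map_of_mem f (show (⟨x, hxB⟩ : B) ∈ J from hxm)
    have hsurj : Function.Surjective f := by
      refine ringHom_surjective_of_nilpotent f J (n := n) (by rw [hJmap, hn]) fun x => ?_
      obtain ⟨c, hc⟩ := exists_sub_algebraMap_mem hres x
      exact ⟨algebraMap 𝒪 B c, by rw [hJmap]; exact hc⟩
    rw [eq_top_iff]
    intro x _
    obtain ⟨b, rfl⟩ := hsurj x
    exact b.2
  obtain ⟨y0, hy0, hy0K⟩ := SetLike.exists_of_lt (lt_of_le_of_ne hKm hne)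
  obtain ⟨l, hl1, hl2, hl3⟩ :=
    exists_linearMap_tangent K (hmapS.trans le_sup_left) hy0 hy0K
  have hl4 : ∀ y ∈ maximalIdeal A, ∀ y' ∈ maximalIdeal A, l (y * y') = 0 := by
    intro y hy y' hy'
    apply hl2
    refine (le_sup_right : maximalIdeal A ^ 2 ≤ K) ?_
    rw [pow_two]
    exact Ideal.mul_mem_mul hy hy'
  refine ⟨tangentHom hres l hl1 hl4, tangentHom hres 0 (by simp) (by simp), fun h => hl3 ?_,
    fun b hb => ?_⟩
  · have := congrArg (fun φ : A →ₐ[𝒪] DualNumber (ResidueField 𝒪) => (φ y0).snd) h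
    simpa [tangentHom_snd] using this
  · obtain ⟨c, hc⟩ := exists_sub_algebraMap_mem hres b
    have hlb : l b = 0 := by
      have hmem : b - algebraMap 𝒪 A c ∈ K :=
        (le_sup_left : Ideal.span S ≤ K)
          (Ideal.subset_span ⟨B.sub_mem hb (B.algebraMap_mem c), hc⟩)
      have : b = algebraMap 𝒪 A c + (b - algebraMap 𝒪 A c) := by ring
      rw [this, map_add, hl1, hl2 _ hmem, add_zero]
    rw [tangentHom_apply, tangentHom_apply, hlb]
    simp

end Tangent4


section Final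

variable (𝒪 : Type) [CommRing 𝒪] [IsLocalRing 𝒪]

theorem dualNumber_moduleFinite (k : Type*) [Field k] : Module.Finite k (DualNumber k) :=
  (inferInstance : Module.Finite k (k × k))

theorem dualNumber_isArtinianRing (k : Type*) [Field k] : IsArtinianRing (DualNumber k) := by
  have := dualNumber_moduleFinite k
  exact IsArtinianRing.of_finite k (DualNumber k)

/-- `k[ε]` (with the `𝒪`-algebra structure of `GaloisRep.TangentFinite`) is an Artinian test
algebra. -/
theorem dualNumber_isArtinianTestAlgebra :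
    letI : Algebra 𝒪 (DualNumber (ResidueField 𝒪)) :=
      ((algebraMap (ResidueField 𝒪) (DualNumber (ResidueField 𝒪))).comp
        (algebraMap 𝒪 (ResidueField 𝒪))).toAlgebra
    GaloisRep.IsArtinianTestAlgebra 𝒪 (DualNumber (ResidueField 𝒪)) := by
  let _ : Algebra 𝒪 (DualNumber (ResidueField 𝒪)) := dualNumberAlgebra 𝒪
  refine ⟨⟨fun c hc => ?_⟩, fun y => ?_, dualNumber_isArtinianRing _⟩
  · rw [dualNumber_algebraMap_apply, TrivSqZeroExt.isUnit_iff_isUnit_fst,
      TrivSqZeroExt.fst_inl] at hc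
    exact isUnit_of_map_unit (residue 𝒪) c hc
  · obtain ⟨x, rfl⟩ := residue_surjective y
    obtain ⟨c, hc⟩ := residue_surjective x.fst
    refine ⟨c, ?_⟩
    rw [Function.comp_apply, dualNumber_algebraMap_apply, hc]
    symm
    rw [← sub_eq_zero, ← map_sub, residue_eq_zero_iff, mem_maximalIdeal, mem_nonunits_iff,
      TrivSqZeroExt.isUnit_iff_isUnit_fst]
    simp

/-- Tangent lemma in the form used by the S53 core (`hEtan`): a proper `𝒪`-subalgebra of an
Artinian test algebra `A` is not dense for maps `A → k[ε]`. -/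
theorem exists_algHom_dualNumber_ne {A : Type} [CommRing A] [IsLocalRing A] [Algebra 𝒪 A]
    (hA : GaloisRep.IsArtinianTestAlgebra 𝒪 A) (B : Subalgebra 𝒪 A) (hB : B ≠ ⊤) :
    letI : Algebra 𝒪 (DualNumber (ResidueField 𝒪)) :=
      ((algebraMap (ResidueField 𝒪) (DualNumber (ResidueField 𝒪))).comp
        (algebraMap 𝒪 (ResidueField 𝒪))).toAlgebra
    ∃ f f' : A →ₐ[𝒪] DualNumber (ResidueField 𝒪), f ≠ f' ∧ ∀ b ∈ B, f b = f' b := by
  have := hA.isLocalHom
  have := hA.isArtinian
  obtain ⟨n, hn⟩ := exists_maximalIdeal_pow_eq_bot (A := A)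
  exact exists_algHom_dualNumber_ne' hA.residue_surjective hn B hB

/-- Tangent lemma, ideal form, with the instances of `GaloisRep.TangentFinite`. -/
theorem exists_algHom_dualNumber {A : Type} [CommRing A] [IsLocalRing A] [Algebra 𝒪 A]
    [IsLocalHom (algebraMap 𝒪 A)] (hres : Function.Surjective (residue A ∘ algebraMap 𝒪 A))
    (I : Ideal A) (hI : I ≤ maximalIdeal A)
    (hne : I ⊔ maximalIdeal A ^ 2 ⊔ (maximalIdeal 𝒪).map (algebraMap 𝒪 A) ≠ maximalIdeal A) :
    letI : Algebra 𝒪 (DualNumber (ResidueField 𝒪)) :=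
      ((algebraMap (ResidueField 𝒪) (DualNumber (ResidueField 𝒪))).comp
        (algebraMap 𝒪 (ResidueField 𝒪))).toAlgebra
    ∃ f : A →ₐ[𝒪] DualNumber (ResidueField 𝒪),
      (∀ x ∈ I, f x = 0) ∧ ∃ x ∈ maximalIdeal A, f x ≠ 0 :=
  exists_algHom_dualNumber' hres I hI hne

end Final

end Fermat.Agent.S53.PS
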