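import Mathlib

/-!
# A Mittag-Leffler lemma for towers of ideals in an adically complete ring (for S53)
-/

set_option autoImplicit false

namespace Fermat.Agent.S53.ML

variable {P : Type*} [CommRing P] (𝔐 : Ideal P) (b : ℕ → Ideal P)

/-- The hypotheses on the tower of ideals. -/
structure IsTower : Prop where
  pow_le : ∀ n, 𝔐 ^ n ≤ b n
  anti : Antitone b
  le_sup : ∀ n m, n ≤ m → b n ≤ b m ⊔ 𝔐 ^ n

variable {𝔐 b}

theorem IsTower.exists_seq (h : IsTower 𝔐 b) (n : ℕ) {x : P} (hx : x ∈ b n) :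
    ∃ g : ℕ → P, g 0 = x ∧ (∀ j, g j ∈ b (n + j)) ∧ ∀ j, g j - g (j + 1) ∈ 𝔐 ^ (n + j) := by
  have step : ∀ j (y : {y : P // y ∈ b (n + j)}),
      ∃ y' : {y : P // y ∈ b (n + (j + 1))}, (y : P) - y' ∈ 𝔐 ^ (n + j) := by
    intro j y
    have := h.le_sup (n + j) (n + (j + 1)) (by omega) y.2
    obtain ⟨u, hu, v, hv, huv⟩ := Submodule.mem_sup.mp this
    exact ⟨⟨u, hu⟩, by rw [← huv]; simpa using hv⟩
  choose nxt hnxt using step
  let G : ∀ j, {y : P // y ∈ b (n + j)} := fun j =>
    Nat.rec (motive := fun j => {y : P // y ∈ b (n + j)}) ⟨x, by simpa using hx⟩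
      (fun j y => nxt j y) j
  refine ⟨fun j => (G j).1, ?_, ?_, ?_⟩
  · rfl
  · intro j
    exact (G j).2
  · intro j
    exact hnxt j (G j)

theorem IsTower.eq_iInf_sup [IsPrecomplete 𝔐 P] (h : IsTower 𝔐 b) (n : ℕ) :
    b n = (⨅ m, b m) ⊔ 𝔐 ^ n := by
  apply le_antisymm
  · intro x hx
    obtain ⟨g, hg0, hgb, hgd⟩ := h.exists_seq n hx
    -- differences `g j - g j'` lie in `𝔐 ^ (n + j)` for `j ≤ j'`
    have hdiff : ∀ j d, g j - g (j + d) ∈ 𝔐 ^ (n + j) := by
      intro j d
      induction d with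
      | zero => simp
      | succ d ih =>
        have h1 : g (j + d) - g (j + d + 1) ∈ 𝔐 ^ (n + j) :=
          Ideal.pow_le_pow_right (by omega) (hgd (j + d))
        have : g j - g (j + (d + 1)) = (g j - g (j + d)) + (g (j + d) - g (j + d + 1)) := by
          rw [← add_assoc]; ring
        rw [this]
        exact Ideal.add_mem _ ih h1
    obtain ⟨L, hL⟩ := IsPrecomplete.prec' (I := 𝔐) (M := P) g (by
      intro i j hij
      rw [SModEq.sub_mem, smul_eq_mul, Ideal.mul_top]
      obtain ⟨d, rfl⟩ := Nat.exists_eq_add_of_le hij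
      exact Ideal.pow_le_pow_right (by omega) (hdiff i d))
    have hL' : ∀ j, g j - L ∈ 𝔐 ^ (n + j) := by
      intro j
      have h1 := hL (n + j)
      rw [SModEq.sub_mem, smul_eq_mul, Ideal.mul_top] at h1
      have h2 := hdiff j n
      have : g j - L = (g j - g (j + n)) + (g (j + n) - L) := by ring
      rw [this]
      refine Ideal.add_mem _ h2 ?_
      rwa [add_comm j n]
    have hLb : L ∈ ⨅ m, b m := by
      rw [Ideal.mem_iInf]
      intro m
      have h1 : L ∈ b (n + m) := by
        have : L = g m - (g m - L) := by ring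
        rw [this]
        exact Ideal.sub_mem _ (hgb m) (h.pow_le _ (hL' m))
      exact h.anti (by omega) h1
    have : x = L + (x - L) := by ring
    rw [this]
    refine Submodule.add_mem_sup hLb ?_
    have := hL' 0
    rwa [hg0, add_zero] at this
  · exact sup_le (iInf_le _ n) (h.pow_le n)

/-- Compatible families of elements of `P ⧸ b n` come from a unique element of `P ⧸ ⨅ b`. -/
theorem IsTower.exists_lift [IsPrecomplete 𝔐 P] (h : IsTower 𝔐 b)
    (p : ℕ → P) (hp : ∀ n, p (n + 1) - p n ∈ b n) :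
    ∃ q : P, ∀ n, q - p n ∈ b n := by
  -- decompose the differences
  have hdec : ∀ n, ∃ c ∈ (⨅ m, b m), ∃ z ∈ 𝔐 ^ n, c + z = p (n + 1) - p n := by
    intro n
    have := hp n
    rw [h.eq_iInf_sup n] at this
    exact Submodule.mem_sup.mp this
  choose c hc z hz hcz using hdec
  -- corrected sequence
  let q : ℕ → P := fun n => p n - ∑ i ∈ Finset.range n, c i
  have hq : ∀ n, q (n + 1) - q n = z n := by
    intro n
    simp only [q, Finset.sum_range_succ]
    have := hcz n
    linear_combination (-1 : P) * this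
  have hqd : ∀ j d, q j - q (j + d) ∈ 𝔐 ^ j := by
    intro j d
    induction d with
    | zero => simp
    | succ d ih =>
      have h1 : q (j + d + 1) - q (j + d) ∈ 𝔐 ^ j := by
        rw [hq]; exact Ideal.pow_le_pow_right (by omega) (hz (j + d))
      have : q j - q (j + (d + 1)) = (q j - q (j + d)) - (q (j + d + 1) - q (j + d)) := by
        rw [← add_assoc]; ring
      rw [this]
      exact Ideal.sub_mem _ ih h1
  obtain ⟨L, hL⟩ := IsPrecomplete.prec' (I := 𝔐) (M := P) q (by
    intro i j hij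
    rw [SModEq.sub_mem, smul_eq_mul, Ideal.mul_top]
    obtain ⟨d, rfl⟩ := Nat.exists_eq_add_of_le hij
    exact hqd i d)
  refine ⟨L, fun n => ?_⟩
  have h1 := hL n
  rw [SModEq.sub_mem, smul_eq_mul, Ideal.mul_top] at h1
  have h2 : q n - p n ∈ b n := by
    simp only [q]
    have : p n - ∑ i ∈ Finset.range n, c i - p n = - ∑ i ∈ Finset.range n, c i := by ring
    rw [this]
    refine Ideal.neg_mem_iff _ |>.mpr (Ideal.sum_mem _ fun i _ => ?_)
    exact (iInf_le b n) (hc i)
  have : L - p n = -(q n - L) + (q n - p n) := by ring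
  rw [this]
  exact Ideal.add_mem _ (Ideal.neg_mem_iff _ |>.mpr (h.pow_le n h1)) h2

end Fermat.Agent.S53.ML
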