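import Mathlib
import Fermat.Agent.S53.Defs
import Fermat.Agent.S53.PowerSeries
import Fermat.Agent.S53.PSEval
import Fermat.Agent.S53.MittagLeffler

/-!
# S53 core, part 1: data, closure hypotheses, the maps `ψ`
-/

set_option autoImplicit false

namespace Fermat.Agent.S53

open IsLocalRing GaloisRep

/-- Push a matrix representation forward along an algebra hom. -/
noncomputable def mapM {𝒪 A B : Type} [CommRing 𝒪] [CommRing A] [CommRing B] [Algebra 𝒪 A] [Algebra 𝒪 B]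
    (φ : A →ₐ[𝒪] B) (r : Gal →* M2 A) : Gal →* M2 B :=
  ((φ.mapMatrix : M2 A →ₐ[𝒪] M2 B) : M2 A →* M2 B).comp r

@[simp] theorem mapM_apply {𝒪 A B : Type} [CommRing 𝒪] [CommRing A] [CommRing B] [Algebra 𝒪 A]
    [Algebra 𝒪 B] (φ : A →ₐ[𝒪] B) (r : Gal →* M2 A) (σ : Gal) (i j : Fin 2) :
    mapM φ r σ i j = φ (r σ i j) := rfl

theorem mapM_comp {𝒪 A B C : Type} [CommRing 𝒪] [CommRing A] [CommRing B] [CommRing C]
    [Algebra 𝒪 A] [Algebra 𝒪 B] [Algebra 𝒪 C] (φ : A →ₐ[𝒪] B) (χ : B →ₐ[𝒪] C)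
    (r : Gal →* M2 A) : mapM χ (mapM φ r) = mapM (χ.comp φ) r := by
  ext σ i j; rfl

theorem mapM_id {𝒪 A : Type} [CommRing 𝒪] [CommRing A] [Algebra 𝒪 A] (r : Gal →* M2 A) :
    mapM (AlgHom.id 𝒪 A) r = r := by
  ext σ i j; rfl

section Datum

variable (𝒪 : Type) [CommRing 𝒪] [IsLocalRing 𝒪]
variable (rbar : Gal →* M2 (ResidueField 𝒪)) (sl : Slice 𝒪)
variable (𝒟 : ∀ ⦃A : Type⦄ [CommRing A] [IsLocalRing A] [Algebra 𝒪 A], GaloisRepAdic A → Prop)

/-- A strict normal `𝒟`-lift over an Artinian test algebra. -/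
structure IsDatum {A : Type} [CommRing A] [IsLocalRing A] [Algebra 𝒪 A] (r : Gal →* M2 A) :
    Prop where
  test : IsArtinianTestAlgebra 𝒪 A
  cont : MatCont r
  strict : IsStrictLift 𝒪 rbar r
  normal : IsNormal sl r
  isOfType : 𝒟 (ofMatrix r cont)

/-- The closure properties of data which the core construction uses. -/
structure DatumClosure : Prop where
  /-- base change along an algebra hom to a test algebra -/
  baseChange : ∀ {A B : Type} [CommRing A] [IsLocalRing A] [Algebra 𝒪 A] [CommRing B]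
    [IsLocalRing B] [Algebra 𝒪 B] (r : Gal →* M2 A) (φ : A →ₐ[𝒪] B),
    IsArtinianTestAlgebra 𝒪 B → IsDatum 𝒪 rbar sl 𝒟 r → IsDatum 𝒪 rbar sl 𝒟 (mapM φ r)
  /-- descent along an injective algebra hom from a test algebra -/
  restrict : ∀ {A B : Type} [CommRing A] [IsLocalRing A] [Algebra 𝒪 A] [CommRing B]
    [IsLocalRing B] [Algebra 𝒪 B] (r : Gal →* M2 A) (φ : A →ₐ[𝒪] B),
    Function.Injective φ → IsArtinianTestAlgebra 𝒪 A → IsDatum 𝒪 rbar sl 𝒟 (mapM φ r) →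
    IsDatum 𝒪 rbar sl 𝒟 r
  /-- gluing of two data (fibre product over the residue field) -/
  glue : ∀ {A B : Type} [CommRing A] [IsLocalRing A] [Algebra 𝒪 A] [CommRing B]
    [IsLocalRing B] [Algebra 𝒪 B] (r : Gal →* M2 A) (r' : Gal →* M2 B),
    IsDatum 𝒪 rbar sl 𝒟 r → IsDatum 𝒪 rbar sl 𝒟 r' →
    ∃ (C : Type) (_ : CommRing C) (_ : IsLocalRing C) (_ : Algebra 𝒪 C) (rC : Gal →* M2 C)
      (pA : C →ₐ[𝒪] A) (pB : C →ₐ[𝒪] B),
      IsDatum 𝒪 rbar sl 𝒟 rC ∧ mapM pA rC = r ∧ mapM pB rC = r' ∧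
        Function.Injective (fun x => (pA x, pB x))
  /-- subalgebras of test algebras are test algebras -/
  subalgebra : ∀ {A : Type} [CommRing A] [IsLocalRing A] [Algebra 𝒪 A],
    IsArtinianTestAlgebra 𝒪 A → ∀ A₀ : Subalgebra 𝒪 A,
      ∃ _ : IsLocalRing A₀, IsArtinianTestAlgebra 𝒪 A₀
  /-- the trivial datum over the residue field -/
  trivial : IsDatum 𝒪 rbar sl 𝒟 rbar

end Datum

end Fermat.Agent.S53
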