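import Mathlib
import Fermat.Prelude.Def_GaloisRep_Adic

set_option autoImplicit false
set_option linter.unusedSectionVars false

open scoped TensorProduct

namespace Fermat.Agent.S53.L6

section Tensor

variable {A B C M : Type*} [CommRing A] [CommRing B] [CommRing C] [Algebra A B] [Algebra B C]
  [Algebra A C] [IsScalarTower A B C] [AddCommGroup M] [Module A M]

theorem cancelBaseChange_baseChange (φ : M →ₗ[A] M) (x : C ⊗[B] (B ⊗[A] M)) :
    TensorProduct.AlgebraTensorModule.cancelBaseChange A B C C M
        (((φ.baseChange B).baseChange C) x) =
      (φ.baseChange C) (TensorProduct.AlgebraTensorModule.cancelBaseChange A B C C M x) := by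
  induction x using TensorProduct.induction_on with
  | zero => simp only [map_zero]
  | tmul c y =>
    induction y using TensorProduct.induction_on with
    | zero => simp only [TensorProduct.tmul_zero, map_zero]
    | tmul b v =>
      simp only [LinearMap.baseChange_tmul,
        TensorProduct.AlgebraTensorModule.cancelBaseChange_tmul]
    | add y z hy hz =>
      simp only [TensorProduct.tmul_add, map_add, hy, hz]
  | add x y hx hy => simp only [map_add, hx, hy]

end Tensor

variable {A B C : Type} [CommRing A] [IsLocalRing A] [CommRing B] [IsLocalRing B]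
  [CommRing C] [IsLocalRing C]

theorem isLocalHom_comp (f : A →+* B) (hf : IsLocalHom f) (g : B →+* C) (hg : IsLocalHom g) :
    IsLocalHom (g.comp f) :=
  ⟨fun a ha => hf.map_nonunit a (hg.map_nonunit (f a) ha)⟩

/-- Base change along a composite is equivalent to iterated base change. -/
noncomputable def baseChangeAlongComp (f : A →+* B) (hf : IsLocalHom f) (g : B →+* C)
    (hg : IsLocalHom g) (ρ : GaloisRepAdic A) :
    GaloisRepAdic.Equiv ((ρ.baseChangeAlong f hf).baseChangeAlong g hg)
      (ρ.baseChangeAlong (g.comp f) (isLocalHom_comp f hf g hg)) :=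
  letI : Algebra A B := f.toAlgebra
  letI : Algebra B C := g.toAlgebra
  letI : Algebra A C := (g.comp f).toAlgebra
  haveI : IsScalarTower A B C := IsScalarTower.of_algebraMap_eq (fun _ => rfl)
  { toLinearEquiv := TensorProduct.AlgebraTensorModule.cancelBaseChange A B C C ρ.V
    map_apply := fun σ x => cancelBaseChange_baseChange (ρ.ρ σ) x }

/-- Base change along a ring hom equal to another one. -/
noncomputable def baseChangeAlongCongr {f g : A →+* B} (h : f = g) (hf : IsLocalHom f)
    (ρ : GaloisRepAdic A) :
    GaloisRepAdic.Equiv (ρ.baseChangeAlong f hf) (ρ.baseChangeAlong g (h ▸ hf)) := by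
  subst h
  exact GaloisRepAdic.Equiv.refl _

end Fermat.Agent.S53.L6
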