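import Mathlib
import Fermat.Prelude.Def_GaloisRep_Adic
import Fermat.Prelude.Def_GaloisRep_DeformationCondition
import Fermat.Agent.S53.L6_helper7_BaseChange

set_option autoImplicit false
set_option linter.unusedSectionVars false

open scoped TensorProduct
open IsLocalRing

namespace Fermat.Agent.S53.L6

section Quot

variable (A : Type) [CommRing A] [IsLocalRing A]

/-- The `n`-th Artinian quotient `A / m^(n+1)`. -/
abbrev QP (n : ℕ) : Type := A ⧸ (maximalIdeal A ^ (n + 1))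

theorem maximalIdeal_pow_succ_ne_top (n : ℕ) : maximalIdeal A ^ (n + 1) ≠ ⊤ := by
  intro h
  have h1 : maximalIdeal A ^ (n + 1) ≤ maximalIdeal A := Ideal.pow_le_self (Nat.succ_ne_zero n)
  rw [h] at h1
  exact (maximalIdeal.isMaximal A).ne_top (top_le_iff.1 h1)

instance instNontrivialQP (n : ℕ) : Nontrivial (QP A n) :=
  Ideal.Quotient.nontrivial_iff.2 (maximalIdeal_pow_succ_ne_top A n)

instance instIsLocalRingQP (n : ℕ) : IsLocalRing (QP A n) :=
  IsLocalRing.of_surjective' (Ideal.Quotient.mk _) Ideal.Quotient.mk_surjective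

/-- the quotient map -/
abbrev qp (n : ℕ) : A →+* QP A n := Ideal.Quotient.mk _

theorem qp_surjective (n : ℕ) : Function.Surjective (qp A n) := Ideal.Quotient.mk_surjective

theorem qp_isLocalHom (n : ℕ) : IsLocalHom (qp A n) :=
  IsLocalHom.of_surjective _ (qp_surjective A n)

theorem maximalIdeal_QP (n : ℕ) : maximalIdeal (QP A n) = (maximalIdeal A).map (qp A n) :=
  (IsLocalRing.map_maximalIdeal_of_surjective (qp A n) (qp_surjective A n)).symm

theorem maximalIdeal_QP_pow (n : ℕ) : maximalIdeal (QP A n) ^ (n + 1) = ⊥ := by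
  rw [maximalIdeal_QP, ← Ideal.map_pow, Ideal.map_eq_bot_iff_le_ker, Ideal.mk_ker]

instance instIsArtinianRingQP [IsNoetherianRing A] (n : ℕ) : IsArtinianRing (QP A n) := by
  rw [isArtinianRing_iff_isNilpotent_maximalIdeal]
  exact ⟨n + 1, maximalIdeal_QP_pow A n⟩

end Quot

section TestAlgebra

variable (𝒪 : Type) [CommRing 𝒪] [IsLocalRing 𝒪]
variable (A : Type) [CommRing A] [IsLocalRing A] [Algebra 𝒪 A]

/-- the quotient map as an algebra hom -/
abbrev qpₐ (n : ℕ) : A →ₐ[𝒪] QP A n := Ideal.Quotient.mkₐ 𝒪 _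

theorem qpₐ_isLocalHom (n : ℕ) : IsLocalHom ((qpₐ 𝒪 A n : A →ₐ[𝒪] QP A n) : A →+* QP A n) :=
  qp_isLocalHom A n

theorem qpₐ_surjective (n : ℕ) : Function.Surjective (qpₐ 𝒪 A n) := Ideal.Quotient.mk_surjective

theorem isArtinianTestAlgebra_QP [IsNoetherianRing A] (hloc : IsLocalHom (algebraMap 𝒪 A))
    (hres : Function.Surjective (IsLocalRing.residue A ∘ algebraMap 𝒪 A)) (n : ℕ) :
    GaloisRep.IsArtinianTestAlgebra 𝒪 (QP A n) where
  isLocalHom := by
    have : algebraMap 𝒪 (QP A n) = (qp A n).comp (algebraMap 𝒪 A) := rfl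
    rw [this]
    exact isLocalHom_comp _ hloc _ (qp_isLocalHom A n)
  residue_surjective := by
    intro y
    obtain ⟨y', rfl⟩ := IsLocalRing.residue_surjective y
    obtain ⟨a, rfl⟩ := qp_surjective A n y'
    obtain ⟨o, ho⟩ := hres (IsLocalRing.residue A a)
    refine ⟨o, ?_⟩
    simp only [Function.comp_apply] at ho ⊢
    have h1 : algebraMap 𝒪 A o - a ∈ maximalIdeal A := by
      rw [← IsLocalRing.residue_eq_zero_iff, map_sub, ho, sub_self]
    have h2 : qp A n (algebraMap 𝒪 A o - a) ∈ maximalIdeal (QP A n) := by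
      rw [maximalIdeal_QP]
      exact Ideal.mem_map_of_mem _ h1
    have h3 : algebraMap 𝒪 (QP A n) o - qp A n a ∈ maximalIdeal (QP A n) := by
      have : algebraMap 𝒪 (QP A n) o = qp A n (algebraMap 𝒪 A o) := rfl
      rw [this, ← map_sub]; exact h2
    rw [← sub_eq_zero, ← map_sub, IsLocalRing.residue_eq_zero_iff]
    exact h3
  isArtinian := inferInstance

/-- Every local algebra hom to an Artinian local algebra factors through some `A / m^(n+1)`. -/
theorem exists_factor_through_QP {B : Type} [CommRing B] [IsLocalRing B] [Algebra 𝒪 B]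
    [IsArtinianRing B] (q : A →ₐ[𝒪] B) (hq : IsLocalHom (q : A →+* B)) :
    ∃ (n : ℕ) (q' : QP A n →ₐ[𝒪] B), q'.comp (qpₐ 𝒪 A n) = q ∧
      IsLocalHom (q' : QP A n →+* B) := by
  obtain ⟨m, hm⟩ := IsArtinianRing.isNilpotent_jacobson_bot (R := B)
  rw [IsLocalRing.jacobson_eq_maximalIdeal _ bot_ne_top, Ideal.zero_eq_bot] at hm
  have hmem : ∀ a ∈ maximalIdeal A, q a ∈ maximalIdeal B := by
    intro a ha
    rw [mem_maximalIdeal, mem_nonunits_iff] at ha ⊢
    exact fun hu => ha (hq.map_nonunit a hu)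
  have hker : ∀ a ∈ maximalIdeal A ^ (m + 1), q a = 0 := by
    intro a ha
    have h1 : a ∈ maximalIdeal A ^ m := Ideal.pow_le_pow_right (Nat.le_succ m) ha
    have h2 : (q : A →+* B) a ∈ (maximalIdeal A ^ m).map (q : A →+* B) :=
      Ideal.mem_map_of_mem _ h1
    rw [Ideal.map_pow] at h2
    have h3 : (maximalIdeal A).map (q : A →+* B) ≤ maximalIdeal B :=
      Ideal.map_le_iff_le_comap.2 fun a ha => hmem a ha
    have h4 := Ideal.pow_right_mono h3 m h2
    rw [hm] at h4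
    exact h4
  refine ⟨m, Ideal.Quotient.liftₐ _ q hker, ?_, ?_⟩
  · ext a
    rfl
  · refine ⟨fun x hx => ?_⟩
    obtain ⟨a, rfl⟩ := qp_surjective A m x
    have : IsUnit (q a) := hx
    exact (hq.map_nonunit a this).map (qp A m)

end TestAlgebra

section Condition

variable {𝒪 : Type} [CommRing 𝒪] [IsLocalRing 𝒪]
  {𝒟 : ∀ ⦃A : Type⦄ [CommRing A] [IsLocalRing A] [Algebra 𝒪 A], GaloisRepAdic A → Prop}
  (h𝒟 : GaloisRep.IsDeformationCondition 𝒪 𝒟)
  {A : Type} [CommRing A] [IsLocalRing A] [IsNoetherianRing A]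
  [IsAdicComplete (maximalIdeal A) A] [Algebra 𝒪 A]

include h𝒟

/-- (B): the condition passes to the Artinian quotients. -/
theorem cond_QP (hloc : IsLocalHom (algebraMap 𝒪 A))
    (hres : Function.Surjective (IsLocalRing.residue A ∘ algebraMap 𝒪 A))
    (ρ : GaloisRepAdic A) (hρ : 𝒟 ρ) (n : ℕ) :
    𝒟 (ρ.baseChangeAlong ((qpₐ 𝒪 A n : A →ₐ[𝒪] QP A n) : A →+* QP A n)
      (qpₐ_isLocalHom 𝒪 A n)) :=
  (h𝒟.iff_forall_surjective hloc hres ρ).1 hρ (isArtinianTestAlgebra_QP 𝒪 A hloc hres n)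
    (qpₐ 𝒪 A n) (qpₐ_isLocalHom 𝒪 A n) (qpₐ_surjective 𝒪 A n)

/-- (C): the condition can be checked on the Artinian quotients. -/
theorem cond_of_forall_QP (hloc : IsLocalHom (algebraMap 𝒪 A))
    (hres : Function.Surjective (IsLocalRing.residue A ∘ algebraMap 𝒪 A))
    (ρ : GaloisRepAdic A)
    (hρ : ∀ n : ℕ, 𝒟 (ρ.baseChangeAlong ((qpₐ 𝒪 A n : A →ₐ[𝒪] QP A n) : A →+* QP A n)
      (qpₐ_isLocalHom 𝒪 A n))) : 𝒟 ρ := by
  rw [h𝒟.iff_forall_surjective hloc hres ρ]
  intro B _ _ _ hB q hq hsurj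
  have := hB.isArtinian
  obtain ⟨n, q', hq'q, hq'loc⟩ := exists_factor_through_QP 𝒪 A q hq
  have h1 := h𝒟.baseChangeAlong (isArtinianTestAlgebra_QP 𝒪 A hloc hres n) hB q' hq'loc (hρ n)
  have e1 := baseChangeAlongComp ((qpₐ 𝒪 A n : A →ₐ[𝒪] QP A n) : A →+* QP A n)
    (qpₐ_isLocalHom 𝒪 A n) (q' : QP A n →+* B) hq'loc ρ
  have heq : (q' : QP A n →+* B).comp ((qpₐ 𝒪 A n : A →ₐ[𝒪] QP A n) : A →+* QP A n) =
      (q : A →+* B) := by
    rw [← hq'q]; rfl
  have e2 := baseChangeAlongCongr heq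
    (isLocalHom_comp _ (qpₐ_isLocalHom 𝒪 A n) _ hq'loc) ρ
  exact h𝒟.of_isEquiv hB ⟨e1.trans e2⟩ h1

end Condition

section Lift

variable {𝒪 R A : Type} [CommRing 𝒪] [CommRing R] [Algebra 𝒪 R] [CommRing A] [IsLocalRing A]
  [Algebra 𝒪 A] [IsAdicComplete (maximalIdeal A) A]

/-- (E1) algebra homs into a complete local ring are determined by their Artinian truncations. -/
theorem algHom_ext_QP {φ φ' : R →ₐ[𝒪] A}
    (h : ∀ n, (qpₐ 𝒪 A n).comp φ = (qpₐ 𝒪 A n).comp φ') : φ = φ' := by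
  apply IsAdicComplete.algHom_ext (maximalIdeal A)
  intro n
  cases n with
  | zero =>
    ext x
    apply Ideal.Quotient.eq.2
    rw [pow_zero, Ideal.one_eq_top]
    trivial
  | succ n => exact h n

/-- the transition map `A / m^(n+2) → A / m^(n+1)` -/
abbrev qpFactor (𝒪 A : Type) [CommRing 𝒪] [CommRing A] [IsLocalRing A] [Algebra 𝒪 A] (n : ℕ) :
    QP A (n + 1) →ₐ[𝒪] QP A n :=
  Ideal.Quotient.factorₐ 𝒪 (Ideal.pow_le_pow_right (Nat.le_succ (n + 1)))

/-- (E2) a compatible system of algebra homs into the Artinian truncations lifts. -/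
theorem exists_algHom_of_compatible (φ : ∀ n, R →ₐ[𝒪] QP A n)
    (hφ : ∀ n, (qpFactor 𝒪 A n).comp (φ (n + 1)) = φ n) :
    ∃ Φ : R →ₐ[𝒪] A, ∀ n, (qpₐ 𝒪 A n).comp Φ = φ n := by
  classical
  -- choose representatives
  have hrep : ∀ n (x : R), ∃ a : A, qp A n a = φ n x := fun n x => qp_surjective A n _
  choose rep hrep using hrep
  have hstep : ∀ n x, rep (n + 1) x - rep n x ∈ maximalIdeal A ^ (n + 1) := by
    intro n x
    have h1 := congrArg (fun ψ : R →ₐ[𝒪] QP A n => ψ x) (hφ n)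
    simp only [AlgHom.comp_apply] at h1
    rw [← hrep (n + 1) x, ← hrep n x] at h1
    have h2 : qp A n (rep (n + 1) x) = qp A n (rep n x) := h1
    exact Ideal.Quotient.eq.1 h2
  have hgen : ∀ m n, m ≤ n → ∀ x, rep n x - rep m x ∈ maximalIdeal A ^ (m + 1) := by
    intro m n hmn
    induction n, hmn using Nat.le_induction with
    | base => intro x; simp
    | succ n hmn ih =>
      intro x
      have h1 := hstep n x
      have h2 : rep (n + 1) x - rep n x ∈ maximalIdeal A ^ (m + 1) :=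
        Ideal.pow_le_pow_right (Nat.succ_le_succ hmn) h1
      have : rep (n + 1) x - rep m x = (rep (n + 1) x - rep n x) + (rep n x - rep m x) := by ring
      rw [this]
      exact Ideal.add_mem _ h2 (ih x)
  let f : (n : ℕ) → R →ₐ[𝒪] A ⧸ maximalIdeal A ^ n := fun n =>
    (Ideal.Quotient.factorₐ 𝒪 (Ideal.pow_le_pow_right (Nat.le_succ n))).comp (φ n)
  have hfval : ∀ n x, f n x = Ideal.Quotient.mk (maximalIdeal A ^ n) (rep n x) := by
    intro n x
    show (Ideal.Quotient.factorₐ 𝒪 (Ideal.pow_le_pow_right (Nat.le_succ n))) (φ n x) = _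
    rw [← hrep n x]
    rfl
  have hf : ∀ {m n : ℕ} (hle : m ≤ n),
      (Ideal.Quotient.factorₐ 𝒪 (Ideal.pow_le_pow_right hle)).comp (f n) = f m := by
    intro m n hle
    ext x
    rw [AlgHom.comp_apply, hfval n x, hfval m x]
    show Ideal.Quotient.mk (maximalIdeal A ^ m) (rep n x) = _
    apply Ideal.Quotient.eq.2
    exact Ideal.pow_le_pow_right (Nat.le_succ m) (hgen m n hle x)
  refine ⟨IsAdicComplete.liftAlgHom (maximalIdeal A) f hf, fun n => ?_⟩
  have h1 := IsAdicComplete.mkₐ_comp_liftAlgHom (maximalIdeal A) f hf (n + 1)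
  rw [h1]
  ext x
  rw [hfval (n + 1) x, ← hrep n x]
  apply Ideal.Quotient.eq.2
  exact hstep n x

/-- A lift of a compatible system is local as soon as its first truncation is. -/
theorem isLocalHom_of_qp_zero [IsLocalRing R] (Φ : R →ₐ[𝒪] A)
    (h0 : IsLocalHom (((qpₐ 𝒪 A 0).comp Φ : R →ₐ[𝒪] QP A 0) : R →+* QP A 0)) :
    IsLocalHom (Φ : R →+* A) :=
  ⟨fun x hx => h0.map_nonunit x (hx.map (qp A 0))⟩

end Lift

end Fermat.Agent.S53.L6
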