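/-
S53 Layer 6 (helper7): final assembly against helper8's core interface (`IsDatum`) and
helper3's Layer 0 (`resMatrixOf`, strict lifts).
-/
import Mathlib
import Fermat.Prelude.Def_GaloisRep_Adic
import Fermat.Prelude.Def_GaloisRep_DeformationCondition
import Fermat.Prelude.Def_GaloisRep_DeformationRingData
import Fermat.Agent.S53.Defs
import Fermat.Agent.S53.Core1
import Fermat.Agent.S53.L0_helper3_Matrix
import Fermat.Agent.S53.L6_helper7_Quot
import Fermat.Agent.S53.L6_helper7_SliceAssembly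

set_option autoImplicit false
set_option linter.unusedSectionVars false

open IsLocalRing GaloisRep

namespace Fermat.Agent.S53.L6

section AutoLocal

variable {𝒪 : Type} [CommRing 𝒪] {R B : Type} [CommRing R] [IsLocalRing R] [Algebra 𝒪 R]
  [CommRing B] [IsLocalRing B] [Algebra 𝒪 B]

/-- An `𝒪`-algebra hom from a local ring to a local ring whose residue field is a quotient of `𝒪`
is automatically local. -/
theorem isLocalHom_of_residue_surjective
    (hres : Function.Surjective (IsLocalRing.residue B ∘ algebraMap 𝒪 B)) (φ : R →ₐ[𝒪] B) :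
    IsLocalHom (φ : R →+* B) := by
  refine ⟨fun a ha => ?_⟩
  by_contra hna
  have hmem : a ∈ maximalIdeal R := hna
  let π : R →+* ResidueField B := (IsLocalRing.residue B).comp (φ : R →+* B)
  have hπsurj : Function.Surjective π := by
    intro y
    obtain ⟨o, ho⟩ := hres y
    refine ⟨algebraMap 𝒪 R o, ?_⟩
    show IsLocalRing.residue B (φ (algebraMap 𝒪 R o)) = y
    rw [AlgHom.commutes]
    exact ho
  have hmax : (RingHom.ker π).IsMaximal := RingHom.ker_isMaximal_of_surjective π hπsurj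
  have hker : RingHom.ker π = maximalIdeal R := IsLocalRing.eq_maximalIdeal hmax
  rw [← hker, RingHom.mem_ker] at hmem
  have h1 : (φ : R →+* B) a ∈ maximalIdeal B := (IsLocalRing.residue_eq_zero_iff _).1 hmem
  exact h1 ha

end AutoLocal

section Core

variable {𝒪 : Type} [CommRing 𝒪] [IsDomain 𝒪] [IsDiscreteValuationRing 𝒪]
  [IsAdicComplete (IsLocalRing.maximalIdeal 𝒪) 𝒪]
  {ρbar : ResidualGaloisRep (IsLocalRing.ResidueField 𝒪)}
  {𝒟 : ∀ ⦃A : Type⦄ [CommRing A] [IsLocalRing A] [Algebra 𝒪 A], GaloisRepAdic A → Prop}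

theorem mapM_eq_mapMat {A B : Type} [CommRing A] [CommRing B] [Algebra 𝒪 A] [Algebra 𝒪 B]
    (φ : A →ₐ[𝒪] B) (r : Gal →* M2 A) : mapM φ r = mapMat (φ : A →+* B) r := by
  ext σ i j
  rfl

theorem strictResidual_resMatrixOf (β : Module.Basis (Fin 2) (ResidueField 𝒪) ρbar.V) :
    StrictResidual 𝒪 ρbar (resMatrixOf ρbar β) :=
  fun _ _ _ _ _ _ _ _ r hr h => residual_isEquiv_of_isStrictLift ρbar β r hr h

theorem existsStrict_resMatrixOf (β : Module.Basis (Fin 2) (ResidueField 𝒪) ρbar.V) :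
    ExistsStrict 𝒪 ρbar (resMatrixOf ρbar β) :=
  fun _ _ _ _ _ _ _ _ ρA h => exists_isEquiv_ofMatrix_isStrictLift ρbar β ρA h

/-- Universality for data (helper8's core output) gives `ArtinianSliceUniversal`. -/
theorem artinianSliceUniversal_of_core {rbar : Gal →* M2 (ResidueField 𝒪)} {sl : Slice 𝒪}
    {R : Type} [CommRing R] [IsLocalRing R] [Algebra 𝒪 R] (rR : Gal →* M2 R)
    (huniv : ∀ (B : Type) [CommRing B] [IsLocalRing B] [Algebra 𝒪 B] (r : Gal →* M2 B),
      IsDatum 𝒪 rbar sl 𝒟 r → ∃! φ : R →ₐ[𝒪] B, mapM φ rR = r) :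
    ArtinianSliceUniversal 𝒪 𝒟 rbar sl rR := by
  intro B _ _ _ hB r hr hstrict hnormal hD
  obtain ⟨φ, hφ, hφuniq⟩ := huniv B r ⟨hB, hr, hstrict, hnormal, hD⟩
  refine ⟨φ, ⟨isLocalHom_of_residue_surjective hB.residue_surjective φ, fun σ => ?_⟩, ?_⟩
  · rw [← hφ]
    ext i j
    rfl
  · rintro ψ ⟨_, hψ⟩
    apply hφuniq
    ext σ i j
    exact congrFun (congrFun (hψ σ) i) j

/-- The condition for `ofMatrix rR` from the condition at all finite levels. -/
theorem isOfType_of_levels (h𝒟 : GaloisRep.IsDeformationCondition 𝒪 𝒟)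
    {rbar : Gal →* M2 (ResidueField 𝒪)} {sl : Slice 𝒪}
    {R : Type} [CommRing R] [IsLocalRing R] [IsNoetherianRing R]
    [IsAdicComplete (IsLocalRing.maximalIdeal R) R] [Algebra 𝒪 R]
    (hloc : IsLocalHom (algebraMap 𝒪 R))
    (hRres : Function.Surjective (IsLocalRing.residue R ∘ algebraMap 𝒪 R))
    (rR : Gal →* M2 R) (hrR : MatCont rR)
    (hlev : ∀ n, IsDatum 𝒪 rbar sl 𝒟 (mapM (qpₐ 𝒪 R n) rR)) : 𝒟 (ofMatrix rR hrR) := by
  apply cond_of_forall_QP h𝒟 hloc hRres
  intro n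
  have h1 := (hlev n).isOfType
  refine h𝒟.of_isEquiv (hlev n).test (isEquiv_symm ?_) h1
  refine isEquiv_trans (baseChangeAlong_ofMatrix_isEquiv _ (qpₐ_isLocalHom 𝒪 R n) rR hrR) ?_
  have h2 : ofMatrix (mapMat ((qpₐ 𝒪 R n : R →ₐ[𝒪] QP R n) : R →+* QP R n) rR)
      (hrR.mapMat _ (qpₐ_isLocalHom 𝒪 R n)) =
      ofMatrix (mapM (qpₐ 𝒪 R n) rR) (hlev n).cont := by
    congr 1
  rw [h2]
  exact isEquiv_refl _

/-- FINAL ASSEMBLY: helper8's core output + helper1's normal form theorems give a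
`DeformationRingData`. -/
theorem nonempty_deformationRingData_of_core
    (habs : ρbar.IsAbsolutelyIrreducible)
    (h𝒟 : GaloisRep.IsDeformationCondition 𝒪 𝒟)
    (β : Module.Basis (Fin 2) (ResidueField 𝒪) ρbar.V) (sl : Slice 𝒪)
    (hS3e : ExistsNormal 𝒪 (resMatrixOf ρbar β) sl)
    (hS3u : ArtinianNormalUnique 𝒪 (resMatrixOf ρbar β) sl)
    (R : Type) [CommRing R] [IsLocalRing R] [IsNoetherianRing R]
    [IsAdicComplete (IsLocalRing.maximalIdeal R) R] [Algebra 𝒪 R] [IsLocalHom (algebraMap 𝒪 R)]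
    (hRres : Function.Surjective (IsLocalRing.residue R ∘ algebraMap 𝒪 R))
    (rR : Gal →* M2 R) (hrR : MatCont rR) (hRstrict : IsStrictLift 𝒪 (resMatrixOf ρbar β) rR)
    (hRnormal : IsNormal sl rR)
    (hlev : ∀ n, IsDatum 𝒪 (resMatrixOf ρbar β) sl 𝒟 (mapM (qpₐ 𝒪 R n) rR))
    (huniv : ∀ (B : Type) [CommRing B] [IsLocalRing B] [Algebra 𝒪 B] (r : Gal →* M2 B),
      IsDatum 𝒪 (resMatrixOf ρbar β) sl 𝒟 r → ∃! φ : R →ₐ[𝒪] B, mapM φ rR = r) :
    Nonempty (GaloisRep.DeformationRingData 𝒪 ρbar 𝒟) :=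
  nonempty_deformationRingData_of_slice habs h𝒟 (strictResidual_resMatrixOf β)
    (existsStrict_resMatrixOf β) hS3e hS3u R hRres rR hrR hRstrict hRnormal
    (isOfType_of_levels h𝒟 inferInstance hRres rR hrR hlev)
    (artinianSliceUniversal_of_core rR huniv)

end Core

end Fermat.Agent.S53.L6
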