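/-
S53 (helper7): finiteness of the set of data over `k[ε]` from `GaloisRep.TangentFinite`.
-/
import Mathlib
import Fermat.Prelude.Def_GaloisRep_Adic
import Fermat.Prelude.Def_GaloisRep_DeformationCondition
import Fermat.Agent.S53.Defs
import Fermat.Agent.S53.Core1
import Fermat.Agent.S53.L0_helper3_Matrix

set_option autoImplicit false
set_option linter.unusedSectionVars false

open IsLocalRing GaloisRep

namespace Fermat.Agent.S53.L6

section Dual

variable (𝒪 : Type) [CommRing 𝒪] [IsLocalRing 𝒪]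

/-- The `𝒪`-algebra structure on `k[ε]` used by `GaloisRep.TangentFinite`. -/
@[reducible] noncomputable def dualAlgebra : Algebra 𝒪 (DualNumber (ResidueField 𝒪)) :=
  ((algebraMap (ResidueField 𝒪) (DualNumber (ResidueField 𝒪))).comp
    (algebraMap 𝒪 (ResidueField 𝒪))).toAlgebra

/-- The `k`-algebra structure on the residue field of `k[ε]` used by `GaloisRep.TangentFinite`. -/
@[reducible] noncomputable def dualResidueAlgebra :
    Algebra (ResidueField 𝒪) (ResidueField (DualNumber (ResidueField 𝒪))) :=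
  ((IsLocalRing.residue (DualNumber (ResidueField 𝒪))).comp
    (algebraMap (ResidueField 𝒪) (DualNumber (ResidueField 𝒪)))).toAlgebra

theorem isLocalHom_algebraMap_dual :
    letI := dualAlgebra 𝒪
    IsLocalHom (algebraMap 𝒪 (DualNumber (ResidueField 𝒪))) := by
  letI := dualAlgebra 𝒪
  refine ⟨fun a ha => ?_⟩
  have h1 : algebraMap 𝒪 (DualNumber (ResidueField 𝒪)) a =
      algebraMap (ResidueField 𝒪) (DualNumber (ResidueField 𝒪)) (residue 𝒪 a) := rfl
  rw [h1] at ha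
  have h2 : IsUnit (TrivSqZeroExt.fst (algebraMap (ResidueField 𝒪)
      (DualNumber (ResidueField 𝒪)) (residue 𝒪 a))) :=
    ha.map (TrivSqZeroExt.fstHom (ResidueField 𝒪) (ResidueField 𝒪) (ResidueField 𝒪))
  have h3 : IsUnit (residue 𝒪 a) := h2
  exact IsLocalRing.residue_ne_zero_iff_isUnit a |>.1 h3.ne_zero

theorem residueFieldMap_dual :
    letI := dualAlgebra 𝒪
    haveI := isLocalHom_algebraMap_dual 𝒪
    (ResidueField.map (algebraMap 𝒪 (DualNumber (ResidueField 𝒪))) :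
      ResidueField 𝒪 →+* ResidueField (DualNumber (ResidueField 𝒪))) =
      (IsLocalRing.residue (DualNumber (ResidueField 𝒪))).comp
        (algebraMap (ResidueField 𝒪) (DualNumber (ResidueField 𝒪))) := by
  letI := dualAlgebra 𝒪
  haveI := isLocalHom_algebraMap_dual 𝒪
  ext x
  obtain ⟨a, rfl⟩ := IsLocalRing.residue_surjective x
  rw [ResidueField.map_residue]
  rfl

end Dual

section Finite

variable {𝒪 : Type} [CommRing 𝒪] [IsLocalRing 𝒪]
  {ρbar : ResidualGaloisRep (IsLocalRing.ResidueField 𝒪)}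
  {𝒟 : ∀ ⦃A : Type⦄ [CommRing A] [IsLocalRing A] [Algebra 𝒪 A], GaloisRepAdic A → Prop}

/-- (hEfin) The set of data over `k[ε]` is finite, by `TangentFinite` and uniqueness of normal
forms. -/
theorem finite_datum_dualNumber (hfin : GaloisRep.TangentFinite 𝒪 ρbar 𝒟)
    (β : Module.Basis (Fin 2) (ResidueField 𝒪) ρbar.V) (sl : Slice 𝒪)
    (hS3u : letI := dualAlgebra 𝒪
      ∀ r r' : Gal →* M2 (DualNumber (ResidueField 𝒪)),
        IsStrictLift 𝒪 (resMatrixOf ρbar β) r → IsStrictLift 𝒪 (resMatrixOf ρbar β) r' →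
        IsNormal sl r → IsNormal sl r' → ∀ U : (M2 (DualNumber (ResidueField 𝒪)))ˣ,
          (∀ σ, (U : M2 (DualNumber (ResidueField 𝒪))) * r σ = r' σ * U) → r = r') :
    letI := dualAlgebra 𝒪
    {r : Gal →* M2 (DualNumber (ResidueField 𝒪)) |
      IsDatum 𝒪 (resMatrixOf ρbar β) sl 𝒟 r}.Finite := by
  letI := dualAlgebra 𝒪
  letI := dualResidueAlgebra 𝒪
  haveI := isLocalHom_algebraMap_dual 𝒪
  have hfin' : Finite (Quotient (⟨fun ρ ρ' : {ρ : GaloisRepAdic (DualNumber (ResidueField 𝒪)) //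
      𝒟 ρ ∧ ρ.residual.IsEquiv (ρbar.baseChange (ResidueField (DualNumber (ResidueField 𝒪)))) } =>
      ρ.1.IsEquiv ρ'.1, ⟨fun ρ => ⟨GaloisRepAdic.Equiv.refl ρ.1⟩,
        fun ⟨e⟩ => ⟨e.symm⟩, fun ⟨e⟩ ⟨e'⟩ => ⟨e.trans e'⟩⟩⟩ : Setoid _)) := hfin
  have hres : ∀ r : Gal →* M2 (DualNumber (ResidueField 𝒪)),
      ∀ h : IsDatum 𝒪 (resMatrixOf ρbar β) sl 𝒟 r,
      (ofMatrix r h.cont).residual.IsEquiv
        (ρbar.baseChange (ResidueField (DualNumber (ResidueField 𝒪)))) := by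
    intro r h
    have h1 := residual_isEquiv_of_isStrictLift ρbar β r h.cont h.strict
    rw [residueFieldMap_dual] at h1
    exact h1
  rw [← Set.finite_coe_iff]
  let F : {r : Gal →* M2 (DualNumber (ResidueField 𝒪)) |
      IsDatum 𝒪 (resMatrixOf ρbar β) sl 𝒟 r} → Quotient (⟨fun ρ ρ' :
      {ρ : GaloisRepAdic (DualNumber (ResidueField 𝒪)) //
      𝒟 ρ ∧ ρ.residual.IsEquiv (ρbar.baseChange (ResidueField (DualNumber (ResidueField 𝒪)))) } =>
      ρ.1.IsEquiv ρ'.1, ⟨fun ρ => ⟨GaloisRepAdic.Equiv.refl ρ.1⟩,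
        fun ⟨e⟩ => ⟨e.symm⟩, fun ⟨e⟩ ⟨e'⟩ => ⟨e.trans e'⟩⟩⟩ : Setoid _) :=
    fun r => Quotient.mk _ ⟨ofMatrix r.1 r.2.cont, r.2.isOfType, hres r.1 r.2⟩
  apply Finite.of_injective F
  rintro ⟨r, hr⟩ ⟨r', hr'⟩ hFF
  have h1 : (ofMatrix r hr.cont).IsEquiv (ofMatrix r' hr'.cont) := Quotient.exact hFF
  obtain ⟨U, hU⟩ := (isEquiv_ofMatrix_iff _ _ _ _).1 h1
  have := hS3u r r' hr.strict hr'.strict hr.normal hr'.normal U hU
  subst this
  rfl

end Finite

end Fermat.Agent.S53.L6
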