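import Mathlib
import Fermat.Prelude.Thm_IsLocalRing_isAdicComplete_of_module_finite
import Fermat.Agent.S53.PowerSeries

/-!
# Quotients of complete local `𝒪`-algebras (S53 package (c), helper4)

* the power series ring `P = MvPowerSeries σ 𝒪` over a local ring: `algebraMap 𝒪 P` is local and
  induces a surjection on residue fields;
* for a local `𝒪`-algebra `R` and an ideal `J` with `R ⧸ J` local: `algebraMap 𝒪 (R ⧸ J)` is local,
  residue surjectivity descends, `R ⧸ J` is complete if `R` is Noetherian complete,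
  `map (mk J) (𝔪_R ^ n) = 𝔪 ^ n`, and `(R ⧸ J) ⧸ 𝔪 ^ n ≃ₐ[𝒪] R ⧸ (J ⊔ 𝔪_R ^ n)`.
-/

set_option autoImplicit false

namespace Fermat.Agent.S53.PS

open MvPowerSeries IsLocalRing

section PowerSeriesResidue

variable {𝒪 : Type*} [CommRing 𝒪] [IsLocalRing 𝒪] {σ : Type*}

theorem sub_C_constantCoeff_mem_maximalIdeal (g : MvPowerSeries σ 𝒪) :
    g - C (constantCoeff g) ∈ maximalIdeal (MvPowerSeries σ 𝒪) := by
  rw [mem_maximalIdeal_iff]
  simp

instance isLocalHom_algebraMap_mvPowerSeries :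
    IsLocalHom (algebraMap 𝒪 (MvPowerSeries σ 𝒪)) := by
  refine ⟨fun c hc => ?_⟩
  rw [MvPowerSeries.algebraMap_apply, Algebra.algebraMap_self, RingHom.id_apply,
    MvPowerSeries.isUnit_iff_constantCoeff] at hc
  simpa using hc

theorem residue_comp_algebraMap_mvPowerSeries_surjective :
    Function.Surjective (residue (MvPowerSeries σ 𝒪) ∘ algebraMap 𝒪 (MvPowerSeries σ 𝒪)) := by
  intro y
  obtain ⟨g, rfl⟩ := residue_surjective y
  refine ⟨constantCoeff g, ?_⟩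
  rw [Function.comp_apply]
  symm
  rw [← sub_eq_zero, ← map_sub, residue_eq_zero_iff]
  rw [MvPowerSeries.algebraMap_apply, Algebra.algebraMap_self, RingHom.id_apply]
  exact sub_C_constantCoeff_mem_maximalIdeal g

end PowerSeriesResidue

section Quot

variable {𝒪 R : Type*} [CommRing 𝒪] [CommRing R] [IsLocalRing R] [Algebra 𝒪 R]
  (J : Ideal R)

omit [IsLocalRing R] [Algebra 𝒪 R] [CommRing 𝒪] in
theorem quot_isLocalRing [IsLocalRing R] (hJ : J ≠ ⊤) : IsLocalRing (R ⧸ J) :=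
  haveI : Nontrivial (R ⧸ J) := Ideal.Quotient.nontrivial_iff.mpr hJ
  IsLocalRing.of_surjective' (Ideal.Quotient.mk J) Ideal.Quotient.mk_surjective

variable [IsLocalRing (R ⧸ J)]

omit [Algebra 𝒪 R] [CommRing 𝒪] in
theorem quot_mk_isLocalHom : IsLocalHom (Ideal.Quotient.mk J) :=
  IsLocalHom.of_surjective _ Ideal.Quotient.mk_surjective

theorem quot_isLocalHom_algebraMap [IsLocalHom (algebraMap 𝒪 R)] :
    IsLocalHom (algebraMap 𝒪 (R ⧸ J)) := by
  have h1 := quot_mk_isLocalHom J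
  have : algebraMap 𝒪 (R ⧸ J) = (Ideal.Quotient.mk J).comp (algebraMap 𝒪 R) := rfl
  rw [this]
  infer_instance

theorem quot_residue_comp_algebraMap_surjective
    (h : Function.Surjective (residue R ∘ algebraMap 𝒪 R)) :
    Function.Surjective (residue (R ⧸ J) ∘ algebraMap 𝒪 (R ⧸ J)) := by
  intro y
  obtain ⟨x, rfl⟩ := residue_surjective y
  obtain ⟨r, rfl⟩ := Ideal.Quotient.mk_surjective x
  obtain ⟨c, hc⟩ := h (residue R r)
  refine ⟨c, ?_⟩
  rw [Function.comp_apply] at hc ⊢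
  have hmem : algebraMap 𝒪 R c - r ∈ maximalIdeal R := by
    rw [← residue_eq_zero_iff, map_sub, hc, sub_self]
  have h1 := quot_mk_isLocalHom J
  have h2 := map_nonunit (Ideal.Quotient.mk J) _ hmem
  rw [← residue_eq_zero_iff, map_sub, map_sub, sub_eq_zero] at h2
  exact h2

omit [Algebra 𝒪 R] [CommRing 𝒪] in
theorem quot_map_maximalIdeal_pow (n : ℕ) :
    (maximalIdeal R ^ n).map (Ideal.Quotient.mk J) = maximalIdeal (R ⧸ J) ^ n := by
  rw [Ideal.map_pow, map_maximalIdeal_of_surjective _ Ideal.Quotient.mk_surjective]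

omit [Algebra 𝒪 R] [CommRing 𝒪] in
theorem quot_isAdicComplete [IsNoetherianRing R] [IsAdicComplete (maximalIdeal R) R] :
    IsAdicComplete (maximalIdeal (R ⧸ J)) (R ⧸ J) := by
  have h1 : IsLocalHom (algebraMap R (R ⧸ J)) := quot_mk_isLocalHom J
  exact IsLocalRing.isAdicComplete_of_module_finite (𝒪 := R) (T := R ⧸ J)

/-- `(R ⧸ J) ⧸ 𝔪 ^ n ≃ R ⧸ (J ⊔ 𝔪_R ^ n)`. -/
noncomputable def quotQuotPowEquiv (n : ℕ) :
    ((R ⧸ J) ⧸ maximalIdeal (R ⧸ J) ^ n) ≃ₐ[𝒪] R ⧸ (J ⊔ maximalIdeal R ^ n) :=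
  (Ideal.quotientEquivAlgOfEq 𝒪 (by rw [← quot_map_maximalIdeal_pow]; rfl)).trans
    (DoubleQuot.quotQuotEquivQuotSupₐ 𝒪 J (maximalIdeal R ^ n))

@[simp]
theorem quotQuotPowEquiv_mk_mk (n : ℕ) (x : R) :
    quotQuotPowEquiv (𝒪 := 𝒪) J n (Ideal.Quotient.mk _ (Ideal.Quotient.mk J x)) =
      Ideal.Quotient.mk _ x := rfl

@[simp]
theorem quotQuotPowEquiv_symm_mk (n : ℕ) (x : R) :
    (quotQuotPowEquiv (𝒪 := 𝒪) J n).symm (Ideal.Quotient.mk _ x) =
      Ideal.Quotient.mk _ (Ideal.Quotient.mk J x) := by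
  rw [AlgEquiv.symm_apply_eq, quotQuotPowEquiv_mk_mk]

end Quot

end Fermat.Agent.S53.PS
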