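import Mathlib
import Fermat.Agent.S53.Core1

/-!
# S53 core, part 2: the maps `ψ`, separating sets and generation by finitely many entries
-/

set_option autoImplicit false

namespace Fermat.Agent.S53

open IsLocalRing GaloisRep MvPowerSeries

/-- the index type of matrix entries -/
abbrev Idx : Type := Gal × Fin 2 × Fin 2

/-- the entry function of a matrix representation -/
noncomputable def ent {A : Type} [CommRing A] (r : Gal →* M2 A) (x : Idx) : A := r x.1 x.2.1 x.2.2

theorem ent_injective {A : Type} [CommRing A] : Function.Injective (ent (A := A)) := by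
  intro r r' h
  ext σ i j
  exact congrFun h (σ, i, j)

@[simp] theorem ent_mapM {𝒪 A B : Type} [CommRing 𝒪] [CommRing A] [CommRing B] [Algebra 𝒪 A]
    [Algebra 𝒪 B] (φ : A →ₐ[𝒪] B) (r : Gal →* M2 A) (x : Idx) :
    ent (mapM φ r) x = φ (ent r x) := rfl

/-- A finite set of functions is separated by finitely many points. -/
theorem exists_finset_separating {ι β : Type*} [Inhabited ι] (T : Set (ι → β)) (hT : T.Finite) :
    ∃ W : Finset ι, ∀ t ∈ T, ∀ t' ∈ T, (∀ w ∈ W, t w = t' w) → t = t' := by
  classical
  let wit : (ι → β) × (ι → β) → ι := fun p =>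
    if h : ∃ w, p.1 w ≠ p.2 w then h.choose else default
  refine ⟨(hT.toFinset ×ˢ hT.toFinset).image wit, fun t ht t' ht' hW => ?_⟩
  by_contra hne
  have hex : ∃ w, t w ≠ t' w := Function.ne_iff.mp hne
  have hmem : wit (t, t') ∈ (hT.toFinset ×ˢ hT.toFinset).image wit :=
    Finset.mem_image_of_mem _ (Finset.mem_product.mpr
      ⟨hT.mem_toFinset.mpr ht, hT.mem_toFinset.mpr ht'⟩)
  have h1 := hW _ hmem
  have h2 : wit (t, t') = hex.choose := by
    simp only [wit]
    rw [dif_pos hex]
  rw [h2] at h1
  exact hex.choose_spec h1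

/-- Lift a matrix representation along an injective algebra hom whose range contains all
entries. -/
theorem exists_mapM_eq_of_injective {𝒪 A B : Type} [CommRing 𝒪] [CommRing A] [CommRing B]
    [Algebra 𝒪 A] [Algebra 𝒪 B] (φ : A →ₐ[𝒪] B) (hφ : Function.Injective φ) (r : Gal →* M2 B)
    (h : ∀ σ i j, r σ i j ∈ φ.range) : ∃ r' : Gal →* M2 A, mapM φ r' = r := by
  choose e he using h
  have he' : ∀ σ i j, φ (e σ i j) = r σ i j := he
  have hinj : Function.Injective (φ.mapMatrix : M2 A →ₐ[𝒪] M2 B) := by
    intro M M' hMM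
    ext i j
    apply hφ
    have := congrFun (congrFun hMM i) j
    simpa using this
  have hmap : ∀ σ, (φ.mapMatrix : M2 A →ₐ[𝒪] M2 B) (Matrix.of fun i j => e σ i j) = r σ := by
    intro σ
    ext i j
    simp [he']
  refine ⟨{ toFun := fun σ => Matrix.of fun i j => e σ i j
            map_one' := ?_
            map_mul' := ?_ }, ?_⟩
  · apply hinj
    rw [hmap, map_one, map_one]
  · intro σ τ
    apply hinj
    rw [hmap, map_mul r, ← hmap σ, ← hmap τ, map_mul]
  · ext σ i j
    exact he' σ i j

end Fermat.Agent.S53
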