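import Mathlib
import Fermat.Agent.S53.Core2

/-!
# S53 core, part 3: test algebras, maps out of the power series ring, generation and rigidity
-/

set_option autoImplicit false
set_option linter.unusedSectionVars false

namespace Fermat.Agent.S53

open IsLocalRing GaloisRep MvPowerSeries

section TestAlg

variable {𝒪 : Type} [CommRing 𝒪] [IsLocalRing 𝒪]
variable {A B : Type} [CommRing A] [IsLocalRing A] [Algebra 𝒪 A] [CommRing B] [IsLocalRing B]
  [Algebra 𝒪 B]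

/-- Algebra homs into a local algebra with residue field `k` map the maximal ideal into the
maximal ideal. -/
theorem algHom_mem_maximalIdeal (hB : Function.Surjective (residue B ∘ algebraMap 𝒪 B))
    (φ : A →ₐ[𝒪] B) {x : A} (hx : x ∈ maximalIdeal A) : φ x ∈ maximalIdeal B := by
  let κ : A →+* ResidueField B := (residue B).comp (φ : A →+* B)
  have hκ : Function.Surjective κ := by
    intro y
    obtain ⟨a, ha⟩ := hB y
    refine ⟨algebraMap 𝒪 A a, ?_⟩
    simp only [Function.comp_apply] at ha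
    simp only [κ, RingHom.comp_apply, RingHom.coe_coe, AlgHom.commutes]
    exact ha
  have hmax : (RingHom.ker κ).IsMaximal := RingHom.ker_isMaximal_of_surjective κ hκ
  have hk : RingHom.ker κ = maximalIdeal A := IsLocalRing.eq_maximalIdeal hmax
  have hx' : x ∈ RingHom.ker κ := hk ▸ hx
  rw [RingHom.mem_ker] at hx'
  exact (residue_eq_zero_iff _).1 hx'

theorem algHom_isLocalHom (hB : Function.Surjective (residue B ∘ algebraMap 𝒪 B))
    (φ : A →ₐ[𝒪] B) : IsLocalHom (φ : A →+* B) := by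
  refine ⟨fun x hx => ?_⟩
  by_contra hnu
  have h1 : x ∈ maximalIdeal A := hnu
  have h2 := algHom_mem_maximalIdeal hB φ h1
  exact h2 hx

theorem map_maximalIdeal_pow_le (hB : Function.Surjective (residue B ∘ algebraMap 𝒪 B))
    (φ : A →ₐ[𝒪] B) (n : ℕ) {x : A} (hx : x ∈ maximalIdeal A ^ n) :
    φ x ∈ maximalIdeal B ^ n := by
  have h1 : (maximalIdeal A).map (φ : A →+* B) ≤ maximalIdeal B := by
    rw [Ideal.map_le_iff_le_comap]
    intro y hy
    exact algHom_mem_maximalIdeal hB φ hy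
  have h2 := Ideal.pow_right_mono h1 n
  rw [← Ideal.map_pow] at h2
  exact h2 (Ideal.mem_map_of_mem _ hx)

theorem exists_maximalIdeal_pow_eq_bot (hA : IsArtinianRing A) :
    ∃ n, maximalIdeal A ^ n = ⊥ := by
  have h1 : IsNilpotent (Ideal.jacobson (⊥ : Ideal A)) := IsArtinianRing.isNilpotent_jacobson_bot
  rw [IsLocalRing.jacobson_eq_maximalIdeal ⊥ bot_ne_top] at h1
  obtain ⟨n, hn⟩ := h1
  exact ⟨n, hn⟩

end TestAlg

section Psi

variable {𝒪 : Type} [CommRing 𝒪] [IsLocalRing 𝒪]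
variable {ι : Type} [Finite ι]
variable {A : Type} [CommRing A] [IsLocalRing A] [Algebra 𝒪 A]

/-- Algebra homs from the power series ring to a test algebra kill power series of high order. -/
theorem psHom_eq_zero (hA : IsArtinianTestAlgebra 𝒪 A) {n : ℕ} (hn : maximalIdeal A ^ n = ⊥)
    (ψ : MvPowerSeries ι 𝒪 →ₐ[𝒪] A) {t : MvPowerSeries ι 𝒪}
    (ht : ∀ x : ι →₀ ℕ, Finsupp.degree x < n → coeff x t = 0) : ψ t = 0 := by
  have h1 := PS.mem_maximalIdeal_pow_of_coeff_eq_zero ht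
  have h2 := map_maximalIdeal_pow_le hA.residue_surjective ψ n h1
  rwa [hn, Ideal.mem_bot] at h2

theorem psHom_mem_ker (hA : IsArtinianTestAlgebra 𝒪 A) {n : ℕ} (hn : maximalIdeal A ^ n = ⊥)
    (ψ : MvPowerSeries ι 𝒪 →ₐ[𝒪] A) :
    maximalIdeal (MvPowerSeries ι 𝒪) ^ n ≤ RingHom.ker ψ := by
  intro t ht
  have h2 := map_maximalIdeal_pow_le hA.residue_surjective ψ n ht
  rwa [hn, Ideal.mem_bot] at h2

/-- Algebra homs from the power series ring to a test algebra are determined by the images of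
the variables. -/
theorem psHom_ext (hA : IsArtinianTestAlgebra 𝒪 A) {ψ ψ' : MvPowerSeries ι 𝒪 →ₐ[𝒪] A}
    (h : ∀ i, ψ (X i) = ψ' (X i)) : ψ = ψ' := by
  obtain ⟨n, hn⟩ := exists_maximalIdeal_pow_eq_bot hA.isArtinian
  exact PS.algHom_ext_of_X n (fun t ht => psHom_eq_zero hA hn ψ ht)
    (fun t ht => psHom_eq_zero hA hn ψ' ht) h

/-- Existence of algebra homs from the power series ring with prescribed images of the
variables in the maximal ideal. -/
theorem psHom_exists (hA : IsArtinianTestAlgebra 𝒪 A) (y : ι → A)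
    (hy : ∀ i, y i ∈ maximalIdeal A) : ∃ ψ : MvPowerSeries ι 𝒪 →ₐ[𝒪] A, ∀ i, ψ (X i) = y i := by
  obtain ⟨n, hn⟩ := exists_maximalIdeal_pow_eq_bot hA.isArtinian
  have h1 : Ideal.span (Set.range y) ^ n = ⊥ := by
    rw [eq_bot_iff, ← hn]
    apply Ideal.pow_right_mono
    rw [Ideal.span_le]
    rintro _ ⟨i, rfl⟩
    exact hy i
  exact ⟨PS.evalHom y n h1, fun i => PS.evalHom_X y n h1 i⟩

end Psi


section Hyp

variable (𝒪 : Type) [CommRing 𝒪] [IsLocalRing 𝒪]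
variable (rbar : Gal →* M2 (ResidueField 𝒪)) (sl : Slice 𝒪)
variable (𝒟 : ∀ ⦃A : Type⦄ [CommRing A] [IsLocalRing A] [Algebra 𝒪 A], GaloisRepAdic A → Prop)

/-- All hypotheses of the core construction. -/
structure CoreHyp (E : Type) [CommRing E] [IsLocalRing E] [Algebra 𝒪 E] {ι : Type}
    (pt : ι → Idx) (av : Idx → 𝒪) : Prop where
  cl : DatumClosure 𝒪 rbar sl 𝒟
  testE : IsArtinianTestAlgebra 𝒪 E
  tan : ∀ {A : Type} [CommRing A] [IsLocalRing A] [Algebra 𝒪 A], IsArtinianTestAlgebra 𝒪 A →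
    ∀ B : Subalgebra 𝒪 A, B ≠ ⊤ → ∃ f f' : A →ₐ[𝒪] E, f ≠ f' ∧ ∀ b ∈ B, f b = f' b
  sep : ∀ r r' : Gal →* M2 E, IsDatum 𝒪 rbar sl 𝒟 r → IsDatum 𝒪 rbar sl 𝒟 r' →
    (∀ i, ent r (pt i) = ent r' (pt i)) → r = r'
  av_spec : ∀ x : Idx, residue 𝒪 (av x) = ent rbar x

end Hyp

section Gen

variable {𝒪 : Type} [CommRing 𝒪] [IsLocalRing 𝒪]
variable {rbar : Gal →* M2 (ResidueField 𝒪)} {sl : Slice 𝒪}
variable {𝒟 : ∀ ⦃A : Type⦄ [CommRing A] [IsLocalRing A] [Algebra 𝒪 A], GaloisRepAdic A → Prop}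
variable {E : Type} [CommRing E] [IsLocalRing E] [Algebra 𝒪 E]
variable {ι : Type} [Finite ι] {pt : ι → Idx} {av : Idx → 𝒪}
variable {A : Type} [CommRing A] [IsLocalRing A] [Algebra 𝒪 A]
variable {B : Type} [CommRing B] [IsLocalRing B] [Algebra 𝒪 B]

/-- `ψ` sends the variables to the deviations of the distinguished entries of `r`. -/
def IsPsi (pt : ι → Idx) (av : Idx → 𝒪) (r : Gal →* M2 A) (ψ : MvPowerSeries ι 𝒪 →ₐ[𝒪] A) :
    Prop :=
  ∀ i, ψ (X i) = ent r (pt i) - algebraMap 𝒪 A (av (pt i))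

theorem IsPsi.comp {r : Gal →* M2 A} {ψ : MvPowerSeries ι 𝒪 →ₐ[𝒪] A} (h : IsPsi pt av r ψ)
    (φ : A →ₐ[𝒪] B) : IsPsi pt av (mapM φ r) (φ.comp ψ) := by
  intro i
  rw [AlgHom.comp_apply, h i, map_sub, AlgHom.commutes, ent_mapM]

theorem IsPsi.unique (hA : IsArtinianTestAlgebra 𝒪 A) {r r' : Gal →* M2 A}
    {ψ ψ' : MvPowerSeries ι 𝒪 →ₐ[𝒪] A} (h : IsPsi pt av r ψ) (h' : IsPsi pt av r' ψ')
    (hrr' : ∀ i, ent r (pt i) = ent r' (pt i)) : ψ = ψ' := by
  apply psHom_ext hA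
  intro i
  rw [h i, h' i, hrr' i]

theorem exists_isPsi (H : CoreHyp 𝒪 rbar sl 𝒟 E pt av) {r : Gal →* M2 A}
    (hr : IsDatum 𝒪 rbar sl 𝒟 r) : ∃ ψ : MvPowerSeries ι 𝒪 →ₐ[𝒪] A, IsPsi pt av r ψ := by
  apply psHom_exists hr.test
  intro i
  exact hr.strict _ _ _ _ (H.av_spec (pt i))

/-- **Generation**: all entries of a datum lie in the range of its `ψ`. -/
theorem entry_mem_range (H : CoreHyp 𝒪 rbar sl 𝒟 E pt av) {r : Gal →* M2 A}
    (hr : IsDatum 𝒪 rbar sl 𝒟 r) {ψ : MvPowerSeries ι 𝒪 →ₐ[𝒪] A} (hψ : IsPsi pt av r ψ)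
    (σ : Gal) (i j : Fin 2) : r σ i j ∈ ψ.range := by
  classical
  -- the subalgebra generated by the entries
  set A₀ : Subalgebra 𝒪 A := Algebra.adjoin 𝒪 (Set.range (ent r)) with hA₀def
  obtain ⟨_, hA₀⟩ := H.cl.subalgebra hr.test A₀
  have hinj : Function.Injective A₀.val := Subtype.val_injective
  obtain ⟨r₀, hr₀⟩ := exists_mapM_eq_of_injective A₀.val hinj r (fun σ i j => by
    rw [Subalgebra.range_val]
    exact Algebra.subset_adjoin ⟨(σ, i, j), rfl⟩)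
  have hD₀ : IsDatum 𝒪 rbar sl 𝒟 r₀ := H.cl.restrict r₀ A₀.val hinj hA₀ (hr₀ ▸ hr)
  obtain ⟨ψ₀, hψ₀⟩ := exists_isPsi H hD₀
  have hcomp : A₀.val.comp ψ₀ = ψ := by
    have h1 := hψ₀.comp A₀.val
    rw [hr₀] at h1
    exact h1.unique hr.test hψ (fun _ => rfl)
  -- `ψ₀` is surjective
  have htop : ψ₀.range = ⊤ := by
    by_contra hne
    obtain ⟨f, f', hff', hB⟩ := H.tan hA₀ ψ₀.range hne
    have hD1 := H.cl.baseChange r₀ f H.testE hD₀
    have hD2 := H.cl.baseChange r₀ f' H.testE hD₀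
    have heq : mapM f r₀ = mapM f' r₀ := by
      apply H.sep _ _ hD1 hD2
      intro i
      rw [ent_mapM, ent_mapM]
      have h1 : ent r₀ (pt i) = ψ₀ (X i) + algebraMap 𝒪 A₀ (av (pt i)) := by
        rw [hψ₀ i]; ring
      have h2 : f (ψ₀ (X i)) = f' (ψ₀ (X i)) := hB _ ⟨X i, rfl⟩
      rw [h1, map_add, map_add, AlgHom.commutes, AlgHom.commutes, h2]
    apply hff'
    have hadj : Algebra.adjoin 𝒪 (Set.range (ent r₀)) = ⊤ := by
      have h1 : (Subtype.val ⁻¹' (Set.range (ent r)) : Set A₀) = Set.range (ent r₀) := by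
        ext x
        constructor
        · rintro ⟨idx, hidx⟩
          refine ⟨idx, ?_⟩
          apply hinj
          have h2 : ent (mapM A₀.val r₀) idx = (x : A) := by rw [hr₀]; exact hidx
          exact h2
        · rintro ⟨idx, rfl⟩
          refine ⟨idx, ?_⟩
          rw [← hr₀]
          rfl
      rw [← h1]
      exact Algebra.adjoin_adjoin_coe_preimage
    apply AlgHom.ext_of_adjoin_eq_top hadj
    rintro _ ⟨idx, rfl⟩
    have := congrArg (fun s : Gal →* M2 E => ent s idx) heq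
    simpa using this
  have hmem : r₀ σ i j ∈ ψ₀.range := by rw [htop]; exact Algebra.mem_top
  obtain ⟨t, ht⟩ := hmem
  refine ⟨t, ?_⟩
  have h2 : ψ₀ t = r₀ σ i j := ht
  show ψ t = r σ i j
  rw [← hcomp]
  show A₀.val (ψ₀ t) = r σ i j
  rw [h2, ← hr₀]
  rfl

/-- **Rigidity**: a datum is determined by its distinguished entries. -/
theorem datum_ext (H : CoreHyp 𝒪 rbar sl 𝒟 E pt av) {r r' : Gal →* M2 A}
    (hr : IsDatum 𝒪 rbar sl 𝒟 r) (hr' : IsDatum 𝒪 rbar sl 𝒟 r')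
    (h : ∀ i, ent r (pt i) = ent r' (pt i)) : r = r' := by
  obtain ⟨C, _, _, _, rC, pA, pB, hC, hpA, hpB, -⟩ := H.cl.glue r r' hr hr'
  obtain ⟨ψC, hψC⟩ := exists_isPsi H hC
  have h1 := hψC.comp pA
  have h2 := hψC.comp pB
  rw [hpA] at h1
  rw [hpB] at h2
  have h3 : pA.comp ψC = pB.comp ψC := h1.unique hr.test h2 h
  ext σ i j
  obtain ⟨t, ht⟩ := entry_mem_range H hC hψC σ i j
  have ht' : ψC t = rC σ i j := ht
  have e1 : r σ i j = pA (rC σ i j) := by rw [← hpA]; rfl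
  have e2 : r' σ i j = pB (rC σ i j) := by rw [← hpB]; rfl
  rw [e1, e2, ← ht']
  exact congrArg (fun f : MvPowerSeries ι 𝒪 →ₐ[𝒪] A => f t) h3

end Gen

end Fermat.Agent.S53
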