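import Mathlib
import Fermat.Agent.S53.Core3
import Fermat.Agent.S53.L6_helper7_Quot

/-!
# S53 core, part 4: quotients of the power series ring carrying a datum ("good" ideals)
-/

set_option autoImplicit false
set_option linter.unusedSectionVars false

namespace Fermat.Agent.S53

open IsLocalRing GaloisRep MvPowerSeries

section QuotTest

variable {𝒪 : Type} [CommRing 𝒪] [IsLocalRing 𝒪]
variable {A : Type} [CommRing A] [IsLocalRing A] [Algebra 𝒪 A]

theorem mk_mem_maximalIdeal (K : Ideal A) [IsLocalRing (A ⧸ K)] {x : A}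
    (hx : x ∈ maximalIdeal A) : Ideal.Quotient.mk K x ∈ maximalIdeal (A ⧸ K) := by
  have hl : IsLocalHom (Ideal.Quotient.mk K) :=
    IsLocalHom.of_surjective _ Ideal.Quotient.mk_surjective
  rw [mem_maximalIdeal, mem_nonunits_iff] at hx ⊢
  exact fun hu => hx (hl.map_nonunit x hu)

/-- Quotients of a local `𝒪`-algebra with residue field `k` by an open ideal are test algebras. -/
theorem isArtinianTestAlgebra_quotient [IsNoetherianRing A]
    (hloc : IsLocalHom (algebraMap 𝒪 A))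
    (hres : Function.Surjective (residue A ∘ algebraMap 𝒪 A))
    (K : Ideal A) [IsLocalRing (A ⧸ K)] (n : ℕ) (hK : maximalIdeal A ^ n ≤ K) :
    IsArtinianTestAlgebra 𝒪 (A ⧸ K) where
  isLocalHom := by
    have hl : IsLocalHom (Ideal.Quotient.mk K) :=
      IsLocalHom.of_surjective _ Ideal.Quotient.mk_surjective
    have : algebraMap 𝒪 (A ⧸ K) = (Ideal.Quotient.mk K).comp (algebraMap 𝒪 A) := rfl
    rw [this]
    exact L6.isLocalHom_comp _ hloc _ hl
  residue_surjective := by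
    intro y
    obtain ⟨y', rfl⟩ := IsLocalRing.residue_surjective y
    obtain ⟨a, rfl⟩ := Ideal.Quotient.mk_surjective y'
    obtain ⟨o, ho⟩ := hres (IsLocalRing.residue A a)
    refine ⟨o, ?_⟩
    simp only [Function.comp_apply] at ho ⊢
    have h1 : algebraMap 𝒪 A o - a ∈ maximalIdeal A := by
      rw [← IsLocalRing.residue_eq_zero_iff, map_sub, ho, sub_self]
    have h2 := mk_mem_maximalIdeal K h1
    have h3 : algebraMap 𝒪 (A ⧸ K) o - Ideal.Quotient.mk K a ∈ maximalIdeal (A ⧸ K) := by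
      have : algebraMap 𝒪 (A ⧸ K) o = Ideal.Quotient.mk K (algebraMap 𝒪 A o) := rfl
      rw [this, ← map_sub]; exact h2
    rw [← sub_eq_zero, ← map_sub, IsLocalRing.residue_eq_zero_iff]
    exact h3
  isArtinian := by
    have hle : maximalIdeal A ^ (n + 1) ≤ K :=
      le_trans (Ideal.pow_le_pow_right (Nat.le_succ n)) hK
    have hs : Function.Surjective (Ideal.Quotient.factor hle) :=
      Ideal.Quotient.factor_surjective hle
    have : IsArtinianRing (A ⧸ maximalIdeal A ^ (n + 1)) := L6.instIsArtinianRingQP A n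
    exact hs.isArtinianRing

end QuotTest

section PS

variable {𝒪 : Type} [CommRing 𝒪] [IsLocalRing 𝒪] {ι : Type}

theorem ps_isLocalHom : IsLocalHom (algebraMap 𝒪 (MvPowerSeries ι 𝒪)) := by
  refine ⟨fun a ha => ?_⟩
  rw [MvPowerSeries.isUnit_iff_constantCoeff] at ha
  have h1 : constantCoeff (algebraMap 𝒪 (MvPowerSeries ι 𝒪) a) = a := by
    rw [MvPowerSeries.algebraMap_apply, Algebra.algebraMap_self, RingHom.id_apply,
      MvPowerSeries.constantCoeff_C]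
  rwa [h1] at ha

theorem ps_residue_surjective :
    Function.Surjective (residue (MvPowerSeries ι 𝒪) ∘ algebraMap 𝒪 (MvPowerSeries ι 𝒪)) := by
  intro y
  obtain ⟨f, rfl⟩ := IsLocalRing.residue_surjective y
  refine ⟨constantCoeff f, ?_⟩
  simp only [Function.comp_apply]
  rw [← sub_eq_zero, ← map_sub, IsLocalRing.residue_eq_zero_iff, PS.mem_maximalIdeal_iff, map_sub]
  have h1 : constantCoeff (algebraMap 𝒪 (MvPowerSeries ι 𝒪) (constantCoeff f)) =
      constantCoeff f := by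
    rw [MvPowerSeries.algebraMap_apply, Algebra.algebraMap_self, RingHom.id_apply,
      MvPowerSeries.constantCoeff_C]
  rw [h1, sub_self]
  exact Ideal.zero_mem _

end PS


namespace ML

variable {P : Type*} [CommRing P] {𝔐 : Ideal P}

/-- shift a sequence of ideals by one, putting `⊤` in front -/
def shift (b : ℕ → Ideal P) : ℕ → Ideal P
  | 0 => ⊤
  | (n + 1) => b n

theorem isTower_shift {b : ℕ → Ideal P} (h1 : ∀ n, 𝔐 ^ (n + 1) ≤ b n) (h2 : Antitone b)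
    (h3 : ∀ n m, n ≤ m → b n ≤ b m ⊔ 𝔐 ^ (n + 1)) : IsTower 𝔐 (shift b) where
  pow_le := fun n => by
    cases n with
    | zero => simp [shift]
    | succ n => exact h1 n
  anti := fun n m hnm => by
    cases n with
    | zero => simp [shift]
    | succ n =>
      cases m with
      | zero => omega
      | succ m => exact h2 (by omega)
  le_sup := fun n m hnm => by
    cases n with
    | zero => simp [shift]
    | succ n =>
      cases m with
      | zero => omega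
      | succ m => exact h3 n m (by omega)

theorem iInf_shift (b : ℕ → Ideal P) : ⨅ m, shift b m = ⨅ m, b m := by
  apply le_antisymm
  · exact le_iInf fun m => iInf_le (shift b) (m + 1)
  · refine le_iInf fun m => ?_
    cases m with
    | zero => simp [shift]
    | succ m => exact iInf_le b m

theorem eq_iInf_sup_succ [IsPrecomplete 𝔐 P] {b : ℕ → Ideal P} (h1 : ∀ n, 𝔐 ^ (n + 1) ≤ b n)
    (h2 : Antitone b) (h3 : ∀ n m, n ≤ m → b n ≤ b m ⊔ 𝔐 ^ (n + 1)) (n : ℕ) :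
    b n = (⨅ m, b m) ⊔ 𝔐 ^ (n + 1) := by
  have := (isTower_shift h1 h2 h3).eq_iInf_sup (n + 1)
  rw [iInf_shift] at this
  exact this

theorem exists_lift_succ [IsPrecomplete 𝔐 P] {b : ℕ → Ideal P} (h1 : ∀ n, 𝔐 ^ (n + 1) ≤ b n)
    (h2 : Antitone b) (h3 : ∀ n m, n ≤ m → b n ≤ b m ⊔ 𝔐 ^ (n + 1))
    (p : ℕ → P) (hp : ∀ n, p (n + 1) - p n ∈ b n) : ∃ q : P, ∀ n, q - p n ∈ b n := by
  obtain ⟨q, hq⟩ := (isTower_shift h1 h2 h3).exists_lift
    (fun n => Nat.casesOn n 0 (fun k => p k)) (by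
      intro n
      cases n with
      | zero => simp [shift]
      | succ n => exact hp n)
  exact ⟨q, fun n => hq (n + 1)⟩

end ML

section Good

variable {𝒪 : Type} [CommRing 𝒪] [IsLocalRing 𝒪] [IsNoetherianRing 𝒪]
variable {rbar : Gal →* M2 (ResidueField 𝒪)} {sl : Slice 𝒪}
variable {𝒟 : ∀ ⦃A : Type⦄ [CommRing A] [IsLocalRing A] [Algebra 𝒪 A], GaloisRepAdic A → Prop}
variable {E : Type} [CommRing E] [IsLocalRing E] [Algebra 𝒪 E]
variable {ι : Type} [Finite ι] {pt : ι → Idx} {av : Idx → 𝒪}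
variable {A : Type} [CommRing A] [IsLocalRing A] [Algebra 𝒪 A]

/-- `K` is good if `P ⧸ K` carries a datum whose `ψ` is the quotient map. -/
def Good (rbar : Gal →* M2 (ResidueField 𝒪)) (sl : Slice 𝒪)
    (𝒟 : ∀ ⦃A : Type⦄ [CommRing A] [IsLocalRing A] [Algebra 𝒪 A], GaloisRepAdic A → Prop)
    (pt : ι → Idx) (av : Idx → 𝒪) (K : Ideal (MvPowerSeries ι 𝒪)) : Prop :=
  ∃ (_ : IsLocalRing (MvPowerSeries ι 𝒪 ⧸ K)) (r : Gal →* M2 (MvPowerSeries ι 𝒪 ⧸ K)),
    IsDatum 𝒪 rbar sl 𝒟 r ∧ IsPsi pt av r (Ideal.Quotient.mkₐ 𝒪 K)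

theorem isLocalRing_quotient {K : Ideal (MvPowerSeries ι 𝒪)} (hK : K ≠ ⊤) :
    IsLocalRing (MvPowerSeries ι 𝒪 ⧸ K) := by
  have : Nontrivial (MvPowerSeries ι 𝒪 ⧸ K) := Ideal.Quotient.nontrivial_iff.2 hK
  exact IsLocalRing.of_surjective' (Ideal.Quotient.mk K) Ideal.Quotient.mk_surjective

/-- the datum descends to the quotient by the kernel of its `ψ` -/
theorem good_ker (H : CoreHyp 𝒪 rbar sl 𝒟 E pt av) {r : Gal →* M2 A}
    (hr : IsDatum 𝒪 rbar sl 𝒟 r) {ψ : MvPowerSeries ι 𝒪 →ₐ[𝒪] A} (hψ : IsPsi pt av r ψ) :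
    ∃ (_ : IsLocalRing (MvPowerSeries ι 𝒪 ⧸ RingHom.ker ψ))
      (rK : Gal →* M2 (MvPowerSeries ι 𝒪 ⧸ RingHom.ker ψ)),
      IsDatum 𝒪 rbar sl 𝒟 rK ∧ IsPsi pt av rK (Ideal.Quotient.mkₐ 𝒪 (RingHom.ker ψ)) ∧
        mapM (Ideal.kerLiftAlg ψ) rK = r := by
  have hloc : IsLocalRing (MvPowerSeries ι 𝒪 ⧸ RingHom.ker ψ) :=
    isLocalRing_quotient (RingHom.ker_ne_top ψ)
  refine ⟨hloc, ?_⟩
  obtain ⟨n, hn⟩ := exists_maximalIdeal_pow_eq_bot hr.test.isArtinian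
  have htest : IsArtinianTestAlgebra 𝒪 (MvPowerSeries ι 𝒪 ⧸ RingHom.ker ψ) :=
    isArtinianTestAlgebra_quotient ps_isLocalHom ps_residue_surjective _ n
      (psHom_mem_ker hr.test hn ψ)
  have hinj := Ideal.kerLiftAlg_injective ψ
  obtain ⟨rK, hrK⟩ := exists_mapM_eq_of_injective (Ideal.kerLiftAlg ψ) hinj r (fun σ i j => by
    obtain ⟨t, ht⟩ := entry_mem_range H hr hψ σ i j
    refine ⟨Ideal.Quotient.mk _ t, ?_⟩
    have ht' : ψ t = r σ i j := ht
    rw [← ht']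
    exact Ideal.kerLiftAlg_mk ψ t)
  have hD : IsDatum 𝒪 rbar sl 𝒟 rK := H.cl.restrict rK _ hinj htest (hrK ▸ hr)
  refine ⟨rK, hD, ?_, hrK⟩
  intro i
  apply hinj
  rw [map_sub, AlgHom.commutes, ← ent_mapM, hrK, ← hψ i]
  exact Ideal.kerLiftAlg_mk ψ (X i)

theorem Good.ne_top {K : Ideal (MvPowerSeries ι 𝒪)} (hK : Good rbar sl 𝒟 pt av K) : K ≠ ⊤ := by
  obtain ⟨_, -⟩ := hK
  exact Ideal.Quotient.nontrivial_iff.1 inferInstance

theorem Good.le_maximalIdeal {K : Ideal (MvPowerSeries ι 𝒪)} (hK : Good rbar sl 𝒟 pt av K) :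
    K ≤ maximalIdeal (MvPowerSeries ι 𝒪) :=
  IsLocalRing.le_maximalIdeal hK.ne_top

theorem Good.exists_pow_le {K : Ideal (MvPowerSeries ι 𝒪)} (hK : Good rbar sl 𝒟 pt av K) :
    ∃ n, maximalIdeal (MvPowerSeries ι 𝒪) ^ (n + 1) ≤ K := by
  obtain ⟨_, r, hr, -⟩ := hK
  obtain ⟨n, hn⟩ := exists_maximalIdeal_pow_eq_bot hr.test.isArtinian
  have h1 := psHom_mem_ker hr.test hn (Ideal.Quotient.mkₐ 𝒪 K)
  have h2 : RingHom.ker (Ideal.Quotient.mkₐ 𝒪 K) = K := by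
    ext t
    rw [RingHom.mem_ker]
    exact Ideal.Quotient.eq_zero_iff_mem
  rw [h2] at h1
  exact ⟨n, le_trans (Ideal.pow_le_pow_right (Nat.le_succ n)) h1⟩

theorem Good.mono (H : CoreHyp 𝒪 rbar sl 𝒟 E pt av) {K K' : Ideal (MvPowerSeries ι 𝒪)}
    (hK : Good rbar sl 𝒟 pt av K) (hKK' : K ≤ K') (hK' : K' ≠ ⊤) : Good rbar sl 𝒟 pt av K' := by
  obtain ⟨n, hn⟩ := hK.exists_pow_le
  obtain ⟨_, r, hr, hψ⟩ := hK
  have hloc' : IsLocalRing (MvPowerSeries ι 𝒪 ⧸ K') := isLocalRing_quotient hK'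
  have htest : IsArtinianTestAlgebra 𝒪 (MvPowerSeries ι 𝒪 ⧸ K') :=
    isArtinianTestAlgebra_quotient ps_isLocalHom ps_residue_surjective _ (n + 1)
      (le_trans hn hKK')
  refine ⟨hloc', mapM (Ideal.Quotient.factorₐ 𝒪 hKK') r, ?_, ?_⟩
  · exact H.cl.baseChange r _ htest hr
  · have h1 := hψ.comp (Ideal.Quotient.factorₐ 𝒪 hKK')
    have h2 : (Ideal.Quotient.factorₐ 𝒪 hKK').comp (Ideal.Quotient.mkₐ 𝒪 K) =
        Ideal.Quotient.mkₐ 𝒪 K' := by
      ext t; rfl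
    rwa [h2] at h1

theorem Good.inf (H : CoreHyp 𝒪 rbar sl 𝒟 E pt av) {K K' : Ideal (MvPowerSeries ι 𝒪)}
    (hK : Good rbar sl 𝒟 pt av K) (hK' : Good rbar sl 𝒟 pt av K') :
    Good rbar sl 𝒟 pt av (K ⊓ K') := by
  obtain ⟨_, r, hr, hψ⟩ := hK
  obtain ⟨_, r', hr', hψ'⟩ := hK'
  obtain ⟨C, _, _, _, rC, pA, pB, hC, hpA, hpB, hinj⟩ := H.cl.glue r r' hr hr'
  obtain ⟨ψC, hψC⟩ := exists_isPsi H hC
  have h1 := hψC.comp pA
  have h2 := hψC.comp pB
  rw [hpA] at h1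
  rw [hpB] at h2
  have e1 : pA.comp ψC = Ideal.Quotient.mkₐ 𝒪 K := h1.unique hr.test hψ (fun _ => rfl)
  have e2 : pB.comp ψC = Ideal.Quotient.mkₐ 𝒪 K' := h2.unique hr'.test hψ' (fun _ => rfl)
  have hker : RingHom.ker ψC = K ⊓ K' := by
    ext t
    rw [RingHom.mem_ker, Ideal.mem_inf]
    have a1 : pA (ψC t) = Ideal.Quotient.mk K t :=
      congrArg (fun f : MvPowerSeries ι 𝒪 →ₐ[𝒪] _ => f t) e1
    have a2 : pB (ψC t) = Ideal.Quotient.mk K' t :=
      congrArg (fun f : MvPowerSeries ι 𝒪 →ₐ[𝒪] _ => f t) e2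
    constructor
    · intro h0
      rw [h0, map_zero] at a1 a2
      exact ⟨Ideal.Quotient.eq_zero_iff_mem.1 a1.symm, Ideal.Quotient.eq_zero_iff_mem.1 a2.symm⟩
    · rintro ⟨m1, m2⟩
      apply hinj
      simp only [map_zero]
      rw [a1, a2, Ideal.Quotient.eq_zero_iff_mem.2 m1, Ideal.Quotient.eq_zero_iff_mem.2 m2]
  obtain ⟨hl, rK, hD, hpsi, -⟩ := good_ker H hC hψC
  rw [← hker]
  exact ⟨hl, rK, hD, hpsi⟩

theorem good_of_datum (H : CoreHyp 𝒪 rbar sl 𝒟 E pt av) {r : Gal →* M2 A}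
    (hr : IsDatum 𝒪 rbar sl 𝒟 r) {ψ : MvPowerSeries ι 𝒪 →ₐ[𝒪] A} (hψ : IsPsi pt av r ψ) :
    Good rbar sl 𝒟 pt av (RingHom.ker ψ) := by
  obtain ⟨hl, rK, hD, hpsi, -⟩ := good_ker H hr hψ
  exact ⟨hl, rK, hD, hpsi⟩

/-- there is a good ideal (from the trivial datum) containing the maximal ideal -/
theorem exists_good (H : CoreHyp 𝒪 rbar sl 𝒟 E pt av) :
    ∃ K : Ideal (MvPowerSeries ι 𝒪), Good rbar sl 𝒟 pt av K ∧
      maximalIdeal (MvPowerSeries ι 𝒪) ≤ K := by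
  have htriv := H.cl.trivial
  obtain ⟨ψ, hψ⟩ := exists_isPsi H htriv
  refine ⟨RingHom.ker ψ, good_of_datum H htriv hψ, ?_⟩
  have h1 : maximalIdeal (ResidueField 𝒪) ^ 1 = ⊥ := by
    rw [pow_one]; exact IsLocalRing.maximalIdeal_eq_bot
  have := psHom_mem_ker htriv.test h1 ψ
  rwa [pow_one] at this

end Good

end Fermat.Agent.S53
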