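import Mathlib
import Fermat.Agent.S53.Core4
import Fermat.Prelude.Thm_IsLocalRing_isAdicComplete_of_module_finite

/-!
# S53 core, part 5: the tower of minimal good ideals and the quotient ring
-/

set_option autoImplicit false
set_option linter.unusedSectionVars false

namespace Fermat.Agent.S53

open IsLocalRing GaloisRep MvPowerSeries

/-- Lift a family of matrix representations along a jointly injective family of algebra homs. -/
theorem exists_mapM_eq_of_family {𝒪 A : Type} [CommRing 𝒪] [CommRing A] [Algebra 𝒪 A] {κ : Type}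
    {B : κ → Type} [∀ k, CommRing (B k)] [∀ k, Algebra 𝒪 (B k)] (φ : ∀ k, A →ₐ[𝒪] B k)
    (hφ : ∀ x y : A, (∀ k, φ k x = φ k y) → x = y) (r : ∀ k, Gal →* M2 (B k))
    (h : ∀ σ i j, ∃ a : A, ∀ k, φ k a = r k σ i j) :
    ∃ r' : Gal →* M2 A, ∀ k, mapM (φ k) r' = r k := by
  choose e he using h
  have hinj : ∀ M M' : M2 A, (∀ k, ((φ k).mapMatrix : M2 A →ₐ[𝒪] M2 (B k)) M =
      ((φ k).mapMatrix : M2 A →ₐ[𝒪] M2 (B k)) M') → M = M' := by
    intro M M' hMM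
    ext i j
    apply hφ
    intro k
    have := congrFun (congrFun (hMM k) i) j
    simpa using this
  have hmap : ∀ k σ, ((φ k).mapMatrix : M2 A →ₐ[𝒪] M2 (B k)) (Matrix.of fun i j => e σ i j) =
      r k σ := by
    intro k σ
    ext i j
    simp [he]
  refine ⟨{ toFun := fun σ => Matrix.of fun i j => e σ i j
            map_one' := ?_
            map_mul' := ?_ }, ?_⟩
  · apply hinj
    intro k
    rw [hmap, map_one, map_one]
  · intro σ τ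
    apply hinj
    intro k
    rw [hmap, map_mul (r k), ← hmap k σ, ← hmap k τ, map_mul]
  · intro k
    ext σ i j
    exact he σ i j k

/-- In a ring with Artinian quotient `P ⧸ I`, an inf-closed nonempty set of ideals containing `I`
has a least element. -/
theorem exists_least_of_inf_closed {P : Type*} [CommRing P] (I : Ideal P)
    [IsArtinianRing (P ⧸ I)] (S : Set (Ideal P)) (hne : S.Nonempty) (hI : ∀ K ∈ S, I ≤ K)
    (hinf : ∀ K ∈ S, ∀ K' ∈ S, K ⊓ K' ∈ S) : ∃ K₀ ∈ S, ∀ K ∈ S, K₀ ≤ K := by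
  have hmk : Function.Surjective (Ideal.Quotient.mk I) := Ideal.Quotient.mk_surjective
  have hcm : ∀ K : Ideal P, I ≤ K →
      Ideal.comap (Ideal.Quotient.mk I) (Ideal.map (Ideal.Quotient.mk I) K) = K := by
    intro K hK
    rw [Ideal.comap_map_of_surjective _ hmk, ← RingHom.ker_eq_comap_bot, Ideal.mk_ker]
    exact sup_eq_left.2 hK
  let T : Set (Ideal (P ⧸ I)) := {J | Ideal.comap (Ideal.Quotient.mk I) J ∈ S}
  have hT : T.Nonempty := by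
    obtain ⟨K, hK⟩ := hne
    refine ⟨Ideal.map (Ideal.Quotient.mk I) K, ?_⟩
    show Ideal.comap (Ideal.Quotient.mk I) (Ideal.map (Ideal.Quotient.mk I) K) ∈ S
    rw [hcm K (hI K hK)]
    exact hK
  obtain ⟨J₀, hJ₀, hmin⟩ := IsArtinian.set_has_minimal T hT
  have hJ₀' : Ideal.comap (Ideal.Quotient.mk I) J₀ ∈ S := hJ₀
  refine ⟨_, hJ₀', fun K hK => ?_⟩
  have hinf' := hinf K hK _ hJ₀'
  have hJ₁ : Ideal.map (Ideal.Quotient.mk I) (K ⊓ Ideal.comap (Ideal.Quotient.mk I) J₀) ∈ T := by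
    show Ideal.comap (Ideal.Quotient.mk I)
      (Ideal.map (Ideal.Quotient.mk I) (K ⊓ Ideal.comap (Ideal.Quotient.mk I) J₀)) ∈ S
    rw [hcm _ (hI _ hinf')]; exact hinf'
  have hle : Ideal.map (Ideal.Quotient.mk I) (K ⊓ Ideal.comap (Ideal.Quotient.mk I) J₀) ≤ J₀ := by
    rw [Ideal.map_le_iff_le_comap]; exact inf_le_right
  have heq : Ideal.map (Ideal.Quotient.mk I) (K ⊓ Ideal.comap (Ideal.Quotient.mk I) J₀) = J₀ :=
    eq_of_le_of_not_lt hle (hmin _ hJ₁)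
  have h3 : Ideal.comap (Ideal.Quotient.mk I) J₀ =
      K ⊓ Ideal.comap (Ideal.Quotient.mk I) J₀ := by
    conv_lhs => rw [← heq]
    exact hcm _ (hI _ hinf')
  rw [h3]; exact inf_le_left

section QuotRing

variable {𝒪 : Type} [CommRing 𝒪] [IsLocalRing 𝒪] [IsNoetherianRing 𝒪] {ι : Type} [Finite ι]

theorem quot_isAdicComplete [IsAdicComplete (maximalIdeal 𝒪) 𝒪] (J : Ideal (MvPowerSeries ι 𝒪))
    [IsLocalRing (MvPowerSeries ι 𝒪 ⧸ J)] :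
    IsAdicComplete (maximalIdeal (MvPowerSeries ι 𝒪 ⧸ J)) (MvPowerSeries ι 𝒪 ⧸ J) := by
  have : IsLocalHom (algebraMap (MvPowerSeries ι 𝒪) (MvPowerSeries ι 𝒪 ⧸ J)) :=
    IsLocalHom.of_surjective _ Ideal.Quotient.mk_surjective
  exact IsLocalRing.isAdicComplete_of_module_finite (𝒪 := MvPowerSeries ι 𝒪)

theorem quot_isLocalHom (J : Ideal (MvPowerSeries ι 𝒪)) [IsLocalRing (MvPowerSeries ι 𝒪 ⧸ J)] :
    IsLocalHom (algebraMap 𝒪 (MvPowerSeries ι 𝒪 ⧸ J)) := by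
  have hl : IsLocalHom (Ideal.Quotient.mk J) :=
    IsLocalHom.of_surjective _ Ideal.Quotient.mk_surjective
  have : algebraMap 𝒪 (MvPowerSeries ι 𝒪 ⧸ J) =
      (Ideal.Quotient.mk J).comp (algebraMap 𝒪 (MvPowerSeries ι 𝒪)) := rfl
  rw [this]
  exact L6.isLocalHom_comp _ ps_isLocalHom _ hl

theorem quot_residue_surjective (J : Ideal (MvPowerSeries ι 𝒪))
    [IsLocalRing (MvPowerSeries ι 𝒪 ⧸ J)] :
    Function.Surjective (residue (MvPowerSeries ι 𝒪 ⧸ J) ∘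
      algebraMap 𝒪 (MvPowerSeries ι 𝒪 ⧸ J)) := by
  intro y
  obtain ⟨y', rfl⟩ := IsLocalRing.residue_surjective y
  obtain ⟨a, rfl⟩ := Ideal.Quotient.mk_surjective y'
  obtain ⟨o, ho⟩ := ps_residue_surjective (𝒪 := 𝒪) (ι := ι) (IsLocalRing.residue _ a)
  refine ⟨o, ?_⟩
  simp only [Function.comp_apply] at ho ⊢
  have h1 : algebraMap 𝒪 (MvPowerSeries ι 𝒪) o - a ∈ maximalIdeal (MvPowerSeries ι 𝒪) := by
    rw [← IsLocalRing.residue_eq_zero_iff, map_sub, ho, sub_self]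
  have h2 := mk_mem_maximalIdeal J h1
  have h3 : algebraMap 𝒪 (MvPowerSeries ι 𝒪 ⧸ J) o - Ideal.Quotient.mk J a ∈
      maximalIdeal (MvPowerSeries ι 𝒪 ⧸ J) := by
    have : algebraMap 𝒪 (MvPowerSeries ι 𝒪 ⧸ J) o =
        Ideal.Quotient.mk J (algebraMap 𝒪 (MvPowerSeries ι 𝒪) o) := rfl
    rw [this, ← map_sub]; exact h2
  rw [← sub_eq_zero, ← map_sub, IsLocalRing.residue_eq_zero_iff]
  exact h3

end QuotRing

section Tower

variable {𝒪 : Type} [CommRing 𝒪] [IsLocalRing 𝒪] [IsNoetherianRing 𝒪]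
variable {rbar : Gal →* M2 (ResidueField 𝒪)} {sl : Slice 𝒪}
variable {𝒟 : ∀ ⦃A : Type⦄ [CommRing A] [IsLocalRing A] [Algebra 𝒪 A], GaloisRepAdic A → Prop}
variable {E : Type} [CommRing E] [IsLocalRing E] [Algebra 𝒪 E]
variable {ι : Type} [Finite ι] {pt : ι → Idx} {av : Idx → 𝒪}

/-- good ideals of level `n` -/
def lev (rbar : Gal →* M2 (ResidueField 𝒪)) (sl : Slice 𝒪)
    (𝒟 : ∀ ⦃A : Type⦄ [CommRing A] [IsLocalRing A] [Algebra 𝒪 A], GaloisRepAdic A → Prop)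
    (pt : ι → Idx) (av : Idx → 𝒪) (n : ℕ) : Set (Ideal (MvPowerSeries ι 𝒪)) :=
  {K | Good rbar sl 𝒟 pt av K ∧ maximalIdeal (MvPowerSeries ι 𝒪) ^ (n + 1) ≤ K}

/-- the smallest good ideal of level `n` -/
noncomputable def bb (rbar : Gal →* M2 (ResidueField 𝒪)) (sl : Slice 𝒪)
    (𝒟 : ∀ ⦃A : Type⦄ [CommRing A] [IsLocalRing A] [Algebra 𝒪 A], GaloisRepAdic A → Prop)
    (pt : ι → Idx) (av : Idx → 𝒪) (n : ℕ) : Ideal (MvPowerSeries ι 𝒪) :=
  sInf (lev rbar sl 𝒟 pt av n)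

theorem bb_mem (H : CoreHyp 𝒪 rbar sl 𝒟 E pt av) (n : ℕ) :
    bb rbar sl 𝒟 pt av n ∈ lev rbar sl 𝒟 pt av n := by
  have hart : IsArtinianRing
      (MvPowerSeries ι 𝒪 ⧸ maximalIdeal (MvPowerSeries ι 𝒪) ^ (n + 1)) :=
    L6.instIsArtinianRingQP (MvPowerSeries ι 𝒪) n
  have hne : (lev rbar sl 𝒟 pt av n).Nonempty := by
    obtain ⟨K, hK, hK'⟩ := exists_good H
    exact ⟨K, hK, le_trans (Ideal.pow_le_self (Nat.succ_ne_zero n)) hK'⟩
  obtain ⟨K₀, hK₀, hmin⟩ := exists_least_of_inf_closed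
    (maximalIdeal (MvPowerSeries ι 𝒪) ^ (n + 1)) (lev rbar sl 𝒟 pt av n) hne
    (fun K hK => hK.2) (fun K hK K' hK' => ⟨hK.1.inf H hK'.1, le_inf hK.2 hK'.2⟩)
  have hbb : bb rbar sl 𝒟 pt av n = K₀ := le_antisymm (sInf_le hK₀) (le_sInf hmin)
  rw [hbb]; exact hK₀

theorem bb_good (H : CoreHyp 𝒪 rbar sl 𝒟 E pt av) (n : ℕ) :
    Good rbar sl 𝒟 pt av (bb rbar sl 𝒟 pt av n) := (bb_mem H n).1

theorem pow_le_bb (H : CoreHyp 𝒪 rbar sl 𝒟 E pt av) (n : ℕ) :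
    maximalIdeal (MvPowerSeries ι 𝒪) ^ (n + 1) ≤ bb rbar sl 𝒟 pt av n := (bb_mem H n).2

theorem bb_le (n : ℕ) {K : Ideal (MvPowerSeries ι 𝒪)} (hK : Good rbar sl 𝒟 pt av K)
    (h : maximalIdeal (MvPowerSeries ι 𝒪) ^ (n + 1) ≤ K) : bb rbar sl 𝒟 pt av n ≤ K :=
  sInf_le ⟨hK, h⟩

theorem bb_anti (H : CoreHyp 𝒪 rbar sl 𝒟 E pt av) : Antitone (bb rbar sl 𝒟 pt av) :=
  fun n m hnm => bb_le m (bb_good H n)
    (le_trans (Ideal.pow_le_pow_right (by omega)) (pow_le_bb H n))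

theorem bb_le_sup (H : CoreHyp 𝒪 rbar sl 𝒟 E pt av) (n m : ℕ) (_hnm : n ≤ m) :
    bb rbar sl 𝒟 pt av n ≤
      bb rbar sl 𝒟 pt av m ⊔ maximalIdeal (MvPowerSeries ι 𝒪) ^ (n + 1) := by
  apply bb_le n ?_ le_sup_right
  apply (bb_good H m).mono H le_sup_left
  intro htop
  have h1 : bb rbar sl 𝒟 pt av m ⊔ maximalIdeal (MvPowerSeries ι 𝒪) ^ (n + 1) ≤
      maximalIdeal (MvPowerSeries ι 𝒪) :=
    sup_le (bb_good H m).le_maximalIdeal (Ideal.pow_le_self (Nat.succ_ne_zero n))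
  rw [htop] at h1
  exact (maximalIdeal.isMaximal _).ne_top (top_le_iff.1 h1)

/-- the intersection of all good ideals -/
noncomputable def JJ (rbar : Gal →* M2 (ResidueField 𝒪)) (sl : Slice 𝒪)
    (𝒟 : ∀ ⦃A : Type⦄ [CommRing A] [IsLocalRing A] [Algebra 𝒪 A], GaloisRepAdic A → Prop)
    (pt : ι → Idx) (av : Idx → 𝒪) : Ideal (MvPowerSeries ι 𝒪) :=
  ⨅ n, bb rbar sl 𝒟 pt av n

theorem JJ_le_bb (n : ℕ) : JJ rbar sl 𝒟 pt av ≤ bb rbar sl 𝒟 pt av n := iInf_le _ n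

theorem JJ_le_of_good {K : Ideal (MvPowerSeries ι 𝒪)} (hK : Good rbar sl 𝒟 pt av K) :
    JJ rbar sl 𝒟 pt av ≤ K := by
  obtain ⟨n, hn⟩ := hK.exists_pow_le
  exact le_trans (JJ_le_bb n) (bb_le n hK hn)

theorem bb_eq [IsAdicComplete (maximalIdeal 𝒪) 𝒪] (H : CoreHyp 𝒪 rbar sl 𝒟 E pt av) (n : ℕ) :
    bb rbar sl 𝒟 pt av n =
      JJ rbar sl 𝒟 pt av ⊔ maximalIdeal (MvPowerSeries ι 𝒪) ^ (n + 1) :=
  ML.eq_iInf_sup_succ (𝔐 := maximalIdeal (MvPowerSeries ι 𝒪)) (b := bb rbar sl 𝒟 pt av)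
    (pow_le_bb H) (bb_anti H) (bb_le_sup H) n

theorem JJ_ne_top (H : CoreHyp 𝒪 rbar sl 𝒟 E pt av) : JJ rbar sl 𝒟 pt av ≠ ⊤ := by
  intro htop
  have h1 := JJ_le_bb (rbar := rbar) (sl := sl) (𝒟 := 𝒟) (pt := pt) (av := av) 0
  rw [htop] at h1
  exact (bb_good H 0).ne_top (top_le_iff.1 h1)

end Tower

end Fermat.Agent.S53
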