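import Mathlib
import Fermat.Agent.S53.Core5

/-!
# S53 core, part 6: the universal strict normal lift
-/

set_option autoImplicit false
set_option linter.unusedSectionVars false

namespace Fermat.Agent.S53

open IsLocalRing GaloisRep MvPowerSeries

section Main

variable {𝒪 : Type} [CommRing 𝒪] [IsLocalRing 𝒪] [IsNoetherianRing 𝒪]
variable {rbar : Gal →* M2 (ResidueField 𝒪)} {sl : Slice 𝒪}
variable {𝒟 : ∀ ⦃A : Type⦄ [CommRing A] [IsLocalRing A] [Algebra 𝒪 A], GaloisRepAdic A → Prop}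
variable {E : Type} [CommRing E] [IsLocalRing E] [Algebra 𝒪 E]
variable {ι : Type} [Finite ι] {pt : ι → Idx} {av : Idx → 𝒪}

/-- the reduction maps from the universal ring to the levels of the tower -/
noncomputable abbrev red (rbar : Gal →* M2 (ResidueField 𝒪)) (sl : Slice 𝒪)
    (𝒟 : ∀ ⦃A : Type⦄ [CommRing A] [IsLocalRing A] [Algebra 𝒪 A], GaloisRepAdic A → Prop)
    (pt : ι → Idx) (av : Idx → 𝒪) (n : ℕ) :
    (MvPowerSeries ι 𝒪 ⧸ JJ rbar sl 𝒟 pt av) →ₐ[𝒪]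
      (MvPowerSeries ι 𝒪 ⧸ bb rbar sl 𝒟 pt av n) :=
  Ideal.Quotient.factorₐ 𝒪 (JJ_le_bb n)

theorem red_jointly_injective (x y : MvPowerSeries ι 𝒪 ⧸ JJ rbar sl 𝒟 pt av)
    (h : ∀ n, red rbar sl 𝒟 pt av n x = red rbar sl 𝒟 pt av n y) : x = y := by
  obtain ⟨s, rfl⟩ := Ideal.Quotient.mk_surjective x
  obtain ⟨t, rfl⟩ := Ideal.Quotient.mk_surjective y
  rw [Ideal.Quotient.eq, JJ, Ideal.mem_iInf]
  intro n
  have h1 : Ideal.Quotient.mk (bb rbar sl 𝒟 pt av n) s =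
      Ideal.Quotient.mk (bb rbar sl 𝒟 pt av n) t := h n
  exact Ideal.Quotient.eq.1 h1

/-- compatible data on the tower -/
theorem exists_tower_data (H : CoreHyp 𝒪 rbar sl 𝒟 E pt av) :
    ∃ (_ : ∀ n, IsLocalRing (MvPowerSeries ι 𝒪 ⧸ bb rbar sl 𝒟 pt av n))
      (rn : ∀ n, Gal →* M2 (MvPowerSeries ι 𝒪 ⧸ bb rbar sl 𝒟 pt av n)),
      (∀ n, IsDatum 𝒪 rbar sl 𝒟 (rn n)) ∧
      (∀ n, IsPsi pt av (rn n) (Ideal.Quotient.mkₐ 𝒪 (bb rbar sl 𝒟 pt av n))) ∧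
      ∀ n, mapM (Ideal.Quotient.factorₐ 𝒪 (bb_anti H (Nat.le_succ n))) (rn (n + 1)) = rn n := by
  have hloc : ∀ n, IsLocalRing (MvPowerSeries ι 𝒪 ⧸ bb rbar sl 𝒟 pt av n) :=
    fun n => isLocalRing_quotient (bb_good H n).ne_top
  have hG : ∀ n, ∃ r : Gal →* M2 (MvPowerSeries ι 𝒪 ⧸ bb rbar sl 𝒟 pt av n),
      IsDatum 𝒪 rbar sl 𝒟 r ∧ IsPsi pt av r (Ideal.Quotient.mkₐ 𝒪 (bb rbar sl 𝒟 pt av n)) := by
    intro n
    obtain ⟨_, r, h1, h2⟩ := bb_good H n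
    exact ⟨r, h1, h2⟩
  choose rn h1 h2 using hG
  refine ⟨hloc, rn, h1, h2, fun n => ?_⟩
  have hD := H.cl.baseChange (rn (n + 1))
    (Ideal.Quotient.factorₐ 𝒪 (bb_anti H (Nat.le_succ n))) (h1 n).test (h1 (n + 1))
  apply datum_ext H hD (h1 n)
  intro i
  have e1 := (h2 (n + 1)).comp (Ideal.Quotient.factorₐ 𝒪 (bb_anti H (Nat.le_succ n))) i
  have e2 := h2 n i
  have e3 : ((Ideal.Quotient.factorₐ 𝒪 (bb_anti H (Nat.le_succ n))).comp
      (Ideal.Quotient.mkₐ 𝒪 (bb rbar sl 𝒟 pt av (n + 1)))) (X i) =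
      Ideal.Quotient.mkₐ 𝒪 (bb rbar sl 𝒟 pt av n) (X i) := rfl
  rw [e3, e2] at e1
  exact (sub_left_inj.1 e1).symm


variable [IsAdicComplete (maximalIdeal 𝒪) 𝒪]

/-- compatible entries lift to the universal ring -/
theorem exists_entry (H : CoreHyp 𝒪 rbar sl 𝒟 E pt av)
    (x : ∀ n, MvPowerSeries ι 𝒪 ⧸ bb rbar sl 𝒟 pt av n)
    (hx : ∀ n, Ideal.Quotient.factorₐ 𝒪 (bb_anti H (Nat.le_succ n)) (x (n + 1)) = x n) :
    ∃ a : MvPowerSeries ι 𝒪 ⧸ JJ rbar sl 𝒟 pt av, ∀ n, red rbar sl 𝒟 pt av n a = x n := by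
  have hp : ∀ n, ∃ p : MvPowerSeries ι 𝒪, Ideal.Quotient.mk (bb rbar sl 𝒟 pt av n) p = x n :=
    fun n => Ideal.Quotient.mk_surjective _
  choose p hp using hp
  obtain ⟨q, hq⟩ := ML.exists_lift_succ (𝔐 := maximalIdeal (MvPowerSeries ι 𝒪))
    (b := bb rbar sl 𝒟 pt av) (pow_le_bb H) (bb_anti H) (bb_le_sup H) p (by
    intro n
    rw [← Ideal.Quotient.eq, hp n, ← hx n, ← hp (n + 1)]
    rfl)
  refine ⟨Ideal.Quotient.mk _ q, fun n => ?_⟩
  rw [← hp n]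
  exact Ideal.Quotient.eq.2 (hq n)

/-- **The core theorem**: the universal strict normal lift. -/
theorem core_main (H : CoreHyp 𝒪 rbar sl 𝒟 E pt av) :
    ∃ (_ : IsLocalRing (MvPowerSeries ι 𝒪 ⧸ JJ rbar sl 𝒟 pt av))
      (rR : Gal →* M2 (MvPowerSeries ι 𝒪 ⧸ JJ rbar sl 𝒟 pt av)),
      MatCont rR ∧ IsStrictLift 𝒪 rbar rR ∧ IsNormal sl rR ∧
      (∀ n, IsDatum 𝒪 rbar sl 𝒟
        (mapM (L6.qpₐ 𝒪 (MvPowerSeries ι 𝒪 ⧸ JJ rbar sl 𝒟 pt av) n) rR)) ∧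
      ∀ (B : Type) [CommRing B] [IsLocalRing B] [Algebra 𝒪 B] (r : Gal →* M2 B),
        IsDatum 𝒪 rbar sl 𝒟 r →
          ∃! φ : (MvPowerSeries ι 𝒪 ⧸ JJ rbar sl 𝒟 pt av) →ₐ[𝒪] B, mapM φ rR = r := by
  have hR : IsLocalRing (MvPowerSeries ι 𝒪 ⧸ JJ rbar sl 𝒟 pt av) :=
    isLocalRing_quotient (JJ_ne_top H)
  obtain ⟨hloc, rn, h1, h2, hcompat⟩ := exists_tower_data H
  -- the limit representation
  obtain ⟨rR, hrR⟩ := exists_mapM_eq_of_family (red rbar sl 𝒟 pt av) red_jointly_injective rn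
    (fun σ i j => exists_entry H (fun n => rn n σ i j) (fun n => by
      have := congrArg (fun s : Gal →* M2 _ => s σ i j) (hcompat n)
      exact this))
  have hent : ∀ n σ i j, red rbar sl 𝒟 pt av n (rR σ i j) = rn n σ i j := by
    intro n σ i j
    have := congrArg (fun s : Gal →* M2 _ => s σ i j) (hrR n)
    exact this
  refine ⟨hR, rR, ?_⟩
  -- the maps to the Artinian quotients of `R`
  have hτ : ∀ n, ∃ τ : (MvPowerSeries ι 𝒪 ⧸ bb rbar sl 𝒟 pt av n) →ₐ[𝒪]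
      L6.QP (MvPowerSeries ι 𝒪 ⧸ JJ rbar sl 𝒟 pt av) n,
      τ.comp (red rbar sl 𝒟 pt av n) = L6.qpₐ 𝒪 (MvPowerSeries ι 𝒪 ⧸ JJ rbar sl 𝒟 pt av) n := by
    intro n
    have hker : ∀ t ∈ bb rbar sl 𝒟 pt av n,
        ((L6.qpₐ 𝒪 (MvPowerSeries ι 𝒪 ⧸ JJ rbar sl 𝒟 pt av) n).comp
          (Ideal.Quotient.mkₐ 𝒪 (JJ rbar sl 𝒟 pt av))) t = 0 := by
      intro t ht
      rw [bb_eq H n] at ht
      obtain ⟨j, hj, m, hm, rfl⟩ := Submodule.mem_sup.1 ht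
      have e1 : (Ideal.Quotient.mkₐ 𝒪 (JJ rbar sl 𝒟 pt av)) j = 0 :=
        Ideal.Quotient.eq_zero_iff_mem.2 hj
      have e2 : (L6.qpₐ 𝒪 (MvPowerSeries ι 𝒪 ⧸ JJ rbar sl 𝒟 pt av) n)
          ((Ideal.Quotient.mkₐ 𝒪 (JJ rbar sl 𝒟 pt av)) m) = 0 := by
        apply Ideal.Quotient.eq_zero_iff_mem.2
        exact map_maximalIdeal_pow_le (quot_residue_surjective _)
          (Ideal.Quotient.mkₐ 𝒪 (JJ rbar sl 𝒟 pt av)) (n + 1) hm
      rw [AlgHom.comp_apply, map_add, map_add, e1, map_zero, zero_add, e2]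
    refine ⟨Ideal.Quotient.liftₐ (bb rbar sl 𝒟 pt av n) _ hker, ?_⟩
    apply AlgHom.ext
    intro x
    obtain ⟨t, rfl⟩ := Ideal.Quotient.mk_surjective x
    rfl
  choose τ hτ using hτ
  have hqp : ∀ n (x : MvPowerSeries ι 𝒪 ⧸ JJ rbar sl 𝒟 pt av),
      L6.qpₐ 𝒪 (MvPowerSeries ι 𝒪 ⧸ JJ rbar sl 𝒟 pt av) n x =
        τ n (red rbar sl 𝒟 pt av n x) := by
    intro n x
    rw [← hτ n]
    rfl
  have hPsiR : IsPsi pt av rR (Ideal.Quotient.mkₐ 𝒪 (JJ rbar sl 𝒟 pt av)) := by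
    intro i
    apply red_jointly_injective
    intro n
    rw [map_sub, AlgHom.commutes]
    have e1 : red rbar sl 𝒟 pt av n (ent rR (pt i)) = ent (rn n) (pt i) := hent n _ _ _
    rw [e1, ← h2 n i]
    rfl
  refine ⟨?_, ?_, ?_, ?_, ?_⟩
  · -- continuity
    intro n
    obtain ⟨N, hN⟩ := exists_maximalIdeal_pow_eq_bot (h1 n).test.isArtinian
    obtain ⟨L, hL, hL'⟩ := (h1 n).cont N
    refine ⟨L, hL, fun σ hσ i j => ?_⟩
    have h0 : (rn n σ - 1) i j = 0 := by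
      have := hL' σ hσ i j
      rwa [hN, Ideal.mem_bot] at this
    have e1 : (rR σ - 1) i j = rR σ i j - rR 1 i j := by
      rw [map_one]; rfl
    have e2 : (rn n σ - 1) i j = rn n σ i j - rn n 1 i j := by
      rw [map_one]; rfl
    have h3 : L6.qpₐ 𝒪 (MvPowerSeries ι 𝒪 ⧸ JJ rbar sl 𝒟 pt av) n ((rR σ - 1) i j) = 0 := by
      rw [hqp, e1, map_sub, hent, hent, ← e2, h0, map_zero]
    have h4 : (rR σ - 1) i j ∈
        maximalIdeal (MvPowerSeries ι 𝒪 ⧸ JJ rbar sl 𝒟 pt av) ^ (n + 1) :=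
      Ideal.Quotient.eq_zero_iff_mem.1 h3
    exact Ideal.pow_le_pow_right (Nat.le_succ n) h4
  · -- strictness
    intro σ i j a ha
    by_contra hnot
    have hu : IsUnit (rR σ i j - algebraMap 𝒪 _ a) := by
      by_contra hnu
      exact hnot hnu
    have hu' := hu.map (red rbar sl 𝒟 pt av 0)
    rw [map_sub, AlgHom.commutes, hent] at hu'
    exact (h1 0).strict σ i j a ha hu'
  · -- normality
    intro m
    apply red_jointly_injective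
    intro n
    rw [AlgHom.commutes, hent]
    exact (h1 n).normal m
  · -- the condition at the finite levels
    intro n
    have hQ := L6.isArtinianTestAlgebra_QP 𝒪 (MvPowerSeries ι 𝒪 ⧸ JJ rbar sl 𝒟 pt av)
      (quot_isLocalHom _) (quot_residue_surjective _) n
    rw [← hτ n, ← mapM_comp, hrR n]
    exact H.cl.baseChange _ _ hQ (h1 n)
  · -- universality
    intro B _ _ _ r hr
    obtain ⟨ψ, hψ⟩ := exists_isPsi H hr
    have hgood := good_of_datum H hr hψ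
    have hJK := JJ_le_of_good hgood
    obtain ⟨n, hn⟩ := hgood.exists_pow_le
    have hbK := bb_le n hgood hn
    let φ : (MvPowerSeries ι 𝒪 ⧸ JJ rbar sl 𝒟 pt av) →ₐ[𝒪] B :=
      Ideal.Quotient.liftₐ (JJ rbar sl 𝒟 pt av) ψ (fun t ht => hJK ht)
    let φn : (MvPowerSeries ι 𝒪 ⧸ bb rbar sl 𝒟 pt av n) →ₐ[𝒪] B :=
      Ideal.Quotient.liftₐ (bb rbar sl 𝒟 pt av n) ψ (fun t ht => hbK ht)
    have hφ : φ = φn.comp (red rbar sl 𝒟 pt av n) := by
      apply AlgHom.ext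
      intro x
      obtain ⟨t, rfl⟩ := Ideal.Quotient.mk_surjective x
      rfl
    refine ⟨φ, ?_, ?_⟩
    · show mapM φ rR = r
      rw [hφ, ← mapM_comp, hrR n]
      have hD := H.cl.baseChange (rn n) φn hr.test (h1 n)
      apply datum_ext H hD hr
      intro i
      have e1 := (h2 n).comp φn i
      have e2 : (φn.comp (Ideal.Quotient.mkₐ 𝒪 (bb rbar sl 𝒟 pt av n))) (X i) = ψ (X i) := rfl
      rw [e2, hψ i] at e1
      exact (sub_left_inj.1 e1).symm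
    · intro φ' hφ'
      have hφr : mapM φ rR = r := by
        rw [hφ, ← mapM_comp, hrR n]
        have hD := H.cl.baseChange (rn n) φn hr.test (h1 n)
        apply datum_ext H hD hr
        intro i
        have e1 := (h2 n).comp φn i
        have e2 : (φn.comp (Ideal.Quotient.mkₐ 𝒪 (bb rbar sl 𝒟 pt av n))) (X i) = ψ (X i) := rfl
        rw [e2, hψ i] at e1
        exact (sub_left_inj.1 e1).symm
      have hcomp : φ'.comp (Ideal.Quotient.mkₐ 𝒪 (JJ rbar sl 𝒟 pt av)) =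
          φ.comp (Ideal.Quotient.mkₐ 𝒪 (JJ rbar sl 𝒟 pt av)) := by
        have a1 := hPsiR.comp φ'
        have a2 := hPsiR.comp φ
        rw [hφ'] at a1
        rw [hφr] at a2
        exact a1.unique hr.test a2 (fun _ => rfl)
      apply AlgHom.ext
      intro x
      obtain ⟨t, rfl⟩ := Ideal.Quotient.mk_surjective x
      exact congrArg (fun f : MvPowerSeries ι 𝒪 →ₐ[𝒪] B => f t) hcomp

end Main

end Fermat.Agent.S53
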