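import Mathlib
import Fermat.Agent.S53.Core6

/-!
# S53 core, part 7: packaging of the core theorem
-/

set_option autoImplicit false
set_option linter.unusedSectionVars false

namespace Fermat.Agent.S53

open IsLocalRing GaloisRep MvPowerSeries

section Package

variable {𝒪 : Type} [CommRing 𝒪] [IsLocalRing 𝒪] [IsNoetherianRing 𝒪]
  [IsAdicComplete (maximalIdeal 𝒪) 𝒪]
variable {rbar : Gal →* M2 (ResidueField 𝒪)} {sl : Slice 𝒪}
variable {𝒟 : ∀ ⦃A : Type⦄ [CommRing A] [IsLocalRing A] [Algebra 𝒪 A], GaloisRepAdic A → Prop}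
variable {E : Type} [CommRing E] [IsLocalRing E] [Algebra 𝒪 E]
variable {ι : Type} [Finite ι] {pt : ι → Idx} {av : Idx → 𝒪}

/-- **The core theorem, packaged**: a complete Noetherian local `𝒪`-algebra `R` with residue
field `k` carrying a universal strict normal lift of type `𝒟`. -/
theorem core (H : CoreHyp 𝒪 rbar sl 𝒟 E pt av) :
    ∃ (R : Type) (_ : CommRing R) (_ : IsLocalRing R) (_ : IsNoetherianRing R)
      (_ : IsAdicComplete (maximalIdeal R) R) (_ : Algebra 𝒪 R)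
      (_ : IsLocalHom (algebraMap 𝒪 R)) (rR : Gal →* M2 R),
      Function.Surjective (residue R ∘ algebraMap 𝒪 R) ∧ MatCont rR ∧
      IsStrictLift 𝒪 rbar rR ∧ IsNormal sl rR ∧
      (∀ n, IsDatum 𝒪 rbar sl 𝒟 (mapM (L6.qpₐ 𝒪 R n) rR)) ∧
      ∀ (B : Type) [CommRing B] [IsLocalRing B] [Algebra 𝒪 B] (r : Gal →* M2 B),
        IsDatum 𝒪 rbar sl 𝒟 r → ∃! φ : R →ₐ[𝒪] B, mapM φ rR = r := by
  obtain ⟨hR, rR, h1, h2, h3, h4, h5⟩ := core_main H
  exact ⟨MvPowerSeries ι 𝒪 ⧸ JJ rbar sl 𝒟 pt av, inferInstance, hR, inferInstance,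
    quot_isAdicComplete _, inferInstance, quot_isLocalHom _, rR,
    quot_residue_surjective _, h1, h2, h3, h4, h5⟩

/-- The hypotheses of the core theorem from finiteness of the set of data over `E`. -/
theorem exists_coreHyp (hcl : DatumClosure 𝒪 rbar sl 𝒟)
    (hE : IsArtinianTestAlgebra 𝒪 E)
    (hEfin : {r : Gal →* M2 E | IsDatum 𝒪 rbar sl 𝒟 r}.Finite)
    (hEtan : ∀ {A : Type} [CommRing A] [IsLocalRing A] [Algebra 𝒪 A], IsArtinianTestAlgebra 𝒪 A →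
      ∀ B : Subalgebra 𝒪 A, B ≠ ⊤ → ∃ f f' : A →ₐ[𝒪] E, f ≠ f' ∧ ∀ b ∈ B, f b = f' b) :
    ∃ (W : Finset Idx) (av : Idx → 𝒪),
      CoreHyp 𝒪 rbar sl 𝒟 E (Subtype.val : (↥W) → Idx) av := by
  classical
  have hav : ∀ x : Idx, ∃ a : 𝒪, residue 𝒪 a = ent rbar x :=
    fun x => IsLocalRing.residue_surjective _
  choose av hav using hav
  have : Inhabited Idx := ⟨(1, 0, 0)⟩
  obtain ⟨W, hW⟩ := exists_finset_separating
    (ent '' {r : Gal →* M2 E | IsDatum 𝒪 rbar sl 𝒟 r}) (hEfin.image _)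
  refine ⟨W, av, ⟨hcl, hE, hEtan, ?_, hav⟩⟩
  intro r r' hr hr' h
  apply ent_injective
  apply hW _ ⟨r, hr, rfl⟩ _ ⟨r', hr', rfl⟩
  intro w hw
  exact h ⟨w, hw⟩

/-- **The core theorem from the closure properties, the tangent lemma and tangent finiteness.** -/
theorem core_of_finite (hcl : DatumClosure 𝒪 rbar sl 𝒟)
    (hE : IsArtinianTestAlgebra 𝒪 E)
    (hEfin : {r : Gal →* M2 E | IsDatum 𝒪 rbar sl 𝒟 r}.Finite)
    (hEtan : ∀ {A : Type} [CommRing A] [IsLocalRing A] [Algebra 𝒪 A], IsArtinianTestAlgebra 𝒪 A →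
      ∀ B : Subalgebra 𝒪 A, B ≠ ⊤ → ∃ f f' : A →ₐ[𝒪] E, f ≠ f' ∧ ∀ b ∈ B, f b = f' b) :
    ∃ (R : Type) (_ : CommRing R) (_ : IsLocalRing R) (_ : IsNoetherianRing R)
      (_ : IsAdicComplete (maximalIdeal R) R) (_ : Algebra 𝒪 R)
      (_ : IsLocalHom (algebraMap 𝒪 R)) (rR : Gal →* M2 R),
      Function.Surjective (residue R ∘ algebraMap 𝒪 R) ∧ MatCont rR ∧
      IsStrictLift 𝒪 rbar rR ∧ IsNormal sl rR ∧
      (∀ n, IsDatum 𝒪 rbar sl 𝒟 (mapM (L6.qpₐ 𝒪 R n) rR)) ∧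
      ∀ (B : Type) [CommRing B] [IsLocalRing B] [Algebra 𝒪 B] (r : Gal →* M2 B),
        IsDatum 𝒪 rbar sl 𝒟 r → ∃! φ : R →ₐ[𝒪] B, mapM φ rR = r := by
  obtain ⟨W, av, H⟩ := exists_coreHyp hcl hE hEfin hEtan
  exact core H

end Package

end Fermat.Agent.S53
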