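/-
S53 Layer 2 (helper3): Artinian test algebras — augmentation, locality of algebra maps,
subalgebras, fibre products.
-/
import Mathlib
import Fermat.Prelude.Def_GaloisRep_Adic
import Fermat.Prelude.Def_GaloisRep_DeformationCondition

set_option autoImplicit false
set_option linter.style.haveILetI false
set_option linter.unusedSectionVars false

namespace Fermat.Agent.S53

open IsLocalRing GaloisRep

variable {𝒪 : Type} [CommRing 𝒪] [IsLocalRing 𝒪]

section Aug

/-! ### Algebras with an augmentation to the residue field with nil kernel -/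

variable {S : Type} [CommRing S] [Algebra 𝒪 S]

/-- An augmentation `π : S →ₐ[𝒪] k` with nil kernel: every element not killed by `π` is a unit. -/
lemma isUnit_of_aug_ne_zero (π : S →ₐ[𝒪] ResidueField 𝒪) (hnil : ∀ x, π x = 0 → IsNilpotent x)
    {x : S} (hx : π x ≠ 0) : IsUnit x := by
  obtain ⟨c, hc⟩ := residue_surjective (π x)⁻¹
  have h1 : π (1 - algebraMap 𝒪 S c * x) = 0 := by
    rw [map_sub, map_one, map_mul, AlgHom.commutes]
    show 1 - residue 𝒪 c * π x = 0
    rw [hc, inv_mul_cancel₀ hx, sub_self]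
  have h2 : IsUnit (algebraMap 𝒪 S c * x) := by
    have := (hnil _ h1).isUnit_one_sub
    rwa [sub_sub_cancel] at this
  exact isUnit_of_mul_isUnit_right h2

lemma aug_eq_zero_of_not_isUnit (π : S →ₐ[𝒪] ResidueField 𝒪)
    (hnil : ∀ x, π x = 0 → IsNilpotent x) {x : S} (hx : ¬ IsUnit x) : π x = 0 := by
  by_contra h
  exact hx (isUnit_of_aug_ne_zero π hnil h)

lemma aug_ne_zero_of_isUnit (π : S →ₐ[𝒪] ResidueField 𝒪) {x : S} (hx : IsUnit x) : π x ≠ 0 :=
  (hx.map π).ne_zero

/-- An `𝒪`-algebra with an augmentation to the residue field with nil kernel is local. -/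
theorem isLocalRing_of_aug (π : S →ₐ[𝒪] ResidueField 𝒪) (hnil : ∀ x, π x = 0 → IsNilpotent x) :
    IsLocalRing S := by
  haveI : Nontrivial S := by
    refine ⟨⟨0, 1, fun h => ?_⟩⟩
    have := congrArg π h
    rw [map_zero, map_one] at this
    exact zero_ne_one this
  refine IsLocalRing.of_nonunits_add fun a b ha hb hab => ?_
  have h1 := aug_eq_zero_of_not_isUnit π hnil ha
  have h2 := aug_eq_zero_of_not_isUnit π hnil hb
  exact aug_ne_zero_of_isUnit π hab (by rw [map_add, h1, h2, add_zero])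

lemma mem_maximalIdeal_iff_aug [IsLocalRing S] (π : S →ₐ[𝒪] ResidueField 𝒪)
    (hnil : ∀ x, π x = 0 → IsNilpotent x) (x : S) : x ∈ maximalIdeal S ↔ π x = 0 := by
  rw [mem_maximalIdeal, mem_nonunits_iff]
  constructor
  · exact aug_eq_zero_of_not_isUnit π hnil
  · intro h hu
    exact aug_ne_zero_of_isUnit π hu h

/-- An Artinian `𝒪`-algebra with an augmentation with nil kernel is a test algebra. -/
theorem isArtinianTestAlgebra_of_aug [IsLocalRing S] [IsArtinianRing S]
    (π : S →ₐ[𝒪] ResidueField 𝒪) (hnil : ∀ x, π x = 0 → IsNilpotent x) :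
    IsArtinianTestAlgebra 𝒪 S where
  isLocalHom := ⟨fun c hc => by
    have h1 := aug_ne_zero_of_isUnit π hc
    rw [AlgHom.commutes] at h1
    by_contra hcu
    exact h1 ((residue_eq_zero_iff c).mpr hcu)⟩
  residue_surjective := fun y => by
    obtain ⟨x, rfl⟩ := residue_surjective y
    obtain ⟨c, hc⟩ := residue_surjective (π x)
    refine ⟨c, ?_⟩
    rw [Function.comp_apply, ← sub_eq_zero, ← map_sub, residue_eq_zero_iff,
      mem_maximalIdeal_iff_aug π hnil, map_sub, AlgHom.commutes]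
    show residue 𝒪 c - π x = 0
    rw [hc, sub_self]
  isArtinian := inferInstance

end Aug

section TestAlgebra

variable {A : Type} [CommRing A] [IsLocalRing A] [Algebra 𝒪 A]

lemma ta_exists_pow_eq_bot (hA : IsArtinianTestAlgebra 𝒪 A) :
    ∃ n : ℕ, maximalIdeal A ^ n = ⊥ := by
  haveI := hA.isArtinian
  obtain ⟨n, hn⟩ := IsArtinianRing.isNilpotent_jacobson_bot (R := A)
  rw [jacobson_eq_maximalIdeal _ bot_ne_top] at hn
  exact ⟨n, hn⟩

lemma ta_isNilpotent_of_mem (hA : IsArtinianTestAlgebra 𝒪 A) {x : A}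
    (hx : x ∈ maximalIdeal A) : IsNilpotent x := by
  obtain ⟨n, hn⟩ := (ta_exists_pow_eq_bot hA)
  refine ⟨n, ?_⟩
  have := Ideal.pow_mem_pow hx n
  rwa [hn, Ideal.mem_bot] at this

lemma ta_exists_sub_mem (hA : IsArtinianTestAlgebra 𝒪 A) (x : A) :
    ∃ c : 𝒪, x - algebraMap 𝒪 A c ∈ maximalIdeal A := by
  obtain ⟨c, hc⟩ := hA.residue_surjective (residue A x)
  refine ⟨c, ?_⟩
  rw [← residue_eq_zero_iff, map_sub, ← hc, Function.comp_apply, sub_self]

/-- The residue field of a test algebra is identified with that of `𝒪`. -/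
lemma ta_residueFieldMap_bijective (hA : IsArtinianTestAlgebra 𝒪 A) :
    haveI := hA.isLocalHom
    Function.Bijective (ResidueField.map (algebraMap 𝒪 A)) := by
  haveI := hA.isLocalHom
  refine ⟨(ResidueField.map (algebraMap 𝒪 A)).injective, fun y => ?_⟩
  obtain ⟨c, hc⟩ := hA.residue_surjective y
  exact ⟨residue 𝒪 c, by rw [ResidueField.map_residue]; exact hc⟩

/-- The augmentation `A →ₐ[𝒪] k` of a test algebra. -/
noncomputable def ta_aug (hA : IsArtinianTestAlgebra 𝒪 A) :
    A →ₐ[𝒪] ResidueField 𝒪 :=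
  haveI := hA.isLocalHom
  { ((RingEquiv.ofBijective (ResidueField.map (algebraMap 𝒪 A))
        (ta_residueFieldMap_bijective hA)).symm : ResidueField A →+* ResidueField 𝒪).comp
      (residue A) with
    commutes' := fun c => by
      show (RingEquiv.ofBijective (ResidueField.map (algebraMap 𝒪 A))
        (ta_residueFieldMap_bijective hA)).symm (residue A (algebraMap 𝒪 A c)) = residue 𝒪 c
      rw [RingEquiv.symm_apply_eq, RingEquiv.ofBijective_apply, ResidueField.map_residue] }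

lemma ta_aug_eq_zero_iff (hA : IsArtinianTestAlgebra 𝒪 A) (x : A) :
    (ta_aug hA) x = 0 ↔ x ∈ maximalIdeal A := by
  haveI := hA.isLocalHom
  show (RingEquiv.ofBijective (ResidueField.map (algebraMap 𝒪 A))
    (ta_residueFieldMap_bijective hA)).symm (residue A x) = 0 ↔ _
  rw [map_eq_zero_iff _ (RingEquiv.injective _), residue_eq_zero_iff]

lemma ta_aug_nil (hA : IsArtinianTestAlgebra 𝒪 A) (x : A)
    (hx : (ta_aug hA) x = 0) : IsNilpotent x :=
  (ta_isNilpotent_of_mem hA) (((ta_aug_eq_zero_iff hA) x).1 hx)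

/-- Any `𝒪`-algebra map from a test algebra to the residue field is the augmentation. -/
lemma ta_eq_aug (hA : IsArtinianTestAlgebra 𝒪 A)
    (f : A →ₐ[𝒪] ResidueField 𝒪) : f = (ta_aug hA) := by
  have hker : ∀ x ∈ maximalIdeal A, f x = 0 := fun x hx =>
    (((ta_isNilpotent_of_mem hA) hx).map f).eq_zero
  ext x
  obtain ⟨c, hc⟩ := (ta_exists_sub_mem hA) x
  have h1 := hker _ hc
  have h2 := ((ta_aug_eq_zero_iff hA) _).2 hc
  rw [map_sub, AlgHom.commutes, sub_eq_zero] at h1 h2
  rw [h1, h2]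

/-- `𝒪`-algebra maps between test algebras commute with the augmentations. -/
lemma ta_aug_comp {B : Type} [CommRing B] [IsLocalRing B] [Algebra 𝒪 B]
    (hA : IsArtinianTestAlgebra 𝒪 A) (hB : IsArtinianTestAlgebra 𝒪 B) (φ : A →ₐ[𝒪] B) :
    (ta_aug hB).comp φ = (ta_aug hA) :=
  (ta_eq_aug hA) _

lemma ta_aug_apply_map {B : Type} [CommRing B] [IsLocalRing B] [Algebra 𝒪 B]
    (hA : IsArtinianTestAlgebra 𝒪 A) (hB : IsArtinianTestAlgebra 𝒪 B) (φ : A →ₐ[𝒪] B) (x : A) :
    (ta_aug hB) (φ x) = (ta_aug hA) x :=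
  DFunLike.congr_fun ((ta_aug_comp hA) hB φ) x

lemma ta_map_mem_maximalIdeal_iff {B : Type} [CommRing B] [IsLocalRing B]
    [Algebra 𝒪 B] (hA : IsArtinianTestAlgebra 𝒪 A) (hB : IsArtinianTestAlgebra 𝒪 B)
    (φ : A →ₐ[𝒪] B) (x : A) : φ x ∈ maximalIdeal B ↔ x ∈ maximalIdeal A := by
  rw [← (ta_aug_eq_zero_iff hA), ← (ta_aug_eq_zero_iff hB), (ta_aug_apply_map hA) hB]

/-- `𝒪`-algebra maps between test algebras are local. -/
theorem ta_isLocalHom_algHom {B : Type} [CommRing B] [IsLocalRing B]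
    [Algebra 𝒪 B] (hA : IsArtinianTestAlgebra 𝒪 A) (hB : IsArtinianTestAlgebra 𝒪 B)
    (φ : A →ₐ[𝒪] B) : IsLocalHom (φ : A →+* B) :=
  ⟨fun x hx => by
    by_contra h
    have h1 : x ∈ maximalIdeal A := h
    have h2 := ((ta_map_mem_maximalIdeal_iff hA) hB φ x).2 h1
    exact h2 hx⟩

/-- A test algebra over `𝒪` with finite residue field is a finite ring. -/
theorem ta_finite [Finite (ResidueField 𝒪)] (hA : IsArtinianTestAlgebra 𝒪 A) :
    Finite A := by
  haveI := hA.isArtinian
  haveI := hA.isLocalHom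
  haveI : Finite (ResidueField A) :=
    Finite.of_surjective _ (ta_residueFieldMap_bijective hA).2
  obtain ⟨n, hn⟩ := (ta_exists_pow_eq_bot hA)
  haveI : Finite (A ⧸ (⊥ : Ideal A)) := IsLocalRing.finite_quotient_iff.2 ⟨n, hn.le⟩
  exact Finite.of_equiv _ (RingEquiv.quotientBot A).toEquiv

/-- The residue field of `𝒪` is a test algebra. -/
theorem isArtinianTestAlgebra_residueField : IsArtinianTestAlgebra 𝒪 (ResidueField 𝒪) where
  isLocalHom := ⟨fun c hc => by
    by_contra h
    have : residue 𝒪 c = 0 := (residue_eq_zero_iff c).mpr h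
    exact hc.ne_zero this⟩
  residue_surjective := fun y => by
    obtain ⟨x, rfl⟩ := residue_surjective y
    obtain ⟨c, rfl⟩ := residue_surjective x
    exact ⟨c, rfl⟩
  isArtinian := inferInstance

end TestAlgebra

section Subalgebra

variable {A : Type} [CommRing A] [IsLocalRing A] [Algebra 𝒪 A]

lemma subalgebra_aug_nil (hA : IsArtinianTestAlgebra 𝒪 A) (A₀ : Subalgebra 𝒪 A) (x : A₀)
    (hx : ((ta_aug hA).comp A₀.val) x = 0) : IsNilpotent x := by
  obtain ⟨n, hn⟩ := ta_aug_nil hA (x : A) hx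
  exact ⟨n, Subtype.ext (by simpa using hn)⟩

/-- An `𝒪`-subalgebra of a test algebra is a local ring. -/
theorem subalgebra_isLocalRing (hA : IsArtinianTestAlgebra 𝒪 A) (A₀ : Subalgebra 𝒪 A) :
    IsLocalRing A₀ :=
  isLocalRing_of_aug ((ta_aug hA).comp A₀.val) (subalgebra_aug_nil hA A₀)

/-- An `𝒪`-subalgebra of a test algebra is a test algebra (finite residue field). -/
theorem subalgebra_isArtinianTestAlgebra [Finite (ResidueField 𝒪)]
    (hA : IsArtinianTestAlgebra 𝒪 A) (A₀ : Subalgebra 𝒪 A) :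
    ∃ _ : IsLocalRing A₀, IsArtinianTestAlgebra 𝒪 A₀ := by
  haveI := subalgebra_isLocalRing hA A₀
  haveI : Finite A := ta_finite hA
  haveI : IsArtinianRing A₀ := isArtinian_of_finite
  exact ⟨inferInstance,
    isArtinianTestAlgebra_of_aug ((ta_aug hA).comp A₀.val) (subalgebra_aug_nil hA A₀)⟩

/-- The range of an algebra map into a test algebra is a test algebra. -/
theorem range_isArtinianTestAlgebra [Finite (ResidueField 𝒪)] {S : Type} [CommRing S]
    [Algebra 𝒪 S] (hA : IsArtinianTestAlgebra 𝒪 A) (φ : S →ₐ[𝒪] A) :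
    ∃ _ : IsLocalRing φ.range, IsArtinianTestAlgebra 𝒪 φ.range :=
  subalgebra_isArtinianTestAlgebra hA φ.range

end Subalgebra

section FibreProduct

variable {A B : Type} [CommRing A] [IsLocalRing A] [Algebra 𝒪 A]
  [CommRing B] [IsLocalRing B] [Algebra 𝒪 B]

/-- The fibre product `A ×_k B` of two test algebras over the residue field, as a subalgebra of
`A × B`. -/
noncomputable def fibreProd (hA : IsArtinianTestAlgebra 𝒪 A) (hB : IsArtinianTestAlgebra 𝒪 B) :
    Subalgebra 𝒪 (A × B) :=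
  AlgHom.equalizer ((ta_aug hA).comp (AlgHom.fst 𝒪 A B)) ((ta_aug hB).comp (AlgHom.snd 𝒪 A B))

lemma mem_fibreProd (hA : IsArtinianTestAlgebra 𝒪 A) (hB : IsArtinianTestAlgebra 𝒪 B)
    (x : A × B) : x ∈ fibreProd hA hB ↔ ta_aug hA x.1 = ta_aug hB x.2 :=
  Iff.rfl

/-- First projection of the fibre product. -/
noncomputable def fibreProdFst (hA : IsArtinianTestAlgebra 𝒪 A) (hB : IsArtinianTestAlgebra 𝒪 B) :
    fibreProd hA hB →ₐ[𝒪] A :=
  (AlgHom.fst 𝒪 A B).comp (fibreProd hA hB).val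

/-- Second projection of the fibre product. -/
noncomputable def fibreProdSnd (hA : IsArtinianTestAlgebra 𝒪 A) (hB : IsArtinianTestAlgebra 𝒪 B) :
    fibreProd hA hB →ₐ[𝒪] B :=
  (AlgHom.snd 𝒪 A B).comp (fibreProd hA hB).val

@[simp] lemma fibreProdFst_apply (hA : IsArtinianTestAlgebra 𝒪 A)
    (hB : IsArtinianTestAlgebra 𝒪 B) (x : fibreProd hA hB) :
    fibreProdFst hA hB x = (x : A × B).1 := rfl

@[simp] lemma fibreProdSnd_apply (hA : IsArtinianTestAlgebra 𝒪 A)
    (hB : IsArtinianTestAlgebra 𝒪 B) (x : fibreProd hA hB) :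
    fibreProdSnd hA hB x = (x : A × B).2 := rfl

lemma fibreProd_aug_comp (hA : IsArtinianTestAlgebra 𝒪 A) (hB : IsArtinianTestAlgebra 𝒪 B) :
    (ta_aug hA).comp (fibreProdFst hA hB) = (ta_aug hB).comp (fibreProdSnd hA hB) := by
  ext x
  exact x.2

lemma fibreProd_injective (hA : IsArtinianTestAlgebra 𝒪 A) (hB : IsArtinianTestAlgebra 𝒪 B) :
    Function.Injective (fun x : fibreProd hA hB => (fibreProdFst hA hB x, fibreProdSnd hA hB x)) :=
  fun _ _ h => Subtype.ext h

lemma fibreProd_exists (hA : IsArtinianTestAlgebra 𝒪 A) (hB : IsArtinianTestAlgebra 𝒪 B)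
    (a : A) (b : B) (h : ta_aug hA a = ta_aug hB b) :
    ∃ x : fibreProd hA hB, fibreProdFst hA hB x = a ∧ fibreProdSnd hA hB x = b :=
  ⟨⟨(a, b), h⟩, rfl, rfl⟩

lemma fibreProd_aug_nil (hA : IsArtinianTestAlgebra 𝒪 A) (hB : IsArtinianTestAlgebra 𝒪 B)
    (x : fibreProd hA hB) (hx : ((ta_aug hA).comp (fibreProdFst hA hB)) x = 0) :
    IsNilpotent x := by
  have hx2 : ta_aug hB (x : A × B).2 = 0 :=
    ((mem_fibreProd hA hB _).1 x.2).symm.trans hx
  obtain ⟨n, hn⟩ := ta_aug_nil hA (x : A × B).1 hx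
  obtain ⟨m, hm⟩ := ta_aug_nil hB (x : A × B).2 hx2
  refine ⟨n + m, Subtype.ext (Prod.ext ?_ ?_)⟩
  · show ((x : A × B) ^ (n + m)).1 = 0
    rw [Prod.pow_fst, pow_add, hn, zero_mul]
  · show ((x : A × B) ^ (n + m)).2 = 0
    rw [Prod.pow_snd, pow_add, hm, mul_zero]

/-- The fibre product of two test algebras is local. -/
theorem fibreProd_isLocalRing (hA : IsArtinianTestAlgebra 𝒪 A) (hB : IsArtinianTestAlgebra 𝒪 B) :
    IsLocalRing (fibreProd hA hB) :=
  isLocalRing_of_aug ((ta_aug hA).comp (fibreProdFst hA hB)) (fibreProd_aug_nil hA hB)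

/-- The fibre product of two test algebras is a test algebra (finite residue field). -/
theorem fibreProd_isArtinianTestAlgebra [Finite (ResidueField 𝒪)]
    (hA : IsArtinianTestAlgebra 𝒪 A) (hB : IsArtinianTestAlgebra 𝒪 B) :
    haveI := fibreProd_isLocalRing hA hB
    IsArtinianTestAlgebra 𝒪 (fibreProd hA hB) := by
  haveI := fibreProd_isLocalRing hA hB
  haveI : Finite A := ta_finite hA
  haveI : Finite B := ta_finite hB
  haveI : IsArtinianRing (fibreProd hA hB) := isArtinian_of_finite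
  exact isArtinianTestAlgebra_of_aug ((ta_aug hA).comp (fibreProdFst hA hB))
    (fibreProd_aug_nil hA hB)

end FibreProduct

end Fermat.Agent.S53
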