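/-
S53 Layer 2 (helper3): the closure properties `DatumClosure` of helper8's core interface,
proved from `IsDeformationCondition` + the trivial deformation.
-/
import Mathlib
import Fermat.Agent.S53.Defs
import Fermat.Agent.S53.Core1
import Fermat.Agent.S53.L0_helper3_Matrix
import Fermat.Agent.S53.L2_helper3_TestAlg

set_option autoImplicit false
set_option linter.style.haveILetI false
set_option linter.unusedSectionVars false

namespace Fermat.Agent.S53

open IsLocalRing GaloisRep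

variable {𝒪 : Type} [CommRing 𝒪] [IsLocalRing 𝒪]

section MapM

variable {A B : Type} [CommRing A] [CommRing B] [Algebra 𝒪 A] [Algebra 𝒪 B]

lemma mapM_eq_mapMat (φ : A →ₐ[𝒪] B) (r : Gal →* M2 A) :
    mapM φ r = mapMat (φ : A →+* B) r := rfl

end MapM

section Closure

variable {rbar : Gal →* M2 (ResidueField 𝒪)} {sl : Slice 𝒪}
variable {𝒟 : ∀ ⦃A : Type⦄ [CommRing A] [IsLocalRing A] [Algebra 𝒪 A], GaloisRepAdic A → Prop}

variable {A B : Type} [CommRing A] [IsLocalRing A] [Algebra 𝒪 A]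
  [CommRing B] [IsLocalRing B] [Algebra 𝒪 B]

/-- The augmentation of an entry of a strict lift is the residual entry. -/
lemma aug_of_isStrictLift (hA : IsArtinianTestAlgebra 𝒪 A) {r : Gal →* M2 A}
    (hs : IsStrictLift 𝒪 rbar r) (σ : Gal) (i j : Fin 2) :
    ta_aug hA (r σ i j) = rbar σ i j := by
  obtain ⟨a, ha⟩ := residue_surjective (rbar σ i j)
  have h1 := (ta_aug_eq_zero_iff hA _).2 (hs σ i j a ha)
  rw [map_sub, AlgHom.commutes, sub_eq_zero] at h1
  rw [h1, ← ha]
  rfl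

/-- Closure of data under base change. -/
theorem isDatum_baseChange (h𝒟 : IsDeformationCondition 𝒪 𝒟) (r : Gal →* M2 A)
    (φ : A →ₐ[𝒪] B) (hB : IsArtinianTestAlgebra 𝒪 B) (hd : IsDatum 𝒪 rbar sl 𝒟 r) :
    IsDatum 𝒪 rbar sl 𝒟 (mapM φ r) := by
  have hA := hd.test
  have hφ := ta_isLocalHom_algHom hA hB φ
  have hcont : MatCont (mapM φ r) := hd.cont.mapMat (φ : A →+* B) hφ
  refine ⟨hB, hcont, hd.strict.mapMat φ hφ, fun m => ?_, ?_⟩
  · rw [mapM_apply, hd.normal m, AlgHom.commutes]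
  · exact h𝒟.of_isEquiv hB (baseChangeAlong_ofMatrix_isEquiv (φ : A →+* B) hφ r hd.cont)
      (h𝒟.baseChangeAlong hA hB φ hφ hd.isOfType)

/-- Descent of data along injective maps. -/
theorem isDatum_restrict (h𝒟 : IsDeformationCondition 𝒪 𝒟) (r : Gal →* M2 A)
    (φ : A →ₐ[𝒪] B) (hinj : Function.Injective φ) (hA : IsArtinianTestAlgebra 𝒪 A)
    (hd : IsDatum 𝒪 rbar sl 𝒟 (mapM φ r)) : IsDatum 𝒪 rbar sl 𝒟 r := by
  have hB := hd.test
  have hφ := ta_isLocalHom_algHom hA hB φ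
  obtain ⟨n, hn⟩ := ta_exists_pow_eq_bot hB
  have hfac : GaloisFactorsThroughFiniteLevel r :=
    factors_of_mapMat_injective (φ : A →+* B) hinj r (factors_of_matCont hn _ hd.cont)
  have hcont : MatCont r := matCont_of_factors r hfac
  refine ⟨hA, hcont, ?_, ?_, ?_⟩
  · intro σ i j a ha
    have h1 := hd.strict σ i j a ha
    rw [← ta_map_mem_maximalIdeal_iff hA hB φ, map_sub, AlgHom.commutes]
    exact h1
  · intro m
    apply hinj
    rw [AlgHom.commutes]
    exact hd.normal m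
  · exact h𝒟.of_baseChangeAlong_injective hA hB φ hφ hinj
      (h𝒟.of_isEquiv hB
        (isEquiv_symm (baseChangeAlong_ofMatrix_isEquiv (φ : A →+* B) hφ r hcont)) hd.isOfType)

/-! ### Gluing -/

lemma fibreProd_matrix_ext (hA : IsArtinianTestAlgebra 𝒪 A) (hB : IsArtinianTestAlgebra 𝒪 B)
    (M N : M2 (fibreProd hA hB))
    (h1 : M.map (fibreProdFst hA hB) = N.map (fibreProdFst hA hB))
    (h2 : M.map (fibreProdSnd hA hB) = N.map (fibreProdSnd hA hB)) : M = N := by
  refine Matrix.ext fun i j => ?_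
  apply fibreProd_injective hA hB
  exact Prod.ext (congrFun (congrFun h1 i) j) (congrFun (congrFun h2 i) j)

/-- The matrix over the fibre product with prescribed components. -/
noncomputable def glueMat (hA : IsArtinianTestAlgebra 𝒪 A) (hB : IsArtinianTestAlgebra 𝒪 B)
    (M : M2 A) (N : M2 B) (h : ∀ i j, ta_aug hA (M i j) = ta_aug hB (N i j)) :
    M2 (fibreProd hA hB) :=
  Matrix.of fun i j => ⟨(M i j, N i j), h i j⟩

lemma glueMat_map_fst (hA : IsArtinianTestAlgebra 𝒪 A) (hB : IsArtinianTestAlgebra 𝒪 B)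
    (M : M2 A) (N : M2 B) (h : ∀ i j, ta_aug hA (M i j) = ta_aug hB (N i j)) :
    (glueMat hA hB M N h).map (fibreProdFst hA hB) = M := by
  ext i j; rfl

lemma glueMat_map_snd (hA : IsArtinianTestAlgebra 𝒪 A) (hB : IsArtinianTestAlgebra 𝒪 B)
    (M : M2 A) (N : M2 B) (h : ∀ i j, ta_aug hA (M i j) = ta_aug hB (N i j)) :
    (glueMat hA hB M N h).map (fibreProdSnd hA hB) = N := by
  ext i j; rfl

/-- The glued representation over the fibre product. -/
noncomputable def glueRep (hA : IsArtinianTestAlgebra 𝒪 A) (hB : IsArtinianTestAlgebra 𝒪 B)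
    (r : Gal →* M2 A) (r' : Gal →* M2 B)
    (h : ∀ σ i j, ta_aug hA (r σ i j) = ta_aug hB (r' σ i j)) : Gal →* M2 (fibreProd hA hB) where
  toFun σ := glueMat hA hB (r σ) (r' σ) (h σ)
  map_one' := by
    apply fibreProd_matrix_ext hA hB
    · rw [glueMat_map_fst, map_one, Matrix.map_one _ (map_zero _) (map_one _)]
    · rw [glueMat_map_snd, map_one, Matrix.map_one _ (map_zero _) (map_one _)]
  map_mul' σ τ := by
    apply fibreProd_matrix_ext hA hB
    · rw [glueMat_map_fst, Matrix.map_mul, glueMat_map_fst, glueMat_map_fst, map_mul]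
    · rw [glueMat_map_snd, Matrix.map_mul, glueMat_map_snd, glueMat_map_snd, map_mul]

lemma mapM_fst_glueRep (hA : IsArtinianTestAlgebra 𝒪 A) (hB : IsArtinianTestAlgebra 𝒪 B)
    (r : Gal →* M2 A) (r' : Gal →* M2 B)
    (h : ∀ σ i j, ta_aug hA (r σ i j) = ta_aug hB (r' σ i j)) :
    mapM (fibreProdFst hA hB) (glueRep hA hB r r' h) = r := by
  ext σ i j; rfl

lemma mapM_snd_glueRep (hA : IsArtinianTestAlgebra 𝒪 A) (hB : IsArtinianTestAlgebra 𝒪 B)
    (r : Gal →* M2 A) (r' : Gal →* M2 B)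
    (h : ∀ σ i j, ta_aug hA (r σ i j) = ta_aug hB (r' σ i j)) :
    mapM (fibreProdSnd hA hB) (glueRep hA hB r r' h) = r' := by
  ext σ i j; rfl

lemma glueRep_factors (hA : IsArtinianTestAlgebra 𝒪 A) (hB : IsArtinianTestAlgebra 𝒪 B)
    (r : Gal →* M2 A) (r' : Gal →* M2 B)
    (h : ∀ σ i j, ta_aug hA (r σ i j) = ta_aug hB (r' σ i j))
    (hr : GaloisFactorsThroughFiniteLevel r) (hr' : GaloisFactorsThroughFiniteLevel r') :
    GaloisFactorsThroughFiniteLevel (glueRep hA hB r r' h) := by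
  obtain ⟨L₁, hL₁, h₁⟩ := hr
  obtain ⟨L₂, hL₂, h₂⟩ := hr'
  refine ⟨L₁ ⊔ L₂, IntermediateField.finiteDimensional_sup L₁ L₂, fun σ hσ => ?_⟩
  have e1 := h₁ σ fun x hx => hσ x ((le_sup_left : L₁ ≤ L₁ ⊔ L₂) hx)
  have e2 := h₂ σ fun x hx => hσ x ((le_sup_right : L₂ ≤ L₁ ⊔ L₂) hx)
  apply fibreProd_matrix_ext hA hB
  · show (glueMat hA hB (r σ) (r' σ) (h σ)).map (fibreProdFst hA hB) = _
    rw [glueMat_map_fst, e1, Matrix.map_one _ (map_zero _) (map_one _)]
  · show (glueMat hA hB (r σ) (r' σ) (h σ)).map (fibreProdSnd hA hB) = _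
    rw [glueMat_map_snd, e2, Matrix.map_one _ (map_zero _) (map_one _)]

/-- Gluing of two data over the fibre product. -/
theorem isDatum_glue [Finite (ResidueField 𝒪)] (h𝒟 : IsDeformationCondition 𝒪 𝒟)
    (r : Gal →* M2 A) (r' : Gal →* M2 B)
    (hd : IsDatum 𝒪 rbar sl 𝒟 r) (hd' : IsDatum 𝒪 rbar sl 𝒟 r') :
    ∃ (C : Type) (_ : CommRing C) (_ : IsLocalRing C) (_ : Algebra 𝒪 C) (rC : Gal →* M2 C)
      (pA : C →ₐ[𝒪] A) (pB : C →ₐ[𝒪] B),
      IsDatum 𝒪 rbar sl 𝒟 rC ∧ mapM pA rC = r ∧ mapM pB rC = r' ∧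
        Function.Injective (fun x => (pA x, pB x)) := by
  have hA := hd.test
  have hB := hd'.test
  have h : ∀ σ i j, ta_aug hA (r σ i j) = ta_aug hB (r' σ i j) := fun σ i j => by
    rw [aug_of_isStrictLift hA hd.strict, aug_of_isStrictLift hB hd'.strict]
  haveI := fibreProd_isLocalRing hA hB
  have hC : IsArtinianTestAlgebra 𝒪 (fibreProd hA hB) := fibreProd_isArtinianTestAlgebra hA hB
  have hk : IsArtinianTestAlgebra 𝒪 (ResidueField 𝒪) := isArtinianTestAlgebra_residueField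
  obtain ⟨n, hn⟩ := ta_exists_pow_eq_bot hA
  obtain ⟨n', hn'⟩ := ta_exists_pow_eq_bot hB
  have hfac := glueRep_factors hA hB r r' h (factors_of_matCont hn r hd.cont)
    (factors_of_matCont hn' r' hd'.cont)
  have hcont : MatCont (glueRep hA hB r r' h) := matCont_of_factors _ hfac
  have hpA := ta_isLocalHom_algHom hC hA (fibreProdFst hA hB)
  have hpB := ta_isLocalHom_algHom hC hB (fibreProdSnd hA hB)
  refine ⟨fibreProd hA hB, inferInstance, inferInstance, inferInstance, glueRep hA hB r r' h,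
    fibreProdFst hA hB, fibreProdSnd hA hB, ⟨hC, hcont, ?_, ?_, ?_⟩,
    mapM_fst_glueRep hA hB r r' h, mapM_snd_glueRep hA hB r r' h, fibreProd_injective hA hB⟩
  · intro σ i j a ha
    rw [← ta_map_mem_maximalIdeal_iff hC hA (fibreProdFst hA hB), map_sub, AlgHom.commutes]
    exact hd.strict σ i j a ha
  · intro m
    apply fibreProd_injective hA hB
    refine Prod.ext ?_ ?_
    · show fibreProdFst hA hB _ = fibreProdFst hA hB _
      rw [AlgHom.commutes]
      exact hd.normal m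
    · show fibreProdSnd hA hB _ = fibreProdSnd hA hB _
      rw [AlgHom.commutes]
      exact hd'.normal m
  · refine h𝒟.of_fibreProduct hA hB hk hC (ta_aug hA) (ta_aug hB) (fibreProdFst hA hB)
      (fibreProdSnd hA hB) hpA hpB (fibreProd_aug_comp hA hB) (fibreProd_injective hA hB)
      (fibreProd_exists hA hB) ?_ ?_
    · refine h𝒟.of_isEquiv hA (isEquiv_symm
        (baseChangeAlong_ofMatrix_isEquiv (fibreProdFst hA hB : fibreProd hA hB →+* A) hpA _ hcont))
        ?_
      exact hd.isOfType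
    · refine h𝒟.of_isEquiv hB (isEquiv_symm
        (baseChangeAlong_ofMatrix_isEquiv (fibreProdSnd hA hB : fibreProd hA hB →+* B) hpB _ hcont))
        ?_
      exact hd'.isOfType

/-- The trivial datum over the residue field. -/
theorem isDatum_trivial (h𝒟 : IsDeformationCondition 𝒪 𝒟)
    (ρbar : ResidualGaloisRep (ResidueField 𝒪))
    (β : Module.Basis (Fin 2) (ResidueField 𝒪) ρbar.V) (sl : Slice 𝒪)
    (hsl : ∀ m, residue 𝒪 (sl.a m) = resMatrixOf ρbar β (sl.g m) (sl.i m) (sl.j m))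
    (hbar : 𝒟 (GaloisRepAdic.ofResidualGaloisRep ρbar)) :
    IsDatum 𝒪 (resMatrixOf ρbar β) sl 𝒟 (resMatrixOf ρbar β) := by
  have hk : IsArtinianTestAlgebra 𝒪 (ResidueField 𝒪) := isArtinianTestAlgebra_residueField
  refine ⟨hk, matCont_of_factors _ (resMatrixOf_factors ρbar β), ?_, ?_, ?_⟩
  · intro σ i j a ha
    rw [ResidueField.algebraMap_eq, ha, sub_self]
    exact Ideal.zero_mem _
  · intro m
    rw [ResidueField.algebraMap_eq, hsl m]
  · exact h𝒟.of_isEquiv hk (ofResidualGaloisRep_isEquiv_ofMatrix ρbar β) hbar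

/-- **Layer 2 main result**: the closure properties needed by the core construction. -/
theorem datumClosure [Finite (ResidueField 𝒪)] (h𝒟 : IsDeformationCondition 𝒪 𝒟)
    (ρbar : ResidualGaloisRep (ResidueField 𝒪))
    (β : Module.Basis (Fin 2) (ResidueField 𝒪) ρbar.V) (sl : Slice 𝒪)
    (hsl : ∀ m, residue 𝒪 (sl.a m) = resMatrixOf ρbar β (sl.g m) (sl.i m) (sl.j m))
    (hbar : 𝒟 (GaloisRepAdic.ofResidualGaloisRep ρbar)) :
    DatumClosure 𝒪 (resMatrixOf ρbar β) sl 𝒟 where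
  baseChange := fun r φ hB hd => isDatum_baseChange h𝒟 r φ hB hd
  restrict := fun r φ hinj hA hd => isDatum_restrict h𝒟 r φ hinj hA hd
  glue := fun r r' hd hd' => isDatum_glue h𝒟 r r' hd hd'
  subalgebra := fun hA A₀ => subalgebra_isArtinianTestAlgebra hA A₀
  trivial := isDatum_trivial h𝒟 ρbar β sl hsl hbar

end Closure

end Fermat.Agent.S53
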