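/-
S53 Layer 1 (helper3): existence of the normal form (S3e) by successive approximation.
-/
import Mathlib
import Fermat.Agent.S53.Defs
import Fermat.Agent.S53.L0_helper3_Matrix

set_option autoImplicit false
set_option linter.style.haveILetI false
set_option linter.unusedSectionVars false

namespace Fermat.Agent.S53

open IsLocalRing

section Entries

variable {B : Type*} [CommRing B]

/-- All entries of a `2 × 2` matrix lie in an ideal. -/
def EntriesIn (K : Ideal B) (X : Matrix (Fin 2) (Fin 2) B) : Prop := ∀ p q, X p q ∈ K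

variable {K : Ideal B} {X Y : Matrix (Fin 2) (Fin 2) B}

lemma EntriesIn.zero : EntriesIn K (0 : Matrix (Fin 2) (Fin 2) B) := fun _ _ => K.zero_mem

lemma EntriesIn.add (hX : EntriesIn K X) (hY : EntriesIn K Y) : EntriesIn K (X + Y) :=
  fun p q => K.add_mem (hX p q) (hY p q)

lemma EntriesIn.neg (hX : EntriesIn K X) : EntriesIn K (-X) :=
  fun p q => K.neg_mem (hX p q)

lemma EntriesIn.sub (hX : EntriesIn K X) (hY : EntriesIn K Y) : EntriesIn K (X - Y) :=
  fun p q => K.sub_mem (hX p q) (hY p q)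

lemma EntriesIn.smul (c : B) (hX : EntriesIn K X) : EntriesIn K (c • X) :=
  fun p q => K.mul_mem_left c (hX p q)

lemma EntriesIn.smul_of_mem {c : B} (hc : c ∈ K) (X : Matrix (Fin 2) (Fin 2) B) :
    EntriesIn K (c • X) :=
  fun _ _ => K.mul_mem_right _ hc

lemma EntriesIn.sum {ι : Type*} (s : Finset ι) (f : ι → Matrix (Fin 2) (Fin 2) B)
    (h : ∀ a ∈ s, EntriesIn K (f a)) : EntriesIn K (∑ a ∈ s, f a) := fun p q => by
  rw [Matrix.sum_apply]
  exact K.sum_mem fun a ha => h a ha p q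

lemma EntriesIn.mul_left (Z : Matrix (Fin 2) (Fin 2) B) (hX : EntriesIn K X) :
    EntriesIn K (Z * X) := fun p q => by
  rw [Matrix.mul_apply]
  exact K.sum_mem fun s _ => K.mul_mem_left _ (hX s q)

lemma EntriesIn.mul_right (Z : Matrix (Fin 2) (Fin 2) B) (hX : EntriesIn K X) :
    EntriesIn K (X * Z) := fun p q => by
  rw [Matrix.mul_apply]
  exact K.sum_mem fun s _ => K.mul_mem_right _ (hX p s)

lemma EntriesIn.mul {K' : Ideal B} (hX : EntriesIn K X) (hY : EntriesIn K' Y) :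
    EntriesIn (K * K') (X * Y) := fun p q => by
  rw [Matrix.mul_apply]
  exact (K * K').sum_mem fun s _ => Ideal.mul_mem_mul (hX p s) (hY s q)

lemma EntriesIn.mono {K' : Ideal B} (h : K ≤ K') (hX : EntriesIn K X) : EntriesIn K' X :=
  fun p q => h (hX p q)

lemma entriesIn_bot_iff : EntriesIn (⊥ : Ideal B) X ↔ X = 0 := by
  constructor
  · intro h
    ext p q
    exact (Ideal.mem_bot.1 (h p q))
  · rintro rfl
    exact EntriesIn.zero

end Entries

section StepAlgebra

variable {B : Type*} [CommRing B]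

/-- The algebraic heart of the approximation step: over a ring with ideals `J ≤ 𝔫`, `J * 𝔫 = 0`,
a defect in `J` is removed by conjugating with `1 + M`, `M = -∑ d_a N_a`. -/
theorem step_algebra (J 𝔫 : Ideal B) (hJ𝔫 : J * 𝔫 = ⊥) (hJle : J ≤ 𝔫)
    (R N : Fin 3 → Matrix (Fin 2) (Fin 2) B) (i j : Fin 3 → Fin 2) (α : Fin 3 → B)
    (hC : ∀ a m, (N a * R m - R m * N a) (i m) (j m) - (if a = m then 1 else 0) ∈ 𝔫)
    (hd : ∀ m, R m (i m) (j m) - α m ∈ J)
    (M : Matrix (Fin 2) (Fin 2) B) (hM : M = - ∑ a, (R a (i a) (j a) - α a) • N a) :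
    (1 + M) * (1 - M) = 1 ∧ (1 - M) * (1 + M) = 1 ∧
      ∀ m, ((1 + M) * R m * (1 - M)) (i m) (j m) = α m := by
  have hMJ : EntriesIn J M := by
    rw [hM]
    exact (EntriesIn.sum _ _ fun a _ => EntriesIn.smul_of_mem (hd a) _).neg
  have hMXM : ∀ X : Matrix (Fin 2) (Fin 2) B, M * X * M = 0 := fun X => by
    rw [← entriesIn_bot_iff, ← hJ𝔫, mul_assoc]
    exact hMJ.mul ((hMJ.mono hJle).mul_left X)
  have hMM : M * M = 0 := by simpa using hMXM 1
  refine ⟨?_, ?_, fun m => ?_⟩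
  · have : (1 + M) * (1 - M) = 1 - M * M := by noncomm_ring
    rw [this, hMM, sub_zero]
  · have : (1 - M) * (1 + M) = 1 - M * M := by noncomm_ring
    rw [this, hMM, sub_zero]
  · have h1 : (1 + M) * R m * (1 - M) = R m + (M * R m - R m * M) - M * R m * M := by
      noncomm_ring
    have h2 : M * R m - R m * M =
        - ∑ a, (R a (i a) (j a) - α a) • (N a * R m - R m * N a) := by
      rw [hM]
      simp only [neg_mul, mul_neg, Finset.sum_mul, Finset.mul_sum, smul_mul_assoc,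
        mul_smul_comm, smul_sub, Finset.sum_sub_distrib]
      abel
    have h3 : ∀ a, (R a (i a) (j a) - α a) * (N a * R m - R m * N a) (i m) (j m) =
        (R a (i a) (j a) - α a) * (if a = m then 1 else 0) := fun a => by
      rw [← sub_eq_zero, ← mul_sub, ← Ideal.mem_bot, ← hJ𝔫]
      exact Ideal.mul_mem_mul (hd a) (hC a m)
    rw [h1, hMXM, sub_zero, h2, Matrix.add_apply, Matrix.neg_apply, Matrix.sum_apply]
    simp only [Matrix.smul_apply, smul_eq_mul, h3, mul_ite, mul_one, mul_zero,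
      Finset.sum_ite_eq', Finset.mem_univ, if_true]
    ring

end StepAlgebra

section Quot

variable {B : Type*} [CommRing B]

lemma entriesIn_sub_iff (K : Ideal B) (X Y : Matrix (Fin 2) (Fin 2) B) :
    EntriesIn K (X - Y) ↔
      (Ideal.Quotient.mk K).mapMatrix X = (Ideal.Quotient.mk K).mapMatrix Y := by
  constructor
  · intro h
    ext p q
    rw [RingHom.mapMatrix_apply, RingHom.mapMatrix_apply, Matrix.map_apply, Matrix.map_apply,
      Ideal.Quotient.eq]
    exact h p q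
  · intro h p q
    have := congrFun (congrFun h p) q
    rw [RingHom.mapMatrix_apply, RingHom.mapMatrix_apply, Matrix.map_apply, Matrix.map_apply,
      Ideal.Quotient.eq] at this
    exact this

/-- Conjugation by a unit congruent to `1` changes a matrix by entries in the ideal. -/
lemma conj_sub_entriesIn (K : Ideal B) (U : (Matrix (Fin 2) (Fin 2) B)ˣ)
    (hU : EntriesIn K ((U : Matrix (Fin 2) (Fin 2) B) - 1)) (X : Matrix (Fin 2) (Fin 2) B) :
    EntriesIn K ((U : Matrix (Fin 2) (Fin 2) B) * X *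
      ((U⁻¹ : (Matrix (Fin 2) (Fin 2) B)ˣ) : Matrix (Fin 2) (Fin 2) B) - X) := by
  have h : (U : Matrix (Fin 2) (Fin 2) B) * X *
      ((U⁻¹ : (Matrix (Fin 2) (Fin 2) B)ˣ) : Matrix (Fin 2) (Fin 2) B) - X =
      (((U : Matrix (Fin 2) (Fin 2) B) - 1) * X - X * ((U : Matrix (Fin 2) (Fin 2) B) - 1)) *
        ((U⁻¹ : (Matrix (Fin 2) (Fin 2) B)ˣ) : Matrix (Fin 2) (Fin 2) B) := by
    have h1 : (((U : Matrix (Fin 2) (Fin 2) B) - 1) * X - X * ((U : Matrix (Fin 2) (Fin 2) B) - 1)) *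
        ((U⁻¹ : (Matrix (Fin 2) (Fin 2) B)ˣ) : Matrix (Fin 2) (Fin 2) B) =
        (U : Matrix (Fin 2) (Fin 2) B) * X *
          ((U⁻¹ : (Matrix (Fin 2) (Fin 2) B)ˣ) : Matrix (Fin 2) (Fin 2) B) -
        X * ((U : Matrix (Fin 2) (Fin 2) B) *
          ((U⁻¹ : (Matrix (Fin 2) (Fin 2) B)ˣ) : Matrix (Fin 2) (Fin 2) B)) := by
      noncomm_ring
    rw [h1, Units.mul_inv, mul_one]
  rw [h]
  exact ((hU.mul_right X).sub (hU.mul_left X)).mul_right _

/-- Conjugating by congruent units gives congruent matrices. -/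
lemma conj_congr_entriesIn (K : Ideal B) (U U' : (Matrix (Fin 2) (Fin 2) B)ˣ)
    (hU : EntriesIn K ((U : Matrix (Fin 2) (Fin 2) B) - (U' : Matrix (Fin 2) (Fin 2) B)))
    (X : Matrix (Fin 2) (Fin 2) B) :
    EntriesIn K ((U : Matrix (Fin 2) (Fin 2) B) * X *
        ((U⁻¹ : (Matrix (Fin 2) (Fin 2) B)ˣ) : Matrix (Fin 2) (Fin 2) B) -
      (U' : Matrix (Fin 2) (Fin 2) B) * X *
        ((U'⁻¹ : (Matrix (Fin 2) (Fin 2) B)ˣ) : Matrix (Fin 2) (Fin 2) B)) := by
  rw [entriesIn_sub_iff] at hU ⊢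
  have hinv : (Ideal.Quotient.mk K).mapMatrix
        ((U⁻¹ : (Matrix (Fin 2) (Fin 2) B)ˣ) : Matrix (Fin 2) (Fin 2) B) =
      (Ideal.Quotient.mk K).mapMatrix
        ((U'⁻¹ : (Matrix (Fin 2) (Fin 2) B)ˣ) : Matrix (Fin 2) (Fin 2) B) := by
    have e1 : Units.map ((Ideal.Quotient.mk K).mapMatrix :
        Matrix (Fin 2) (Fin 2) B →+* Matrix (Fin 2) (Fin 2) (B ⧸ K)).toMonoidHom U =
        Units.map ((Ideal.Quotient.mk K).mapMatrix :
        Matrix (Fin 2) (Fin 2) B →+* Matrix (Fin 2) (Fin 2) (B ⧸ K)).toMonoidHom U' :=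
      Units.ext hU
    have e2 := congrArg (fun u : (Matrix (Fin 2) (Fin 2) (B ⧸ K))ˣ =>
      ((u⁻¹ : (Matrix (Fin 2) (Fin 2) (B ⧸ K))ˣ) : Matrix (Fin 2) (Fin 2) (B ⧸ K))) e1
    simpa [← map_inv] using e2
  rw [map_mul, map_mul, map_mul, map_mul, hU, hinv]

end Quot

section Local

variable {A : Type*} [CommRing A] [IsLocalRing A]

/-- A matrix congruent to `1` modulo the maximal ideal is invertible. -/
lemma isUnit_of_entriesIn_sub_one (X : Matrix (Fin 2) (Fin 2) A)
    (hX : EntriesIn (maximalIdeal A) (X - 1)) : IsUnit X := by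
  rw [Matrix.isUnit_iff_isUnit_det]
  apply isUnit_of_map_unit (residue A)
  have h1 : (residue A).mapMatrix X = 1 := by
    have := (entriesIn_sub_iff (maximalIdeal A) X 1).1 hX
    rw [map_one] at this
    exact this
  rw [RingHom.map_det, h1, Matrix.det_one]
  exact isUnit_one

/-- Lifting the algebraic step to `A`: a defect in `m ^ n` (`n ≥ 1`) is improved to `m ^ (n+1)`
by conjugating with a unit congruent to `1` modulo `m ^ n`. -/
theorem step_lift {n : ℕ} (hn : 1 ≤ n)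
    (R N : Fin 3 → Matrix (Fin 2) (Fin 2) A) (i j : Fin 3 → Fin 2) (α : Fin 3 → A)
    (hC : ∀ a m, (N a * R m - R m * N a) (i m) (j m) - (if a = m then 1 else 0) ∈
      maximalIdeal A)
    (hd : ∀ m, R m (i m) (j m) - α m ∈ maximalIdeal A ^ n) :
    ∃ V : (Matrix (Fin 2) (Fin 2) A)ˣ,
      EntriesIn (maximalIdeal A ^ n) ((V : Matrix (Fin 2) (Fin 2) A) - 1) ∧
      ∀ m, ((V : Matrix (Fin 2) (Fin 2) A) * R m *
        ((V⁻¹ : (Matrix (Fin 2) (Fin 2) A)ˣ) : Matrix (Fin 2) (Fin 2) A)) (i m) (j m) - α m ∈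
          maximalIdeal A ^ (n + 1) := by
  set I := maximalIdeal A with hI
  set q := Ideal.Quotient.mk (I ^ (n + 1)) with hq
  let MA : Matrix (Fin 2) (Fin 2) A := - ∑ a, (R a (i a) (j a) - α a) • N a
  have hMA : EntriesIn (I ^ n) MA :=
    (EntriesIn.sum _ _ fun a _ => EntriesIn.smul_of_mem (hd a) _).neg
  have hVu : IsUnit (1 + MA) := by
    apply isUnit_of_entriesIn_sub_one
    rw [add_sub_cancel_left]
    exact hMA.mono (Ideal.pow_le_self (by omega))
  obtain ⟨V, hV⟩ := hVu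
  have hJ𝔫 : (I ^ n).map q * I.map q = ⊥ := by
    rw [← Ideal.map_mul, ← pow_succ, hq, Ideal.map_quotient_self]
  have hJle : (I ^ n).map q ≤ I.map q := Ideal.map_mono (Ideal.pow_le_self (by omega))
  have key := step_algebra ((I ^ n).map q) (I.map q) hJ𝔫 hJle
    (fun m => q.mapMatrix (R m)) (fun a => q.mapMatrix (N a)) i j (fun m => q (α m))
    (fun a m => by
      have := Ideal.mem_map_of_mem q (hC a m)
      rw [map_sub] at this
      convert this using 2
      · rw [← map_mul, ← map_mul, ← map_sub, RingHom.mapMatrix_apply, Matrix.map_apply]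
      · split_ifs <;> simp)
    (fun m => by
      have := Ideal.mem_map_of_mem q (hd m)
      rw [map_sub] at this
      exact this)
    (q.mapMatrix MA)
    (by
      ext p s
      simp [MA, RingHom.mapMatrix_apply, Matrix.map_apply, Matrix.sum_apply, Matrix.neg_apply,
        Matrix.smul_apply])
  obtain ⟨k1, k2, k3⟩ := key
  have hVq : q.mapMatrix (V : Matrix (Fin 2) (Fin 2) A) = 1 + q.mapMatrix MA := by
    rw [hV, map_add, map_one]
  have hVinvq : q.mapMatrix ((V⁻¹ : (Matrix (Fin 2) (Fin 2) A)ˣ) : Matrix (Fin 2) (Fin 2) A) =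
      1 - q.mapMatrix MA := by
    have e1 : q.mapMatrix ((V⁻¹ : (Matrix (Fin 2) (Fin 2) A)ˣ) : Matrix (Fin 2) (Fin 2) A) *
        (1 + q.mapMatrix MA) = 1 := by
      rw [← hVq, ← map_mul, Units.inv_mul, map_one]
    calc q.mapMatrix ((V⁻¹ : (Matrix (Fin 2) (Fin 2) A)ˣ) : Matrix (Fin 2) (Fin 2) A)
        = q.mapMatrix ((V⁻¹ : (Matrix (Fin 2) (Fin 2) A)ˣ) : Matrix (Fin 2) (Fin 2) A) *
            ((1 + q.mapMatrix MA) * (1 - q.mapMatrix MA)) := by rw [k1, mul_one]
      _ = 1 - q.mapMatrix MA := by rw [← mul_assoc, e1, one_mul]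
  refine ⟨V, ?_, fun m => ?_⟩
  · rw [hV, add_sub_cancel_left]
    exact hMA
  · rw [← Ideal.Quotient.eq_zero_iff_mem, map_sub, sub_eq_zero]
    have := k3 m
    rw [← hVq, ← hVinvq, ← map_mul, ← map_mul, RingHom.mapMatrix_apply, Matrix.map_apply] at this
    exact this

end Local

section Complete

variable {A : Type*} [CommRing A] [IsLocalRing A]

lemma smodEq_pow_iff (I : Ideal A) (n : ℕ) (x y : A) :
    x ≡ y [SMOD (I ^ n • ⊤ : Submodule A A)] ↔ x - y ∈ I ^ n := by
  rw [SModEq.sub_mem, smul_eq_mul, Ideal.mul_top]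

/-- `U ≡ 1` modulo `m`, and conjugating the `R m` by `U` makes the defects lie in `m ^ n`. -/
def GoodAt (R : Fin 3 → Matrix (Fin 2) (Fin 2) A) (i j : Fin 3 → Fin 2) (α : Fin 3 → A)
    (n : ℕ) (U : (Matrix (Fin 2) (Fin 2) A)ˣ) : Prop :=
  EntriesIn (maximalIdeal A) ((U : Matrix (Fin 2) (Fin 2) A) - 1) ∧
    ∀ m, ((U : Matrix (Fin 2) (Fin 2) A) * R m *
      ((U⁻¹ : (Matrix (Fin 2) (Fin 2) A)ˣ) : Matrix (Fin 2) (Fin 2) A)) (i m) (j m) - α m ∈
        maximalIdeal A ^ n

variable {R N : Fin 3 → Matrix (Fin 2) (Fin 2) A} {i j : Fin 3 → Fin 2} {α : Fin 3 → A}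

lemma goodAt_succ {n : ℕ} (hn : 1 ≤ n)
    (hC : ∀ a m, (N a * R m - R m * N a) (i m) (j m) - (if a = m then 1 else 0) ∈
      maximalIdeal A)
    {U : (Matrix (Fin 2) (Fin 2) A)ˣ} (h : GoodAt R i j α n U) :
    ∃ U' : (Matrix (Fin 2) (Fin 2) A)ˣ, GoodAt R i j α (n + 1) U' ∧
      EntriesIn (maximalIdeal A ^ n)
        ((U' : Matrix (Fin 2) (Fin 2) A) - (U : Matrix (Fin 2) (Fin 2) A)) := by
  set R' : Fin 3 → Matrix (Fin 2) (Fin 2) A := fun m => (U : Matrix (Fin 2) (Fin 2) A) * R m *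
      ((U⁻¹ : (Matrix (Fin 2) (Fin 2) A)ˣ) : Matrix (Fin 2) (Fin 2) A) with hR'
  have hC' : ∀ a m, (N a * R' m - R' m * N a) (i m) (j m) - (if a = m then 1 else 0) ∈
      maximalIdeal A := fun a m => by
    have hdiff : EntriesIn (maximalIdeal A) (R' m - R m) := conj_sub_entriesIn _ U h.1 (R m)
    have e : N a * R' m - R' m * N a =
        (N a * R m - R m * N a) + (N a * (R' m - R m) - (R' m - R m) * N a) := by
      noncomm_ring
    rw [e, Matrix.add_apply, add_sub_right_comm]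
    exact Ideal.add_mem _ (hC a m) (((hdiff.mul_left _).sub (hdiff.mul_right _)) _ _)
  obtain ⟨V, hV1, hV2⟩ := step_lift hn R' N i j α hC' h.2
  have hVI : EntriesIn (maximalIdeal A) ((V : Matrix (Fin 2) (Fin 2) A) - 1) :=
    hV1.mono (Ideal.pow_le_self (by omega))
  refine ⟨V * U, ⟨?_, fun m => ?_⟩, ?_⟩
  · have e : ((V * U : (Matrix (Fin 2) (Fin 2) A)ˣ) : Matrix (Fin 2) (Fin 2) A) - 1 =
        ((V : Matrix (Fin 2) (Fin 2) A) - 1) * (U : Matrix (Fin 2) (Fin 2) A) +
          ((U : Matrix (Fin 2) (Fin 2) A) - 1) := by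
      rw [Units.val_mul]; noncomm_ring
    rw [e]
    exact (hVI.mul_right _).add h.1
  · have e : ((V * U : (Matrix (Fin 2) (Fin 2) A)ˣ) : Matrix (Fin 2) (Fin 2) A) * R m *
        (((V * U)⁻¹ : (Matrix (Fin 2) (Fin 2) A)ˣ) : Matrix (Fin 2) (Fin 2) A) =
        (V : Matrix (Fin 2) (Fin 2) A) * R' m *
          ((V⁻¹ : (Matrix (Fin 2) (Fin 2) A)ˣ) : Matrix (Fin 2) (Fin 2) A) := by
      rw [mul_inv_rev, Units.val_mul, Units.val_mul, hR']
      simp only [mul_assoc]
    rw [e]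
    exact hV2 m
  · have e : ((V * U : (Matrix (Fin 2) (Fin 2) A)ˣ) : Matrix (Fin 2) (Fin 2) A) -
        (U : Matrix (Fin 2) (Fin 2) A) =
        ((V : Matrix (Fin 2) (Fin 2) A) - 1) * (U : Matrix (Fin 2) (Fin 2) A) := by
      rw [Units.val_mul]; noncomm_ring
    rw [e]
    exact hV1.mul_right _

/-- The approximating sequence. -/
noncomputable def goodSeq
    (hC : ∀ a m, (N a * R m - R m * N a) (i m) (j m) - (if a = m then 1 else 0) ∈
      maximalIdeal A)
    (h1 : GoodAt R i j α 1 1) :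
    ∀ n : ℕ, {U : (Matrix (Fin 2) (Fin 2) A)ˣ // GoodAt R i j α (n + 1) U}
  | 0 => ⟨1, h1⟩
  | n + 1 => ⟨Classical.choose (goodAt_succ (Nat.le_add_left 1 n) hC (goodSeq hC h1 n).2),
      (Classical.choose_spec (goodAt_succ (Nat.le_add_left 1 n) hC (goodSeq hC h1 n).2)).1⟩

lemma goodSeq_succ_sub
    (hC : ∀ a m, (N a * R m - R m * N a) (i m) (j m) - (if a = m then 1 else 0) ∈
      maximalIdeal A)
    (h1 : GoodAt R i j α 1 1) (n : ℕ) :
    EntriesIn (maximalIdeal A ^ (n + 1))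
      (((goodSeq hC h1 (n + 1)).1 : Matrix (Fin 2) (Fin 2) A) -
        ((goodSeq hC h1 n).1 : Matrix (Fin 2) (Fin 2) A)) :=
  (Classical.choose_spec (goodAt_succ (Nat.le_add_left 1 n) hC (goodSeq hC h1 n).2)).2

lemma goodSeq_sub
    (hC : ∀ a m, (N a * R m - R m * N a) (i m) (j m) - (if a = m then 1 else 0) ∈
      maximalIdeal A)
    (h1 : GoodAt R i j α 1 1) {m n : ℕ} (hmn : m ≤ n) :
    EntriesIn (maximalIdeal A ^ (m + 1))
      (((goodSeq hC h1 n).1 : Matrix (Fin 2) (Fin 2) A) -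
        ((goodSeq hC h1 m).1 : Matrix (Fin 2) (Fin 2) A)) := by
  induction n, hmn using Nat.le_induction with
  | base => rw [sub_self]; exact EntriesIn.zero
  | succ n hmn ih =>
    have e : ((goodSeq hC h1 (n + 1)).1 : Matrix (Fin 2) (Fin 2) A) -
        ((goodSeq hC h1 m).1 : Matrix (Fin 2) (Fin 2) A) =
        (((goodSeq hC h1 (n + 1)).1 : Matrix (Fin 2) (Fin 2) A) -
          ((goodSeq hC h1 n).1 : Matrix (Fin 2) (Fin 2) A)) +
        (((goodSeq hC h1 n).1 : Matrix (Fin 2) (Fin 2) A) -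
          ((goodSeq hC h1 m).1 : Matrix (Fin 2) (Fin 2) A)) := by abel
    rw [e]
    exact ((goodSeq_succ_sub hC h1 n).mono (Ideal.pow_le_pow_right (by omega))).add ih

/-- **Existence of the normalising conjugator** (abstract form): over a complete local ring,
three matrices `R m` whose distinguished entries are `≡ α m` modulo `m` can be simultaneously
conjugated by some `U ≡ 1` so that the distinguished entries become equal to `α m`, provided a
"dual basis" `N a` for the commutator functionals exists modulo `m`. -/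
theorem exists_normalizer [IsAdicComplete (maximalIdeal A) A]
    (R N : Fin 3 → Matrix (Fin 2) (Fin 2) A) (i j : Fin 3 → Fin 2) (α : Fin 3 → A)
    (hC : ∀ a m, (N a * R m - R m * N a) (i m) (j m) - (if a = m then 1 else 0) ∈
      maximalIdeal A)
    (hd : ∀ m, R m (i m) (j m) - α m ∈ maximalIdeal A) :
    ∃ U : (Matrix (Fin 2) (Fin 2) A)ˣ,
      EntriesIn (maximalIdeal A) ((U : Matrix (Fin 2) (Fin 2) A) - 1) ∧
      ∀ m, ((U : Matrix (Fin 2) (Fin 2) A) * R m *
        ((U⁻¹ : (Matrix (Fin 2) (Fin 2) A)ˣ) : Matrix (Fin 2) (Fin 2) A)) (i m) (j m) = α m := by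
  have h1 : GoodAt R i j α 1 1 := by
    refine ⟨by rw [Units.val_one, sub_self]; exact EntriesIn.zero, fun m => ?_⟩
    rw [inv_one, Units.val_one, one_mul, mul_one, pow_one]
    exact hd m
  -- entrywise limits
  have hlim : ∀ p q, ∃ L : A, ∀ n,
      ((goodSeq hC h1 n).1 : Matrix (Fin 2) (Fin 2) A) p q - L ∈ maximalIdeal A ^ n := by
    intro p q
    obtain ⟨L, hL⟩ := IsPrecomplete.prec' (I := maximalIdeal A)
      (fun n => ((goodSeq hC h1 n).1 : Matrix (Fin 2) (Fin 2) A) p q) (fun {m n} hmn => by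
        rw [smodEq_pow_iff]
        have := (goodSeq_sub hC h1 hmn).mono (Ideal.pow_le_pow_right (Nat.le_succ m)) p q
        rw [Matrix.sub_apply] at this
        rw [← neg_sub]
        exact Ideal.neg_mem_iff _ |>.2 this)
    exact ⟨L, fun n => (smodEq_pow_iff _ _ _ _).1 (hL n)⟩
  choose L hL using hlim
  let LM : Matrix (Fin 2) (Fin 2) A := Matrix.of L
  have hLM : ∀ n, EntriesIn (maximalIdeal A ^ n)
      (((goodSeq hC h1 n).1 : Matrix (Fin 2) (Fin 2) A) - LM) := fun n p q => hL p q n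
  have hLM1 : EntriesIn (maximalIdeal A) (LM - 1) := by
    have e : LM - 1 = (((goodSeq hC h1 1).1 : Matrix (Fin 2) (Fin 2) A) - 1) -
        (((goodSeq hC h1 1).1 : Matrix (Fin 2) (Fin 2) A) - LM) := by abel
    rw [e]
    have := hLM 1
    rw [pow_one] at this
    exact (goodSeq hC h1 1).2.1.sub this
  obtain ⟨U, hU⟩ := isUnit_of_entriesIn_sub_one LM hLM1
  refine ⟨U, by rw [hU]; exact hLM1, fun m => ?_⟩
  rw [← sub_eq_zero]
  apply IsHausdorff.haus' (I := maximalIdeal A)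
  intro n
  rw [smodEq_pow_iff, sub_zero]
  have hUn : EntriesIn (maximalIdeal A ^ n) ((U : Matrix (Fin 2) (Fin 2) A) -
      ((goodSeq hC h1 n).1 : Matrix (Fin 2) (Fin 2) A)) := by
    rw [hU, ← neg_sub]
    exact (hLM n).neg
  have h2 := conj_congr_entriesIn _ U (goodSeq hC h1 n).1 hUn (R m) (i m) (j m)
  have h3 := (goodSeq hC h1 n).2.2 m
  rw [Matrix.sub_apply] at h2
  have h4 := Ideal.add_mem _ h2 (Ideal.pow_le_pow_right (Nat.le_succ n) h3)
  convert h4 using 1
  ring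

end Complete

section DualBasis

variable {k : Type*} [Field k]

/-- The commutator functionals of a slice, as a linear map `M₂(k) → k³`. -/
noncomputable def sliceMap (T : Fin 3 → Matrix (Fin 2) (Fin 2) k) (i j : Fin 3 → Fin 2) :
    Matrix (Fin 2) (Fin 2) k →ₗ[k] (Fin 3 → k) where
  toFun M := fun m => (M * T m - T m * M) (i m) (j m)
  map_add' M M' := by
    ext m
    simp only [add_mul, mul_add, Matrix.sub_apply, Matrix.add_apply, Pi.add_apply]
    ring
  map_smul' c M := by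
    ext m
    simp only [Matrix.smul_mul, Matrix.mul_smul, Matrix.sub_apply, Matrix.smul_apply,
      Pi.smul_apply, RingHom.id_apply, smul_eq_mul]
    ring

lemma sliceMap_apply (T : Fin 3 → Matrix (Fin 2) (Fin 2) k) (i j : Fin 3 → Fin 2)
    (M : Matrix (Fin 2) (Fin 2) k) (m : Fin 3) :
    sliceMap T i j M m = (M * T m - T m * M) (i m) (j m) := rfl

/-- If the common kernel of the commutator functionals consists of scalars, the slice map is
surjective (rank–nullity), so a "dual basis" exists. -/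
theorem exists_dual_basis (T : Fin 3 → Matrix (Fin 2) (Fin 2) k) (i j : Fin 3 → Fin 2)
    (hker : ∀ M : Matrix (Fin 2) (Fin 2) k,
      (∀ m, (M * T m - T m * M) (i m) (j m) = 0) → ∃ c : k, M = c • 1) :
    ∃ Nbar : Fin 3 → Matrix (Fin 2) (Fin 2) k,
      ∀ a m, (Nbar a * T m - T m * Nbar a) (i m) (j m) = if a = m then 1 else 0 := by
  have hkerle : LinearMap.ker (sliceMap T i j) ≤
      Submodule.span k {(1 : Matrix (Fin 2) (Fin 2) k)} := by
    intro M hM
    rw [LinearMap.mem_ker] at hM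
    obtain ⟨c, rfl⟩ := hker M fun m => congrFun hM m
    exact Submodule.smul_mem _ _ (Submodule.subset_span rfl)
  have h1 : Module.finrank k (LinearMap.ker (sliceMap T i j)) ≤ 1 :=
    (Submodule.finrank_mono hkerle).trans (by
      rw [finrank_span_singleton (one_ne_zero)])
  have h2 := LinearMap.finrank_range_add_finrank_ker (sliceMap T i j)
  have h3 : Module.finrank k (Matrix (Fin 2) (Fin 2) k) = 4 := by
    simp [Module.finrank_matrix]
  have h4 : Module.finrank k (Fin 3 → k) = 3 := by simp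
  have hsurj : LinearMap.range (sliceMap T i j) = ⊤ := by
    apply Submodule.eq_top_of_finrank_eq
    have h5 := Submodule.finrank_le (LinearMap.range (sliceMap T i j))
    omega
  rw [LinearMap.range_eq_top] at hsurj
  choose Nbar hN using fun a : Fin 3 => hsurj (Pi.single a 1)
  refine ⟨Nbar, fun a m => ?_⟩
  have := congrFun (hN a) m
  rw [sliceMap_apply] at this
  rw [this, Pi.single_apply]
  simp only [eq_comm]

end DualBasis

section Wrapper

variable {𝒪 : Type} [CommRing 𝒪] [IsLocalRing 𝒪]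
variable {A : Type} [CommRing A] [IsLocalRing A] [Algebra 𝒪 A]

/-- Conjugate of a matrix representation by a unit. -/
noncomputable def conjRep (U : (M2 A)ˣ) (r : Gal →* M2 A) : Gal →* M2 A where
  toFun σ := (U : M2 A) * r σ * ((U⁻¹ : (M2 A)ˣ) : M2 A)
  map_one' := by rw [map_one, mul_one, Units.mul_inv]
  map_mul' σ τ := by
    rw [map_mul]
    calc (U : M2 A) * (r σ * r τ) * ((U⁻¹ : (M2 A)ˣ) : M2 A)
        = (U : M2 A) * r σ * (((U⁻¹ : (M2 A)ˣ) : M2 A) * (U : M2 A)) * r τ *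
            ((U⁻¹ : (M2 A)ˣ) : M2 A) := by rw [Units.inv_mul, mul_one]; simp only [mul_assoc]
      _ = _ := by simp only [mul_assoc]

lemma conjRep_apply (U : (M2 A)ˣ) (r : Gal →* M2 A) (σ : Gal) :
    conjRep U r σ = (U : M2 A) * r σ * ((U⁻¹ : (M2 A)ˣ) : M2 A) := rfl

lemma conjRep_intertwine (U : (M2 A)ˣ) (r : Gal →* M2 A) (σ : Gal) :
    (U : M2 A) * r σ = conjRep U r σ * U := by
  rw [conjRep_apply, mul_assoc, Units.inv_mul, mul_one]

/-- Conjugating a strict lift by `U ≡ 1` gives a strict lift. -/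
lemma isStrictLift_conjRep {rbar : Gal → M2 (ResidueField 𝒪)} (U : (M2 A)ˣ)
    (hU : EntriesIn (maximalIdeal A) ((U : M2 A) - 1)) (r : Gal →* M2 A)
    (hr : IsStrictLift 𝒪 rbar r) : IsStrictLift 𝒪 rbar (conjRep U r) := by
  intro σ p q a ha
  have h1 := conj_sub_entriesIn _ U hU (r σ) p q
  have h2 := hr σ p q a ha
  have e : conjRep U r σ p q - algebraMap 𝒪 A a =
      ((U : M2 A) * r σ * ((U⁻¹ : (M2 A)ˣ) : M2 A) - r σ) p q + (r σ p q - algebraMap 𝒪 A a) := by
    rw [conjRep_apply, Matrix.sub_apply]; ring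
  rw [e]
  exact Ideal.add_mem _ h1 h2

variable [IsLocalHom (algebraMap 𝒪 A)]

/-- **(S3e) Existence of the normal form** over a complete local `𝒪`-algebra. -/
theorem exists_normal_conj [IsAdicComplete (maximalIdeal A) A]
    (rbar : Gal → M2 (ResidueField 𝒪)) (sl : Slice 𝒪)
    (hres : ∀ m, residue 𝒪 (sl.a m) = rbar (sl.g m) (sl.i m) (sl.j m))
    (hker : ∀ M : M2 (ResidueField 𝒪),
      (∀ m, (M * rbar (sl.g m) - rbar (sl.g m) * M) (sl.i m) (sl.j m) = 0) →
        ∃ c : ResidueField 𝒪, M = c • 1)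
    (r : Gal →* M2 A) (hr : IsStrictLift 𝒪 rbar r) :
    ∃ (U : (M2 A)ˣ) (r' : Gal →* M2 A), (∀ σ, (U : M2 A) * r σ = r' σ * U) ∧
      IsStrictLift 𝒪 rbar r' ∧ IsNormal sl r' ∧ EntriesIn (maximalIdeal A) ((U : M2 A) - 1) := by
  obtain ⟨Nbar, hNbar⟩ := exists_dual_basis (fun m => rbar (sl.g m)) sl.i sl.j hker
  choose Ñ hÑ using fun (a : Fin 3) (p q : Fin 2) => residue_surjective (Nbar a p q)
  let N : Fin 3 → M2 A := fun a => Matrix.of fun p q => algebraMap 𝒪 A (Ñ a p q)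
  let ι := ResidueField.map (algebraMap 𝒪 A)
  have hNres : ∀ a, (residue A).mapMatrix (N a) = ι.mapMatrix (Nbar a) := fun a => by
    ext p q
    simp only [RingHom.mapMatrix_apply, Matrix.map_apply, N, Matrix.of_apply]
    rw [← hÑ a p q]
    exact (ResidueField.map_residue (algebraMap 𝒪 A) _).symm
  have hrres : ∀ σ, (residue A).mapMatrix (r σ) = ι.mapMatrix (rbar σ) := fun σ =>
    (isStrictLift_iff_map rbar r).1 hr σ
  have hC : ∀ a m, (N a * r (sl.g m) - r (sl.g m) * N a) (sl.i m) (sl.j m) -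
      (if a = m then 1 else 0) ∈ maximalIdeal A := fun a m => by
    rw [← residue_eq_zero_iff, map_sub]
    have e1 : residue A ((N a * r (sl.g m) - r (sl.g m) * N a) (sl.i m) (sl.j m)) =
        ((residue A).mapMatrix (N a * r (sl.g m) - r (sl.g m) * N a)) (sl.i m) (sl.j m) := rfl
    rw [e1, map_sub, map_mul, map_mul, hNres, hrres, ← map_mul, ← map_mul, ← map_sub,
      RingHom.mapMatrix_apply, Matrix.map_apply, hNbar a m]
    split_ifs <;> simp
  have hd : ∀ m, r (sl.g m) (sl.i m) (sl.j m) - algebraMap 𝒪 A (sl.a m) ∈ maximalIdeal A :=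
    fun m => hr (sl.g m) (sl.i m) (sl.j m) (sl.a m) (hres m)
  obtain ⟨U, hU1, hU2⟩ := exists_normalizer (fun m => r (sl.g m)) N sl.i sl.j
    (fun m => algebraMap 𝒪 A (sl.a m)) hC hd
  exact ⟨U, conjRep U r, conjRep_intertwine U r, isStrictLift_conjRep U hU1 r hr,
    fun m => hU2 m, hU1⟩

end Wrapper

end Fermat.Agent.S53
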