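/-
S53 Layer 6 (helper7): from slice-form Artinian universality to `DeformationRingData`.
-/
import Mathlib
import Fermat.Prelude.Def_GaloisRep_Adic
import Fermat.Prelude.Def_GaloisRep_DeformationCondition
import Fermat.Prelude.Def_GaloisRep_DeformationRingData
import Fermat.Agent.S53.Defs
import Fermat.Agent.S53.L0_helper3_Matrix
import Fermat.Agent.S53.L6_helper7_Quot

set_option autoImplicit false
set_option linter.unusedSectionVars false

open IsLocalRing GaloisRep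

namespace Fermat.Agent.S53.L6

section MatLemmas

variable {A : Type} [CommRing A]

/-- The matrices with all entries in an ideal form a two-sided ideal. -/
lemma mul_mul_entries_mem (I : Ideal A) (P M Q : M2 A) (hM : ∀ i j, M i j ∈ I) (i j : Fin 2) :
    (P * M * Q) i j ∈ I := by
  rw [Matrix.mul_apply]
  refine Ideal.sum_mem _ fun k _ => Ideal.mul_mem_right _ _ ?_
  rw [Matrix.mul_apply]
  exact Ideal.sum_mem _ fun l _ => Ideal.mul_mem_left _ _ (hM l k)

variable [IsLocalRing A]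

/-- Conjugation preserves adic continuity. -/
theorem matCont_of_conj (r r' : Gal →* M2 A) (U : (M2 A)ˣ)
    (h : ∀ σ, (U : M2 A) * r σ = r' σ * U) (hr : MatCont r) : MatCont r' := by
  intro n
  obtain ⟨L, hL, hL'⟩ := hr n
  refine ⟨L, hL, fun σ hσ i j => ?_⟩
  have h1 : r' σ - 1 = (U : M2 A) * (r σ - 1) * ((U⁻¹ : (M2 A)ˣ) : M2 A) := by
    have h2 : r' σ = (U : M2 A) * r σ * ((U⁻¹ : (M2 A)ˣ) : M2 A) := by
      rw [h σ, mul_assoc, Units.mul_inv, mul_one]
    rw [mul_sub, sub_mul, ← h2, mul_one, Units.mul_inv]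
  rw [h1]
  exact mul_mul_entries_mem _ _ _ _ (hL' σ hσ) i j

end MatLemmas

section StrictNormal

variable {𝒪 : Type} [CommRing 𝒪] [IsLocalRing 𝒪]
  {A B : Type} [CommRing A] [IsLocalRing A] [Algebra 𝒪 A] [CommRing B] [IsLocalRing B]
  [Algebra 𝒪 B]

theorem isStrictLift_mapMat (f : A →ₐ[𝒪] B) (hf : IsLocalHom (f : A →+* B))
    {rbar : Gal → M2 (ResidueField 𝒪)} {r : Gal →* M2 A} (h : IsStrictLift 𝒪 rbar r) :
    IsStrictLift 𝒪 rbar (mapMat (f : A →+* B) r) := by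
  intro σ i j a ha
  have h1 := h σ i j a ha
  have h2 : mapMat (f : A →+* B) r σ i j - algebraMap 𝒪 B a = f (r σ i j - algebraMap 𝒪 A a) := by
    rw [map_sub, AlgHom.commutes]
    rfl
  rw [h2]
  rw [mem_maximalIdeal, mem_nonunits_iff] at h1 ⊢
  exact fun hu => h1 (hf.map_nonunit _ hu)

theorem isNormal_mapMat (f : A →ₐ[𝒪] B) {sl : Slice 𝒪} {r : Gal →* M2 A} (h : IsNormal sl r) :
    IsNormal sl (mapMat (f : A →+* B) r) := by
  intro m
  have h1 : mapMat (f : A →+* B) r (sl.g m) (sl.i m) (sl.j m) = f (r (sl.g m) (sl.i m) (sl.j m)) :=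
    rfl
  rw [h1, h m, AlgHom.commutes]

end StrictNormal

section Hausdorff

variable {A : Type} [CommRing A] [IsLocalRing A] [IsAdicComplete (maximalIdeal A) A]

theorem eq_of_forall_qp {x y : A} (h : ∀ n, qp A n x = qp A n y) : x = y := by
  rw [← sub_eq_zero]
  apply IsHausdorff.haus' (I := maximalIdeal A) (M := A)
  intro n
  rw [SModEq.zero, smul_eq_mul, Ideal.mul_top]
  have h1 := Ideal.Quotient.eq.1 (h n)
  exact Ideal.pow_le_pow_right (Nat.le_succ n) h1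

theorem monoidHom_eq_of_forall_qp {r r' : Gal →* M2 A}
    (h : ∀ n, mapMat (qp A n) r = mapMat (qp A n) r') : r = r' := by
  ext σ i j
  apply eq_of_forall_qp
  intro n
  have := congrArg (fun s : Gal →* M2 (QP A n) => s σ i j) (h n)
  exact this

end Hausdorff

section SliceUniversal

variable {𝒪 : Type} [CommRing 𝒪] [IsLocalRing 𝒪]
  {𝒟 : ∀ ⦃A : Type⦄ [CommRing A] [IsLocalRing A] [Algebra 𝒪 A], GaloisRepAdic A → Prop}
  (h𝒟 : GaloisRep.IsDeformationCondition 𝒪 𝒟)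
  {rbar : Gal → M2 (ResidueField 𝒪)} {sl : Slice 𝒪}
  {R : Type} [CommRing R] [IsLocalRing R] [Algebra 𝒪 R]
  {rR : Gal →* M2 R}

/-- Slice-form universality at Artinian test algebras. -/
def ArtinianSliceUniversal (𝒪 : Type) [CommRing 𝒪] [IsLocalRing 𝒪]
    (𝒟 : ∀ ⦃A : Type⦄ [CommRing A] [IsLocalRing A] [Algebra 𝒪 A], GaloisRepAdic A → Prop)
    (rbar : Gal → M2 (ResidueField 𝒪)) (sl : Slice 𝒪)
    {R : Type} [CommRing R] [IsLocalRing R] [Algebra 𝒪 R] (rR : Gal →* M2 R) : Prop :=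
  ∀ (B : Type) [CommRing B] [IsLocalRing B] [Algebra 𝒪 B], IsArtinianTestAlgebra 𝒪 B →
    ∀ (r : Gal →* M2 B) (hr : MatCont r), IsStrictLift 𝒪 rbar r → IsNormal sl r →
      𝒟 (ofMatrix r hr) →
      ∃! φ : R →ₐ[𝒪] B, IsLocalHom (φ : R →+* B) ∧ ∀ σ, (rR σ).map φ = r σ

/-- Slice-form universality at complete Noetherian local algebras, from the Artinian case. -/
theorem sliceUniversal_complete (huniv : ArtinianSliceUniversal 𝒪 𝒟 rbar sl rR)
    (A : Type) [CommRing A] [IsLocalRing A] [IsNoetherianRing A]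
    [IsAdicComplete (maximalIdeal A) A] [Algebra 𝒪 A] (hloc : IsLocalHom (algebraMap 𝒪 A))
    (hres : Function.Surjective (IsLocalRing.residue A ∘ algebraMap 𝒪 A))
    (r : Gal →* M2 A) (hr : MatCont r) (hstrict : IsStrictLift 𝒪 rbar r) (hnormal : IsNormal sl r)
    (hD : ∀ n, 𝒟 (ofMatrix (mapMat (qp A n) r) (hr.mapMat (qp A n) (qp_isLocalHom A n)))) :
    ∃! φ : R →ₐ[𝒪] A, IsLocalHom (φ : R →+* A) ∧ ∀ σ, (rR σ).map φ = r σ := by
  have hT := fun n => isArtinianTestAlgebra_QP 𝒪 A hloc hres n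
  have hex := fun n => huniv (QP A n) (hT n) (mapMat (qp A n) r)
    (hr.mapMat (qp A n) (qp_isLocalHom A n))
    (isStrictLift_mapMat (qpₐ 𝒪 A n) (qpₐ_isLocalHom 𝒪 A n) hstrict)
    (isNormal_mapMat (qpₐ 𝒪 A n) hnormal) (hD n)
  choose φ hφ hφuniq using hex
  -- compatibility
  have hcompat : ∀ n, (qpFactor 𝒪 A n).comp (φ (n + 1)) = φ n := by
    intro n
    apply hφuniq n
    refine ⟨?_, fun σ => ?_⟩
    · have hfl : IsLocalHom ((qpFactor 𝒪 A n : QP A (n + 1) →ₐ[𝒪] QP A n) :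
          QP A (n + 1) →+* QP A n) := by
        refine ⟨fun x hx => ?_⟩
        obtain ⟨a, rfl⟩ := qp_surjective A (n + 1) x
        have : IsUnit (qp A n a) := hx
        exact ((qp_isLocalHom A n).map_nonunit a this).map (qp A (n + 1))
      exact isLocalHom_comp _ (hφ (n + 1)).1 _ hfl
    · have h1 := (hφ (n + 1)).2 σ
      ext i j
      have h2 := congrArg (fun M : M2 (QP A (n + 1)) => qpFactor 𝒪 A n (M i j)) h1
      exact h2
  obtain ⟨Φ, hΦ⟩ := exists_algHom_of_compatible φ hcompat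
  have hΦloc : IsLocalHom (Φ : R →+* A) := by
    apply isLocalHom_of_qp_zero Φ
    rw [hΦ 0]
    exact (hφ 0).1
  have hΦr : ∀ σ, (rR σ).map Φ = r σ := by
    intro σ
    ext i j
    apply eq_of_forall_qp
    intro n
    have h1 := (hφ n).2 σ
    have h2 := congrArg (fun M : M2 (QP A n) => M i j) h1
    have h3 : φ n (rR σ i j) = qp A n (r σ i j) := h2
    rw [← h3, ← hΦ n]
    rfl
  refine ⟨Φ, ⟨hΦloc, hΦr⟩, ?_⟩
  rintro Ψ ⟨hΨloc, hΨr⟩
  apply algHom_ext_QP
  intro n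
  rw [hΦ n]
  apply hφuniq n
  refine ⟨isLocalHom_comp _ hΨloc _ (qpₐ_isLocalHom 𝒪 A n), fun σ => ?_⟩
  ext i j
  have h2 := congrArg (fun M : M2 A => qp A n (M i j)) (hΨr σ)
  exact h2

/-- Uniqueness of normal forms at Artinian test algebras (helper1's `S3u`). -/
def ArtinianNormalUnique (𝒪 : Type) [CommRing 𝒪] [IsLocalRing 𝒪]
    (rbar : Gal → M2 (ResidueField 𝒪)) (sl : Slice 𝒪) : Prop :=
  ∀ (B : Type) [CommRing B] [IsLocalRing B] [Algebra 𝒪 B], IsArtinianTestAlgebra 𝒪 B →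
    ∀ (r r' : Gal →* M2 B), IsStrictLift 𝒪 rbar r → IsStrictLift 𝒪 rbar r' →
      IsNormal sl r → IsNormal sl r' → ∀ U : (M2 B)ˣ, (∀ σ, (U : M2 B) * r σ = r' σ * U) → r = r'

/-- Uniqueness of normal forms over complete Noetherian local algebras, from the Artinian case. -/
theorem normalUnique_complete (hS3u : ArtinianNormalUnique 𝒪 rbar sl)
    (A : Type) [CommRing A] [IsLocalRing A] [IsNoetherianRing A]
    [IsAdicComplete (maximalIdeal A) A] [Algebra 𝒪 A] (hloc : IsLocalHom (algebraMap 𝒪 A))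
    (hres : Function.Surjective (IsLocalRing.residue A ∘ algebraMap 𝒪 A))
    (r r' : Gal →* M2 A) (hs : IsStrictLift 𝒪 rbar r) (hs' : IsStrictLift 𝒪 rbar r')
    (hn : IsNormal sl r) (hn' : IsNormal sl r') (U : (M2 A)ˣ)
    (hU : ∀ σ, (U : M2 A) * r σ = r' σ * U) : r = r' := by
  apply monoidHom_eq_of_forall_qp
  intro n
  refine hS3u (QP A n) (isArtinianTestAlgebra_QP 𝒪 A hloc hres n) _ _
    (isStrictLift_mapMat (qpₐ 𝒪 A n) (qpₐ_isLocalHom 𝒪 A n) hs)
    (isStrictLift_mapMat (qpₐ 𝒪 A n) (qpₐ_isLocalHom 𝒪 A n) hs')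
    (isNormal_mapMat (qpₐ 𝒪 A n) hn) (isNormal_mapMat (qpₐ 𝒪 A n) hn')
    (Units.map ((qp A n).mapMatrix : M2 A →+* M2 (QP A n)).toMonoidHom U) (fun σ => ?_)
  have h1 := congrArg ((qp A n).mapMatrix : M2 A →+* M2 (QP A n)) (hU σ)
  rw [map_mul, map_mul] at h1
  exact h1

end SliceUniversal

section Final

variable {𝒪 : Type} [CommRing 𝒪] [IsDomain 𝒪] [IsDiscreteValuationRing 𝒪]
  [IsAdicComplete (IsLocalRing.maximalIdeal 𝒪) 𝒪]
  {ρbar : ResidualGaloisRep (IsLocalRing.ResidueField 𝒪)}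
  {𝒟 : ∀ ⦃A : Type⦄ [CommRing A] [IsLocalRing A] [Algebra 𝒪 A], GaloisRepAdic A → Prop}
  {rbar : Gal → M2 (ResidueField 𝒪)} {sl : Slice 𝒪}

/-- (L0d) strict lifts have the right residual representation. -/
def StrictResidual (𝒪 : Type) [CommRing 𝒪] [IsLocalRing 𝒪]
    (ρbar : ResidualGaloisRep (IsLocalRing.ResidueField 𝒪))
    (rbar : Gal → M2 (ResidueField 𝒪)) : Prop :=
  ∀ (A : Type) [CommRing A] [IsLocalRing A] [IsNoetherianRing A]
    [IsAdicComplete (maximalIdeal A) A] [Algebra 𝒪 A] [IsLocalHom (algebraMap 𝒪 A)],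
    Function.Surjective (IsLocalRing.residue A ∘ algebraMap 𝒪 A) →
    ∀ (r : Gal →* M2 A) (hr : MatCont r), IsStrictLift 𝒪 rbar r →
      (ofMatrix r hr).residual.IsEquiv
        (ρbar.baseChangeAlong (IsLocalRing.ResidueField.map (algebraMap 𝒪 A)))

/-- (L0e) representations with the right residual representation have strict matrix forms. -/
def ExistsStrict (𝒪 : Type) [CommRing 𝒪] [IsLocalRing 𝒪]
    (ρbar : ResidualGaloisRep (IsLocalRing.ResidueField 𝒪))
    (rbar : Gal → M2 (ResidueField 𝒪)) : Prop :=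
  ∀ (A : Type) [CommRing A] [IsLocalRing A] [IsNoetherianRing A]
    [IsAdicComplete (maximalIdeal A) A] [Algebra 𝒪 A] [IsLocalHom (algebraMap 𝒪 A)],
    Function.Surjective (IsLocalRing.residue A ∘ algebraMap 𝒪 A) →
    ∀ ρA : GaloisRepAdic A,
      ρA.residual.IsEquiv
        (ρbar.baseChangeAlong (IsLocalRing.ResidueField.map (algebraMap 𝒪 A))) →
      ∃ (r : Gal →* M2 A) (hr : MatCont r), IsStrictLift 𝒪 rbar r ∧ ρA.IsEquiv (ofMatrix r hr)

/-- (S3e) existence of normal forms over complete Noetherian local algebras. -/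
def ExistsNormal (𝒪 : Type) [CommRing 𝒪] [IsLocalRing 𝒪]
    (rbar : Gal → M2 (ResidueField 𝒪)) (sl : Slice 𝒪) : Prop :=
  ∀ (A : Type) [CommRing A] [IsLocalRing A] [IsNoetherianRing A]
    [IsAdicComplete (maximalIdeal A) A] [Algebra 𝒪 A] [IsLocalHom (algebraMap 𝒪 A)],
    Function.Surjective (IsLocalRing.residue A ∘ algebraMap 𝒪 A) →
    ∀ (r : Gal →* M2 A), IsStrictLift 𝒪 rbar r →
      ∃ (U : (M2 A)ˣ) (r' : Gal →* M2 A), (∀ σ, (U : M2 A) * r σ = r' σ * U) ∧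
        IsStrictLift 𝒪 rbar r' ∧ IsNormal sl r'

/-- The full universal property of `ofMatrix rR`, from slice-form Artinian universality. -/
theorem universal_of_slice (h𝒟 : GaloisRep.IsDeformationCondition 𝒪 𝒟)
    (hL0e : ExistsStrict 𝒪 ρbar rbar) (hS3e : ExistsNormal 𝒪 rbar sl)
    (hS3u : ArtinianNormalUnique 𝒪 rbar sl)
    {R : Type} [CommRing R] [IsLocalRing R] [Algebra 𝒪 R]
    (rR : Gal →* M2 R) (hrR : MatCont rR) (hRstrict : IsStrictLift 𝒪 rbar rR)
    (hRnormal : IsNormal sl rR)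
    (huniv : ArtinianSliceUniversal 𝒪 𝒟 rbar sl rR)
    (A : Type) [CommRing A] [IsLocalRing A] [IsNoetherianRing A]
    [IsAdicComplete (IsLocalRing.maximalIdeal A) A] [Algebra 𝒪 A] [IsLocalHom (algebraMap 𝒪 A)]
    (hres : Function.Surjective (IsLocalRing.residue A ∘ algebraMap 𝒪 A))
    (ρA : GaloisRepAdic A) (hρA : 𝒟 ρA)
    (hresid : ρA.residual.IsEquiv
      (ρbar.baseChangeAlong (IsLocalRing.ResidueField.map (algebraMap 𝒪 A)))) :
    ∃! φ : R →ₐ[𝒪] A, ∃ hφ : IsLocalHom (φ : R →+* A),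
      ((ofMatrix rR hrR).baseChangeAlong (φ : R →+* A) hφ).IsEquiv ρA := by
  have hloc : IsLocalHom (algebraMap 𝒪 A) := inferInstance
  obtain ⟨r, hr, hstrict, hρr⟩ := hL0e A hres ρA hresid
  obtain ⟨U, r', hU, hstrict', hnormal'⟩ := hS3e A hres r hstrict
  have hr' : MatCont r' := matCont_of_conj r r' U hU hr
  have hρr' : ρA.IsEquiv (ofMatrix r' hr') :=
    isEquiv_trans hρr ((isEquiv_ofMatrix_iff r r' hr hr').2 ⟨U, hU⟩)
  -- the condition at finite levels
  have hD : ∀ n, 𝒟 (ofMatrix (mapMat (qp A n) r') (hr'.mapMat (qp A n) (qp_isLocalHom A n))) := by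
    intro n
    have h1 := cond_QP h𝒟 hloc hres ρA hρA n
    refine h𝒟.of_isEquiv (isArtinianTestAlgebra_QP 𝒪 A hloc hres n) ?_ h1
    exact isEquiv_trans (isEquiv_baseChangeAlong _ _ hρr')
      (baseChangeAlong_ofMatrix_isEquiv _ _ r' hr')
  obtain ⟨φ, ⟨hφloc, hφr⟩, hφuniq⟩ :=
    sliceUniversal_complete huniv A hloc hres r' hr' hstrict' hnormal' hD
  have hmap : ∀ ψ : R →ₐ[𝒪] A, (∀ σ, (rR σ).map ψ = r' σ) ↔ mapMat (ψ : R →+* A) rR = r' := by
    intro ψ
    constructor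
    · intro h
      ext σ : 1
      exact h σ
    · intro h σ
      rw [← h]
      rfl
  refine ⟨φ, ⟨hφloc, ?_⟩, ?_⟩
  · refine isEquiv_trans (baseChangeAlong_ofMatrix_isEquiv _ hφloc rR hrR) (isEquiv_symm ?_)
    have h1 := (hmap φ).1 hφr
    have h2 : ofMatrix (mapMat (φ : R →+* A) rR) (hrR.mapMat _ hφloc) = ofMatrix r' hr' := by
      congr 1
    rw [h2]
    exact hρr'
  · rintro ψ ⟨hψloc, hψ⟩
    apply hφuniq
    refine ⟨hψloc, ?_⟩
    rw [hmap]
    have h1 : (ofMatrix (mapMat (ψ : R →+* A) rR) (hrR.mapMat _ hψloc)).IsEquiv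
        (ofMatrix r' hr') :=
      isEquiv_trans (isEquiv_symm (baseChangeAlong_ofMatrix_isEquiv _ hψloc rR hrR))
        (isEquiv_trans hψ hρr')
    obtain ⟨U', hU'⟩ := (isEquiv_ofMatrix_iff _ _ _ _).1 h1
    exact normalUnique_complete hS3u A hloc hres _ _
      (isStrictLift_mapMat ψ hψloc hRstrict) hstrict' (isNormal_mapMat ψ hRnormal) hnormal' U' hU'

/-- The final assembly: slice-form data gives a `DeformationRingData`. -/
theorem nonempty_deformationRingData_of_slice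
    (habs : ρbar.IsAbsolutelyIrreducible)
    (h𝒟 : GaloisRep.IsDeformationCondition 𝒪 𝒟)
    (hL0d : StrictResidual 𝒪 ρbar rbar)
    (hL0e : ExistsStrict 𝒪 ρbar rbar) (hS3e : ExistsNormal 𝒪 rbar sl)
    (hS3u : ArtinianNormalUnique 𝒪 rbar sl)
    (R : Type) [CommRing R] [IsLocalRing R] [IsNoetherianRing R]
    [IsAdicComplete (IsLocalRing.maximalIdeal R) R] [Algebra 𝒪 R] [IsLocalHom (algebraMap 𝒪 R)]
    (hRres : Function.Surjective (IsLocalRing.residue R ∘ algebraMap 𝒪 R))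
    (rR : Gal →* M2 R) (hrR : MatCont rR) (hRstrict : IsStrictLift 𝒪 rbar rR)
    (hRnormal : IsNormal sl rR) (hRD : 𝒟 (ofMatrix rR hrR))
    (huniv : ArtinianSliceUniversal 𝒪 𝒟 rbar sl rR) :
    Nonempty (GaloisRep.DeformationRingData 𝒪 ρbar 𝒟) :=
  ⟨{ R := R
     residue_surjective := hRres
     absIrr := habs
     ρ := ofMatrix rR hrR
     isOfType := hRD
     residual_isEquiv := hL0d R hRres rR hrR hRstrict
     universal := fun A _ _ _ _ _ _ hres ρA hρA hresid =>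
       universal_of_slice h𝒟 hL0e hS3e hS3u rR hrR hRstrict hRnormal huniv A hres ρA hρA hresid }⟩

end Final

end Fermat.Agent.S53.L6
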